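import Fermat.Agent.S24.Defs

/-!
# The rotation `t ↦ ζ t` on Laurent series (WP 47)
-/

set_option autoImplicit false

open HahnSeries WithZero

noncomputable section

namespace Fermat.Agent.S24

variable {L : Type*} [Field L]

theorem rot_support (ζ : Lˣ) (f : LaurentSeries L) : (rot ζ f).support = f.support := by
  ext n
  simp only [HahnSeries.mem_support, rot_coeff, ne_eq, mul_eq_zero, Units.ne_zero, false_or]

@[simp] theorem rot_zero (ζ : Lˣ) : rot ζ (0 : LaurentSeries L) = 0 := by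
  ext n; simp

@[simp] theorem rot_single (ζ : Lˣ) (k : ℤ) (a : L) :
    rot ζ (HahnSeries.single k a) = HahnSeries.single k (((ζ ^ k : Lˣ) : L) * a) := by
  ext n
  rcases eq_or_ne n k with rfl | hn
  · simp
  · simp [HahnSeries.coeff_single_of_ne hn]

@[simp] theorem rot_one (ζ : Lˣ) : rot ζ (1 : LaurentSeries L) = 1 := by
  have : (1 : LaurentSeries L) = HahnSeries.single 0 1 := rfl
  rw [this, rot_single]; simp

theorem rot_add (ζ : Lˣ) (f g : LaurentSeries L) : rot ζ (f + g) = rot ζ f + rot ζ g := by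
  ext n; simp [mul_add]

theorem rot_mul (ζ : Lˣ) (f g : LaurentSeries L) : rot ζ (f * g) = rot ζ f * rot ζ g := by
  ext n
  rw [rot_coeff, HahnSeries.coeff_mul, HahnSeries.coeff_mul, Finset.mul_sum]
  have hs : Finset.antidiagonal (rot ζ f).isPWO_support (rot ζ g).isPWO_support n
      = Finset.antidiagonal f.isPWO_support g.isPWO_support n := by
    ext p
    simp only [Finset.mem_antidiagonal, rot_support]
  rw [hs]
  refine Finset.sum_congr rfl ?_
  intro p hp
  have hp' : p.1 + p.2 = n := (Finset.mem_antidiagonal.mp hp).2.2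
  rw [rot_coeff, rot_coeff, ← hp', zpow_add, Units.val_mul]
  ring

/-- The rotation as a ring homomorphism. -/
def rotHom (ζ : Lˣ) : LaurentSeries L →+* LaurentSeries L where
  toFun := rot ζ
  map_one' := rot_one ζ
  map_mul' := rot_mul ζ
  map_zero' := rot_zero ζ
  map_add' := rot_add ζ

@[simp] theorem rotHom_apply (ζ : Lˣ) (f : LaurentSeries L) : rotHom ζ f = rot ζ f := rfl

theorem rot_rot (ζ ξ : Lˣ) (f : LaurentSeries L) : rot ζ (rot ξ f) = rot (ζ * ξ) f := by
  ext n
  simp only [rot_coeff, mul_zpow, Units.val_mul, mul_assoc]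

@[simp] theorem rot_one_left (f : LaurentSeries L) : rot (1 : Lˣ) f = f := by
  ext n; simp

theorem rot_pow_left (ζ : Lˣ) (k : ℕ) (f : LaurentSeries L) :
    (rot ζ)^[k] f = rot (ζ ^ k) f := by
  induction k with
  | zero => simp
  | succ k ih => rw [Function.iterate_succ_apply', ih, rot_rot, pow_succ']

/-- The rotation as a ring automorphism. -/
def rotEquiv (ζ : Lˣ) : LaurentSeries L ≃+* LaurentSeries L :=
  { rotHom ζ with
    invFun := rot ζ⁻¹
    left_inv := fun f => by
      show rot ζ⁻¹ (rot ζ f) = f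
      rw [rot_rot]; simp
    right_inv := fun f => by
      show rot ζ (rot ζ⁻¹ f) = f
      rw [rot_rot]; simp }

@[simp] theorem rotEquiv_apply (ζ : Lˣ) (f : LaurentSeries L) : rotEquiv ζ f = rot ζ f := rfl

theorem rot_injective (ζ : Lˣ) : Function.Injective (rot ζ : LaurentSeries L → _) :=
  (rotEquiv ζ).injective

@[simp] theorem rot_C (ζ : Lˣ) (a : L) :
    rot ζ (HahnSeries.C a : LaurentSeries L) = HahnSeries.C a := by
  show rot ζ (HahnSeries.single 0 a) = HahnSeries.single 0 a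
  rw [rot_single]; simp

@[simp] theorem rot_algebraMap (ζ : Lˣ) (a : L) :
    rot ζ (algebraMap L (LaurentSeries L) a) = algebraMap L (LaurentSeries L) a := by
  rw [ModularCurve.algebraMap_laurentSeries_eq_single, rot_single]; simp

theorem rot_inv (ζ : Lˣ) (f : LaurentSeries L) : rot ζ f⁻¹ = (rot ζ f)⁻¹ :=
  map_inv₀ (rotHom ζ) f

theorem rot_div (ζ : Lˣ) (f g : LaurentSeries L) : rot ζ (f / g) = rot ζ f / rot ζ g :=
  map_div₀ (rotHom ζ) f g

theorem rot_pow (ζ : Lˣ) (f : LaurentSeries L) (k : ℕ) : rot ζ (f ^ k) = rot ζ f ^ k :=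
  map_pow (rotHom ζ) f k

theorem rot_eq_zero_iff (ζ : Lˣ) (f : LaurentSeries L) : rot ζ f = 0 ↔ f = 0 :=
  map_eq_zero (rotHom ζ)

theorem rot_order (ζ : Lˣ) (f : LaurentSeries L) : (rot ζ f).order = f.order := by
  by_cases hf : f = 0
  · subst hf; simp
  · have hf' : rot ζ f ≠ 0 := fun h => hf ((rot_eq_zero_iff ζ f).mp h)
    rw [HahnSeries.order_of_ne hf', HahnSeries.order_of_ne hf]
    congr 1
    exact rot_support ζ f

/-- The valuation of a nonzero Laurent series in terms of the order. -/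
theorem valuation_eq_exp_neg_order {f : LaurentSeries L} (hf : f ≠ 0) :
    (Valued.v f : ℤᵐ⁰) = exp (-f.order) := by
  apply le_antisymm
  · rw [LaurentSeries.valuation_le_iff_coeff_lt_eq_zero]
    intro n hn
    exact HahnSeries.coeff_eq_zero_of_lt_order hn
  · by_contra hlt
    rw [not_le] at hlt
    have hv : (Valued.v f : ℤᵐ⁰) ≠ 0 := (Valuation.ne_zero_iff _).mpr hf
    have h1 : (Valued.v f : ℤᵐ⁰) ≤ exp (-(f.order + 1)) := by
      rw [← exp_log hv] at hlt ⊢
      rw [exp_lt_exp] at hlt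
      rw [exp_le_exp]
      omega
    rw [LaurentSeries.valuation_le_iff_coeff_lt_eq_zero] at h1
    exact hf (HahnSeries.coeff_order_eq_zero.mp (h1 _ (by omega)))

theorem valuation_rot (ζ : Lˣ) (f : LaurentSeries L) :
    (Valued.v (rot ζ f) : ℤᵐ⁰) = Valued.v f := by
  by_cases hf : f = 0
  · subst hf; simp
  · have hf' : rot ζ f ≠ 0 := fun h => hf ((rot_eq_zero_iff ζ f).mp h)
    rw [valuation_eq_exp_neg_order hf, valuation_eq_exp_neg_order hf', rot_order]

/-- A nonzero series fixed by the rotation by `ζ` is supported on the multiples of the order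
of `ζ`. -/
theorem coeff_eq_zero_of_rot_eq {ζ : Lˣ} {m : ℕ} (hζ : IsPrimitiveRoot ζ m)
    {f : LaurentSeries L} (hf : rot ζ f = f) {n : ℤ} (hn : ¬ (m : ℤ) ∣ n) : f.coeff n = 0 := by
  have h := congrArg (fun g => HahnSeries.coeff g n) hf
  simp only [rot_coeff] at h
  by_contra hne
  have h1 : ((ζ ^ n : Lˣ) : L) = 1 := by
    have : (((ζ ^ n : Lˣ) : L) - 1) * f.coeff n = 0 := by rw [sub_mul, h]; ring
    rcases mul_eq_zero.mp this with h' | h'
    · exact sub_eq_zero.mp h'
    · exact absurd h' hne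
  have h2 : ζ ^ n = 1 := Units.ext h1
  exact hn ((hζ.zpow_eq_one_iff_dvd n).mp h2)

theorem dvd_order_of_rot_eq {ζ : Lˣ} {m : ℕ} (hζ : IsPrimitiveRoot ζ m)
    {f : LaurentSeries L} (hf : rot ζ f = f) : (m : ℤ) ∣ f.order := by
  by_cases h0 : f = 0
  · subst h0; simp
  · by_contra hn
    exact h0 (HahnSeries.coeff_order_eq_zero.mp (coeff_eq_zero_of_rot_eq hζ hf hn))

/-- Valuation form of `dvd_order_of_rot_eq`, in the shape used by `card_zeros_eq_of_embeddings`. -/
theorem exists_valuation_eq_exp_mul_of_rot_eq {ζ : Lˣ} {m : ℕ} (hζ : IsPrimitiveRoot ζ m)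
    {f : LaurentSeries L} (hf : rot ζ f = f) (h0 : f ≠ 0) :
    ∃ k : ℤ, (Valued.v f : ℤᵐ⁰) = exp ((m : ℤ) * k) := by
  obtain ⟨k, hk⟩ := dvd_order_of_rot_eq hζ hf
  exact ⟨-k, by rw [valuation_eq_exp_neg_order h0, hk]; congr 1; ring⟩

end Fermat.Agent.S24
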