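import Mathlib
import Fermat.Statements.S24

/-!
Shared definitions for S24 (genus of the function field of `X₀(N)`).
-/

set_option autoImplicit false

namespace Fermat.Agent.S24

open UpperHalfPlane ModularForm EisensteinSeries
open scoped MatrixGroups ModularForm Manifold

noncomputable section

/-- The constant field. -/
abbrev Kb : Type := AlgebraicClosure ℚ

/-- The coset space (left action of `SL(2,ℤ)`), as in `S20/Comb*.lean`. -/
abbrev XN (N : ℕ) : Type := SL(2, ℤ) ⧸ CongruenceSubgroup.Gamma0 N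

instance isAlgebraicKb : Algebra.IsAlgebraic ℚ Kb := AlgebraicClosure.isAlgebraic ℚ

/-- A fixed embedding of the constant field in `ℂ`. -/
def iotaK : Kb →ₐ[ℚ] ℂ := IsAlgClosed.lift

instance instAlgebraKbComplex : Algebra Kb ℂ := iotaK.toRingHom.toAlgebra

lemma algebraMap_Kb_eq : (algebraMap Kb ℂ) = iotaK.toRingHom := rfl

/-- The analytic `j`-function. -/
def jfun (τ : ℍ) : ℂ := E₄ τ ^ 3 / discriminant τ

/-- `τ ↦ d τ` on the upper half plane. -/
def scal (d : ℕ) [NeZero d] (τ : ℍ) : ℍ :=
  ⟨(d : ℂ) * τ, by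
    have hd : (0 : ℝ) < d := by exact_mod_cast Nat.pos_of_ne_zero (NeZero.ne d)
    simpa using mul_pos hd τ.im_pos⟩

@[simp] lemma coe_scal (d : ℕ) [NeZero d] (τ : ℍ) : (scal d τ : ℂ) = (d : ℂ) * τ := rfl

/-- The analytic function `j(dτ)`. -/
def jd (d : ℕ) [NeZero d] (τ : ℍ) : ℂ := jfun (scal d τ)

/-- Holomorphic functions on the upper half plane. -/
def Hol : Subalgebra ℂ (ℍ → ℂ) where
  carrier := {f | MDiff f}
  mul_mem' hf hg := hf.mul hg
  add_mem' hf hg := hf.add hg
  algebraMap_mem' _ := mdifferentiable_const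

lemma mem_Hol {f : ℍ → ℂ} : f ∈ Hol ↔ MDiff f := Iff.rfl

/-- The rotation `t ↦ ζ t` on Laurent series (as a plain function; ring structure in `Rot.lean`). -/
def rot {L : Type*} [Field L] (ζ : Lˣ) (f : LaurentSeries L) : LaurentSeries L :=
  ⟨fun n : ℤ => ((ζ ^ n : Lˣ) : L) * f.coeff n, f.isPWO_support.mono (by
    intro n hn
    simp only [Function.mem_support, ne_eq, mul_eq_zero, not_or] at hn
    exact hn.2)⟩

@[simp] lemma rot_coeff {L : Type*} [Field L] (ζ : Lˣ) (f : LaurentSeries L) (n : ℤ) :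
    (rot ζ f).coeff n = ((ζ ^ n : Lˣ) : L) * f.coeff n := rfl

/-- The formal generators `j(q^d)` of the function field, as Laurent series over `Kb`. -/
def jBarSeries (d : ℕ) [NeZero d] : LaurentSeries Kb :=
  ModularCurve.coeffEmb Kb (ModularCurve.qExpand ℚ d ModularCurve.jq)

lemma jBarSeries_mem (N d : ℕ) [NeZero d] (hd : d ∣ N) :
    jBarSeries d ∈ ModularCurve.modularFunctionFieldBar N :=
  ModularCurve.coeffEmb_mem_laurentBaseChange _ (ModularCurve.jqd_mem_full N hd)

/-- The function field of `X₀(N)` over `Kb`. -/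
abbrev FN (N : ℕ) : Type := ↥(ModularCurve.modularFunctionFieldBar N)

/-- The generator `j(q^d)` as an element of the function field. -/
def jBar (N d : ℕ) [NeZero d] (hd : d ∣ N) : FN N :=
  ⟨jBarSeries d, jBarSeries_mem N d hd⟩

/-- `j` as an element of the function field. -/
def jF (N : ℕ) : FN N := jBar N 1 (one_dvd N)

end

end Fermat.Agent.S24
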