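import Mathlib
import Fermat.Agent.Common.E4Level

set_option autoImplicit false

namespace Fermat.Agent.S24

open UpperHalfPlane ModularForm CongruenceSubgroup Filter Topology
open Matrix.SpecialLinearGroup Fermat.Agent.Common
open scoped MatrixGroups

noncomputable section

local notation "𝕢" => Function.Periodic.qParam

theorem smul_eq_mapGL_smul (γ : SL(2, ℤ)) (τ : ℍ) : γ • τ = mapGL ℝ γ • τ := rfl

/-- (HN2): `d * (γ τ) = γ' ((a τ + b) / e)` with `a = gcd (d, γ₁₀)`, `a e = d`. -/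
theorem exists_hermite_smul (d : ℕ) [NeZero d] (γ : SL(2, ℤ)) :
    ∃ (γ' : SL(2, ℤ)) (a b e : ℤ), 0 < a ∧ 0 < e ∧ a * e = d ∧ a = Int.gcd d (γ 1 0) ∧
      ∀ (hae : (a : ℝ) * e ≠ 0) (τ : ℍ),
        heckeDiagMatrix d • (γ • τ) = γ' • (upperTriangularGL a b e hae • τ) := by
  obtain ⟨γ', a, b, e, ha, he, hae, hag, h⟩ := hermite d γ
  refine ⟨γ', a, b, e, ha, he, hae, hag, fun hne τ => ?_⟩
  rw [smul_eq_mapGL_smul, smul_eq_mapGL_smul, ← mul_smul, ← mul_smul, h hne]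

/-- Invariance of a function on `ℍ` under the full modular group. -/
def IsSLInvariant (J : ℍ → ℂ) : Prop := ∀ (g : SL(2, ℤ)) (τ : ℍ), J (g • τ) = J τ

/-- (HN3). -/
theorem IsSLInvariant.exists_hermite {J : ℍ → ℂ} (hJ : IsSLInvariant J) (d : ℕ) [NeZero d]
    (γ : SL(2, ℤ)) :
    ∃ (a b e : ℤ), 0 < a ∧ 0 < e ∧ a * e = d ∧ a = Int.gcd d (γ 1 0) ∧
      ∀ (hae : (a : ℝ) * e ≠ 0) (τ : ℍ),
        J (heckeDiagMatrix d • (γ • τ)) = J (upperTriangularGL a b e hae • τ) := by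
  obtain ⟨γ', a, b, e, ha, he, hae, hag, h⟩ := exists_hermite_smul d γ
  exact ⟨a, b, e, ha, he, hae, hag, fun hne τ => by rw [h hne τ, hJ]⟩

theorem Gamma0_le_of_dvd {d N : ℕ} (h : d ∣ N) : Gamma0 N ≤ Gamma0 d := by
  intro γ hγ
  rw [Gamma0_mem, ZMod.intCast_zmod_eq_zero_iff_dvd] at hγ ⊢
  exact (Int.natCast_dvd_natCast.mpr h).trans hγ

/-- (HN4). -/
theorem IsSLInvariant.comp_diag_smul {J : ℍ → ℂ} (hJ : IsSLInvariant J) {d N : ℕ} [NeZero d]
    (hd : d ∣ N) {γ : SL(2, ℤ)} (hγ : γ ∈ Gamma0 N) (τ : ℍ) :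
    J (heckeDiagMatrix d • (γ • τ)) = J (heckeDiagMatrix d • τ) := by
  obtain ⟨γ', h⟩ := heckeDiag_mul_Gamma0 d γ (Gamma0_le_of_dvd hd hγ)
  rw [smul_eq_mapGL_smul, ← mul_smul, h, mul_smul, ← smul_eq_mapGL_smul, hJ]

theorem coe_upperTriangularGL_smul {a b e : ℝ} (hae : 0 < a * e) (τ : ℍ) :
    ((upperTriangularGL a b e hae.ne' • τ : ℍ) : ℂ) = ((a : ℂ) * τ + b) / e := by
  rw [UpperHalfPlane.coe_smul_of_det_pos (by rw [det_upperTriangularGL]; exact hae)]
  simp [UpperHalfPlane.num, UpperHalfPlane.denom]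

theorem im_upperTriangularGL_smul {a b e : ℝ} (hae : 0 < a * e) (τ : ℍ) :
    (upperTriangularGL a b e hae.ne' • τ : ℍ).im = a / e * τ.im := by
  have h := congrArg Complex.im (coe_upperTriangularGL_smul (b := b) hae τ)
  rw [UpperHalfPlane.coe_im] at h
  rw [h]
  have : (((a : ℂ) * τ + b) / e) = (((a / e : ℝ) : ℂ) * τ + ((b / e : ℝ) : ℂ)) := by
    have he : (e : ℂ) ≠ 0 := by
      have : e ≠ 0 := right_ne_zero_of_mul hae.ne'
      exact_mod_cast this
    push_cast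
    field_simp
  rw [this]
  simp

theorem norm_qParam_coe (τ : ℍ) : ‖𝕢 1 (τ : ℂ)‖ = Real.exp (-2 * Real.pi * τ.im) := by
  rw [Function.Periodic.norm_qParam]
  simp

theorem tendsto_upperTriangularGL_smul {a b e : ℝ} (hae : 0 < a * e) :
    Tendsto (fun τ : ℍ => upperTriangularGL a b e hae.ne' • τ) atImInfty atImInfty :=
  tendsto_smul_atImInfty (by simp)

/-- `J` has a simple pole with leading coefficient `1` at `i∞`: `J = q⁻¹ (1 + o(1))`. -/
def HasSimplePoleAtImInfty (J : ℍ → ℂ) : Prop :=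
  Tendsto (fun τ : ℍ => J τ * 𝕢 1 (τ : ℂ)) atImInfty (𝓝 1)

/-- (G1). -/
theorem HasSimplePoleAtImInfty.tendsto_norm {J : ℍ → ℂ} (hJ : HasSimplePoleAtImInfty J)
    {a b e : ℝ} (hae : 0 < a * e) :
    Tendsto (fun τ : ℍ => ‖J (upperTriangularGL a b e hae.ne' • τ)‖ *
      Real.exp (-2 * Real.pi * (a / e) * τ.im)) atImInfty (𝓝 1) := by
  have h := (hJ.comp (tendsto_upperTriangularGL_smul (b := b) hae)).norm
  rw [norm_one] at h
  refine h.congr fun τ => ?_
  simp only [Function.comp_apply, norm_mul, norm_qParam_coe]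
  rw [im_upperTriangularGL_smul hae]
  congr 2
  ring

/-- (G2): if `τ ↦ J (N τ)` is invariant under `γ` then `γ ∈ Γ₀(N)`. -/
theorem mem_Gamma0_of_comp_diag_eq {J : ℍ → ℂ} (hJ : IsSLInvariant J)
    (hJ' : HasSimplePoleAtImInfty J) (N : ℕ) [NeZero N] (γ : SL(2, ℤ))
    (h : ∀ τ : ℍ, J (heckeDiagMatrix N • (γ • τ)) = J (heckeDiagMatrix N • τ)) :
    γ ∈ Gamma0 N := by
  obtain ⟨a, b, e, ha, he, hae, hag, hh⟩ := hJ.exists_hermite N γ
  have har : (0 : ℝ) < a := by exact_mod_cast ha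
  have her : (0 : ℝ) < e := by exact_mod_cast he
  have hpos : (0 : ℝ) < (a : ℝ) * e := mul_pos har her
  have hNpos : (0 : ℝ) < (N : ℝ) * 1 := by
    rw [mul_one]; exact_mod_cast Nat.pos_of_ne_zero (NeZero.ne N)
  have hD : heckeDiagMatrix N = upperTriangularGL N 0 1 hNpos.ne' := by
    simp [heckeDiagMatrix, NeZero.ne N]
  have h1 := hJ'.tendsto_norm (b := b) hpos
  have h2 := hJ'.tendsto_norm (b := 0) hNpos
  -- the quotient of the two exponentials tends to `1`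
  have h3 : Tendsto (fun τ : ℍ => Real.exp (-2 * Real.pi * ((a : ℝ) / e - N) * τ.im))
      atImInfty (𝓝 1) := by
    have h4 := h1.div h2 one_ne_zero
    rw [show (1 : ℝ) / 1 = 1 from div_one 1] at h4
    have hev : ∀ᶠ τ : ℍ in atImInfty,
        ‖J (upperTriangularGL N 0 1 hNpos.ne' • τ)‖ * Real.exp (-2 * Real.pi * ((N : ℝ) / 1) * τ.im)
          ≠ 0 := h2.eventually_ne one_ne_zero
    refine h4.congr' ?_
    filter_upwards [hev] with τ hτ
    have hJne : ‖J (upperTriangularGL N 0 1 hNpos.ne' • τ)‖ ≠ 0 := left_ne_zero_of_mul hτ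
    have heq : J (upperTriangularGL a b e hpos.ne' • τ) = J (upperTriangularGL N 0 1 hNpos.ne' • τ) := by
      rw [← hh hpos.ne' τ, h τ, hD]
    simp only [Pi.div_apply]
    rw [heq, mul_div_mul_left _ _ hJne, ← Real.exp_sub]
    congr 1
    ring
  -- hence the exponent vanishes
  have h5 : (a : ℝ) / e = N := by
    by_contra hne
    have him : Tendsto (fun τ : ℍ => τ.im) atImInfty atTop := tendsto_comap
    rcases lt_or_gt_of_ne hne with hlt | hgt
    · have hc : 0 < -2 * Real.pi * ((a : ℝ) / e - N) := by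
        have : (a : ℝ) / e - N < 0 := sub_neg.mpr hlt
        nlinarith [Real.pi_pos]
      have h6 : Tendsto (fun τ : ℍ => Real.exp (-2 * Real.pi * ((a : ℝ) / e - N) * τ.im))
          atImInfty atTop :=
        Real.tendsto_exp_atTop.comp (him.const_mul_atTop hc)
      exact not_tendsto_nhds_of_tendsto_atTop h6 _ h3
    · have hc : -2 * Real.pi * ((a : ℝ) / e - N) < 0 := by
        have : 0 < (a : ℝ) / e - N := sub_pos.mpr hgt
        nlinarith [Real.pi_pos]
      have h6 : Tendsto (fun τ : ℍ => Real.exp (-2 * Real.pi * ((a : ℝ) / e - N) * τ.im))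
          atImInfty (𝓝 0) :=
        Real.tendsto_exp_atBot.comp (him.const_mul_atTop_of_neg hc)
      exact zero_ne_one (tendsto_nhds_unique h6 h3)
  have h7 : (a : ℝ) = N * e := by
    rw [div_eq_iff her.ne'] at h5
    exact h5
  have h8 : a = N * e := by exact_mod_cast h7
  have h9 : e = 1 := by
    have hN : (N : ℤ) ≠ 0 := by exact_mod_cast NeZero.ne N
    have : (N : ℤ) * (e * e) = N * 1 := by
      have h12 := hae
      rw [h8] at h12
      linear_combination h12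
    have h10 : e * e = 1 := mul_left_cancel₀ hN this
    nlinarith
  rw [Gamma0_mem, ZMod.intCast_zmod_eq_zero_iff_dvd]
  have h11 : (N : ℤ) = Int.gcd N (γ 1 0) := by rw [← hag, h8, h9, mul_one]
  rw [h11]
  exact Int.gcd_dvd_right _ _

end

end Fermat.Agent.S24
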