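import Mathlib
import Fermat.Prelude.Thm_UpperHalfPlane_qExpansion_coeff_nat_mul

set_option autoImplicit false

open UpperHalfPlane Function Complex
open scoped Manifold

noncomputable section

namespace Fermat.Agent.S24

/-- Holomorphic functions on `ℍ` that are `h`-periodic and bounded at `i∞`. -/
def HolPer (h : ℕ) : Subalgebra ℂ (ℍ → ℂ) where
  carrier := {f | MDiff f ∧ Periodic (f ∘ ofComplex) (h : ℝ) ∧ IsBoundedAtImInfty f}
  mul_mem' := by
    rintro f g ⟨hf1, hf2, hf3⟩ ⟨hg1, hg2, hg3⟩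
    exact ⟨hf1.mul hg1, hf2.mul hg2, hf3.mul hg3⟩
  add_mem' := by
    rintro f g ⟨hf1, hf2, hf3⟩ ⟨hg1, hg2, hg3⟩
    exact ⟨hf1.add hg1, hf2.add hg2, hf3.add hg3⟩
  algebraMap_mem' := by
    intro c
    refine ⟨mdifferentiable_const, fun x => rfl, ?_⟩
    exact Filter.const_boundedAtFilter _ c

theorem mem_HolPer {h : ℕ} {f : ℍ → ℂ} :
    f ∈ HolPer h ↔ MDiff f ∧ Periodic (f ∘ ofComplex) (h : ℝ) ∧ IsBoundedAtImInfty f :=
  Iff.rfl

variable (h : ℕ) [NeZero h]

theorem HolPer.pos : (0 : ℝ) < (h : ℝ) := by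
  exact_mod_cast Nat.pos_of_ne_zero (NeZero.ne h)

theorem HolPer.analyticAt (f : HolPer h) : AnalyticAt ℂ (cuspFunction (h : ℝ) (f : ℍ → ℂ)) 0 :=
  analyticAt_cuspFunction_zero (HolPer.pos h) f.2.2.1 f.2.1 f.2.2.2

/-- The `q_h`-expansion as an algebra homomorphism. -/
def qExpHom : HolPer h →ₐ[ℂ] PowerSeries ℂ where
  toFun f := qExpansion (h : ℝ) (f : ℍ → ℂ)
  map_one' := qExpansion_one _
  map_mul' f g := qExpansion_mul (HolPer.analyticAt h f) (HolPer.analyticAt h g)
  map_zero' := qExpansion_zero _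
  map_add' f g := qExpansion_add (HolPer.analyticAt h f) (HolPer.analyticAt h g)
  commutes' c := by
    have h1 : ((algebraMap ℂ (HolPer h) c : HolPer h) : ℍ → ℂ) = c • (1 : ℍ → ℂ) := by
      ext τ; simp [Algebra.algebraMap_eq_smul_one]
    have h2 := qExpansion_smul (HolPer.analyticAt h 1) c
    simp only [OneMemClass.coe_one] at h2
    rw [h1, h2, qExpansion_one, Algebra.algebraMap_eq_smul_one]

@[simp] theorem qExpHom_apply (f : HolPer h) : qExpHom h f = qExpansion (h : ℝ) (f : ℍ → ℂ) := rfl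

theorem qExpHom_injective : Injective (qExpHom h) := by
  rw [injective_iff_map_eq_zero]
  intro f hf
  have := (qExpansion_eq_zero_iff (HolPer.pos h) f.2.2.1 f.2.1 f.2.2.2).mp hf
  exact Subtype.ext this

instance : IsDomain (HolPer h) :=
  (qExpHom_injective h).isDomain (qExpHom h).toRingHom

/-- `q_h`-expansion with values in Laurent series. -/
def qExpLaurent : HolPer h →+* LaurentSeries ℂ :=
  (HahnSeries.ofPowerSeries ℤ ℂ).comp (qExpHom h).toRingHom

theorem qExpLaurent_injective : Injective (qExpLaurent h) :=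
  (HahnSeries.ofPowerSeries_injective).comp (qExpHom_injective h)

/-- Field of fractions of `HolPer h`. -/
abbrev MerPer : Type := FractionRing (HolPer h)

/-- The Laurent `q_h`-expansion on the fraction field. -/
def toLaurent : MerPer h →+* LaurentSeries ℂ :=
  IsFractionRing.lift (qExpLaurent_injective h)

theorem toLaurent_algebraMap (f : HolPer h) :
    toLaurent h (algebraMap (HolPer h) (MerPer h) f) =
      HahnSeries.ofPowerSeries ℤ ℂ (qExpansion (h : ℝ) (f : ℍ → ℂ)) :=
  IsFractionRing.lift_algebraMap _ _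

theorem toLaurent_injective : Injective (toLaurent h) := (toLaurent h).injective

theorem toLaurent_div (a b : HolPer h) :
    toLaurent h (algebraMap _ (MerPer h) a / algebraMap _ (MerPer h) b) =
      HahnSeries.ofPowerSeries ℤ ℂ (qExpansion (h : ℝ) (a : ℍ → ℂ)) /
        HahnSeries.ofPowerSeries ℤ ℂ (qExpansion (h : ℝ) (b : ℍ → ℂ)) := by
  rw [map_div₀, toLaurent_algebraMap, toLaurent_algebraMap]

theorem toLaurent_const (c : ℂ) :
    toLaurent h (algebraMap ℂ (MerPer h) c) = HahnSeries.C c := by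
  rw [IsScalarTower.algebraMap_apply ℂ (HolPer h) (MerPer h), toLaurent_algebraMap]
  have := (qExpHom h).commutes c
  rw [qExpHom_apply] at this
  rw [this]
  simp

end Fermat.Agent.S24
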