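import Mathlib
import Fermat.Agent.S24.Defs
import Fermat.Agent.S24.Hermite
import Fermat.Agent.S24.HolPer

set_option autoImplicit false

namespace Fermat.Agent.S24

open UpperHalfPlane ModularForm CongruenceSubgroup Filter Topology EisensteinSeries
open Matrix.SpecialLinearGroup Fermat.Agent.Common
open scoped MatrixGroups Manifold

noncomputable section

local notation "𝕢" => Function.Periodic.qParam

theorem scal_eq_heckeDiagMatrix_smul (d : ℕ) [NeZero d] (τ : ℍ) :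
    scal d τ = heckeDiagMatrix d • τ := by
  apply UpperHalfPlane.ext
  rw [coe_scal, coe_heckeDiagMatrix_smul (NeZero.ne d)]

theorem discriminant_slash (γ : SL(2, ℤ)) :
    ModularForm.discriminant ∣[(12 : ℤ)] mapGL ℝ γ = ModularForm.discriminant :=
  SlashInvariantFormClass.slash_action_eq CuspForm.discriminant _ ⟨γ, rfl⟩

theorem jfun_isSLInvariant : IsSLInvariant jfun := by
  intro γ τ
  have h4 : (⇑E₄ ∣[(4 : ℤ)] γ) τ = E₄ τ := congrFun (E4_slash γ) τ
  have h12 : (ModularForm.discriminant ∣[(12 : ℤ)] γ) τ = ModularForm.discriminant τ :=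
    congrFun (discriminant_slash γ) τ
  rw [ModularForm.SL_slash_apply] at h4 h12
  have hden : denom γ τ ≠ 0 := denom_ne_zero _ τ
  unfold jfun
  rw [← h4, ← h12]
  generalize denom γ τ = x at *
  have e : (x ^ (-4 : ℤ)) ^ 3 = x ^ (-12 : ℤ) := by
    rw [← zpow_natCast, ← zpow_mul]; norm_num
  rw [mul_pow, e, mul_div_mul_right _ _ (zpow_ne_zero _ hden)]

theorem jfun_hasSimplePoleAtImInfty : HasSimplePoleAtImInfty jfun := by
  unfold HasSimplePoleAtImInfty
  have h1 := (tendsto_E4.pow 3).div tendsto_atImInfty_tprod_one_sub_eta_q_pow one_ne_zero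
  rw [one_pow, div_one] at h1
  refine h1.congr fun τ => ?_
  have hq : 𝕢 1 (τ : ℂ) ≠ 0 := by
    simp [Function.Periodic.qParam]
  have hΔ := discriminant_ne_zero τ
  simp only [Pi.div_apply, jfun]
  rw [discriminant_eq_q_prod] at hΔ ⊢
  have hp := right_ne_zero_of_mul hΔ
  field_simp

/-- WP 56 (i). -/
theorem exists_jd_smul_eq (d : ℕ) [NeZero d] (g : SL(2, ℤ)) :
    ∃ (a b e : ℤ), 0 < a ∧ 0 < e ∧ a * e = d ∧ a = Int.gcd d (g 1 0) ∧
      ∀ (hae : (a : ℝ) * e ≠ 0) (τ : ℍ),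
        jd d (g • τ) = jfun (upperTriangularGL a b e hae • τ) := by
  obtain ⟨a, b, e, ha, he, hae, hag, h⟩ := jfun_isSLInvariant.exists_hermite d g
  refine ⟨a, b, e, ha, he, hae, hag, fun hne τ => ?_⟩
  rw [jd, scal_eq_heckeDiagMatrix_smul, h hne]

/-- WP 56 (ii). -/
theorem jd_smul_of_mem_Gamma0 {d N : ℕ} [NeZero d] (hd : d ∣ N) {γ : SL(2, ℤ)}
    (hγ : γ ∈ Gamma0 N) (τ : ℍ) : jd d (γ • τ) = jd d τ := by
  rw [jd, jd, scal_eq_heckeDiagMatrix_smul, scal_eq_heckeDiagMatrix_smul,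
    jfun_isSLInvariant.comp_diag_smul hd hγ]

/-- WP 56 (iv). -/
theorem mem_Gamma0_of_jd_smul_eq (N : ℕ) [NeZero N] (g : SL(2, ℤ))
    (h : ∀ τ : ℍ, jd N (g • τ) = jd N τ) : g ∈ Gamma0 N := by
  refine mem_Gamma0_of_comp_diag_eq jfun_isSLInvariant jfun_hasSimplePoleAtImInfty N g
    fun τ => ?_
  have := h τ
  rwa [jd, jd, scal_eq_heckeDiagMatrix_smul, scal_eq_heckeDiagMatrix_smul] at this

/-- Distinct cosets give distinct conjugates of `j_N`. -/
theorem jd_smul_eq_iff (N : ℕ) [NeZero N] (g g' : SL(2, ℤ)) :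
    (∀ τ : ℍ, jd N (g • τ) = jd N (g' • τ)) ↔ g * g'⁻¹ ∈ Gamma0 N := by
  constructor
  · intro h
    refine mem_Gamma0_of_jd_smul_eq N _ fun τ => ?_
    have := h (g'⁻¹ • τ)
    rwa [smul_inv_smul, ← mul_smul] at this
  · intro h τ
    have := jd_smul_of_mem_Gamma0 (dvd_refl N) h (g' • τ)
    rwa [← mul_smul, inv_mul_cancel_right] at this

/-- Composition with `τ ↦ (a τ + b) / e`. -/
def compTri (a b e : ℝ) (hae : 0 < a * e) (f : ℍ → ℂ) : ℍ → ℂ :=
  fun τ => f (upperTriangularGL a b e hae.ne' • τ)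

theorem compTri_apply (a b e : ℝ) (hae : 0 < a * e) (f : ℍ → ℂ) (τ : ℍ) :
    compTri a b e hae f τ = f (upperTriangularGL a b e hae.ne' • τ) := rfl

theorem compTri_eq_smul_slash (a b e : ℝ) (hae : 0 < a * e) (f : ℍ → ℂ) :
    compTri a b e hae f = ((a * e : ℝ) : ℂ) • (f ∣[(0 : ℤ)] upperTriangularGL a b e hae.ne') := by
  ext τ
  have hne : ((a * e : ℝ) : ℂ) ≠ 0 := by exact_mod_cast hae.ne'
  rw [Pi.smul_apply, slash_upperTriangularGL_apply 0 hae, compTri_apply, smul_eq_mul]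
  simp only [zero_sub, neg_zero, zpow_zero, mul_one, zpow_neg_one]
  rw [← mul_assoc, mul_inv_cancel₀ hne, one_mul]

theorem mdiff_compTri (a b e : ℝ) (hae : 0 < a * e) {f : ℍ → ℂ} (hf : MDiff f) :
    MDiff (compTri a b e hae f) := by
  rw [compTri_eq_smul_slash]
  exact (hf.slash 0 _).const_smul _

theorem isBoundedAtImInfty_compTri (a b e : ℝ) (hae : 0 < a * e) {f : ℍ → ℂ}
    (hf : IsBoundedAtImInfty f) : IsBoundedAtImInfty (compTri a b e hae f) :=
  Asymptotics.IsBigO.comp_tendsto hf (tendsto_upperTriangularGL_smul (b := b) hae)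

theorem periodic_compTri {a b e : ℤ} (hae : (0 : ℝ) < (a : ℝ) * e) {N : ℕ} (heN : e ∣ (N : ℤ))
    {f : ℍ → ℂ} (hf : Function.Periodic (f ∘ ofComplex) ((1 : ℕ) : ℝ)) :
    Function.Periodic (compTri a b e hae f ∘ ofComplex) (N : ℝ) := by
  intro z
  obtain ⟨m, hm⟩ := heN
  have he : (e : ℂ) ≠ 0 := by
    have : (e : ℝ) ≠ 0 := right_ne_zero_of_mul hae.ne'
    exact_mod_cast this
  rcases lt_or_ge 0 z.im with hz | hz
  · have hz' : 0 < (z + ((N : ℝ) : ℂ)).im := by simpa using hz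
    simp only [Function.comp_apply, compTri_apply]
    rw [ofComplex_apply_of_im_pos hz, ofComplex_apply_of_im_pos hz']
    have h1 := (hf.int_mul (a * m))
      ((upperTriangularGL a b e hae.ne' • (⟨z, hz⟩ : ℍ) : ℍ) : ℂ)
    simp only [Function.comp_apply, ofComplex_apply] at h1
    rw [← h1]
    congr 1
    rw [← ofComplex_apply (upperTriangularGL a b e hae.ne' • (⟨z + ((N : ℝ) : ℂ), hz'⟩ : ℍ))]
    congr 1
    rw [coe_upperTriangularGL_smul hae, coe_upperTriangularGL_smul hae]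
    have hN : (N : ℂ) = e * m := by exact_mod_cast hm
    push_cast
    rw [hN]
    field_simp
    ring
  · have hz' : (z + ((N : ℝ) : ℂ)).im ≤ 0 := by simpa using hz
    simp only [Function.comp_apply]
    rw [ofComplex_apply_eq_of_im_nonpos hz' hz]

/-- WP 56 (iii): `f ∘ (τ ↦ (a τ + b) / e)` is `N`-periodic, holomorphic and bounded at `i∞`
whenever `f` is `1`-periodic, holomorphic, bounded at `i∞` and `e ∣ N`. -/
theorem compTri_mem_HolPer {a b e : ℤ} (hae : (0 : ℝ) < (a : ℝ) * e) {N : ℕ} (heN : e ∣ (N : ℤ))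
    {f : ℍ → ℂ} (hf : f ∈ HolPer 1) : compTri a b e hae f ∈ HolPer N :=
  ⟨mdiff_compTri _ _ _ hae hf.1, periodic_compTri hae heN hf.2.1,
    isBoundedAtImInfty_compTri _ _ _ hae hf.2.2⟩

theorem E4_mem_HolPer_one : (⇑E₄ : ℍ → ℂ) ∈ HolPer 1 := by
  refine ⟨ModularFormClass.holo E₄, ?_, ModularFormClass.bdd_at_infty E₄⟩
  have := SlashInvariantFormClass.periodic_comp_ofComplex E₄ one_mem_strictPeriods_SL
  simpa using this

theorem discriminant_mem_HolPer_one : ModularForm.discriminant ∈ HolPer 1 := by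
  refine ⟨CuspFormClass.holo CuspForm.discriminant, ?_,
    (discriminant_isZeroAtImInfty).isBoundedAtImInfty⟩
  have := SlashInvariantFormClass.periodic_comp_ofComplex CuspForm.discriminant
    one_mem_strictPeriods_SL
  simpa using this

/-- The conjugate `τ ↦ j_d (g τ)` as a quotient of two elements of `HolPer N` (`d ∣ N`). -/
theorem exists_jd_smul_eq_div {d N : ℕ} [NeZero d] (hd : d ∣ N) (g : SL(2, ℤ)) :
    ∃ A B : HolPer N, (∀ τ, (B : ℍ → ℂ) τ ≠ 0) ∧
      ∀ τ, jd d (g • τ) = (A : ℍ → ℂ) τ / (B : ℍ → ℂ) τ := by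
  obtain ⟨a, b, e, ha, he, hae, -, h⟩ := exists_jd_smul_eq d g
  have har : (0 : ℝ) < a := by exact_mod_cast ha
  have her : (0 : ℝ) < e := by exact_mod_cast he
  have hpos : (0 : ℝ) < (a : ℝ) * e := mul_pos har her
  have heN : e ∣ (N : ℤ) := (Dvd.intro_left a hae).trans (Int.natCast_dvd_natCast.mpr hd)
  refine ⟨⟨compTri a b e hpos E₄, compTri_mem_HolPer hpos heN E4_mem_HolPer_one⟩ ^ 3,
    ⟨compTri a b e hpos ModularForm.discriminant,
      compTri_mem_HolPer hpos heN discriminant_mem_HolPer_one⟩, fun τ => ?_, fun τ => ?_⟩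
  · exact discriminant_ne_zero _
  · rw [h hpos.ne' τ]
    rfl

end

end Fermat.Agent.S24
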