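import Mathlib
import Fermat.Prelude.Def_ModularCurve_LaurentCoeff

set_option autoImplicit false

namespace Fermat.Agent.S24

open ModularCurve IntermediateField

section DL0

variable {K C : Type*} [Field K] [Field C] (ι : K →+* C)

/-- Laurent series over `K` which are `K`-linearly independent stay linearly independent over any
extension field `C` after extending the coefficients. -/
theorem linearIndependent_coeffMap {I : Type*} (f : I → LaurentSeries K)
    (hf : LinearIndependent K f) :
    LinearIndependent C (fun i => coeffMap ι (f i)) := by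
  classical
  let _ : Algebra K C := ι.toAlgebra
  let b := Module.Basis.ofVectorSpace K C
  rw [linearIndependent_iff'] at hf ⊢
  intro s g hg i hi
  have hcoeff : ∀ k : ℤ, ∑ i ∈ s, g i * ι ((f i).coeff k) = 0 := by
    intro k
    have := congrArg (fun x : LaurentSeries C => x.coeff k) hg
    simpa [HahnSeries.coeff_sum, HahnSeries.coeff_smul] using this
  have hl : ∀ l, b.repr (g i) l = 0 := by
    intro l
    refine hf s (fun i => b.repr (g i) l) ?_ i hi
    ext k
    have h1 := congrArg (fun c : C => b.repr c l) (hcoeff k)
    simp only [map_sum, Finsupp.coe_finsetSum, Finset.sum_apply, map_zero,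
      Finsupp.coe_zero, Pi.zero_apply] at h1
    have h2 : ∀ i, b.repr (g i * ι ((f i).coeff k)) l = b.repr (g i) l * (f i).coeff k := by
      intro i
      have : g i * ι ((f i).coeff k) = ((f i).coeff k) • g i := by
        rw [Algebra.smul_def, mul_comm]; rfl
      rw [this, map_smul, Finsupp.smul_apply, smul_eq_mul, mul_comm]
    simp only [h2] at h1
    simpa [HahnSeries.coeff_sum, HahnSeries.coeff_smul] using h1
  have : b.repr (g i) = 0 := Finsupp.ext hl
  simpa using this

theorem algebraMap_mul_eq_smul {L : Type*} [Field L] (c : L) (x : LaurentSeries L) :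
    algebraMap L (LaurentSeries L) c * x = c • x := by
  rw [algebraMap_laurentSeries_eq_single, HahnSeries.single_zero_mul_eq_smul]

/-- Unbundled form of `linearIndependent_coeffMap` (avoids the two module structures). -/
theorem coeffMap_relation_descent {I : Type*} (f : I → LaurentSeries K)
    (hf : ∀ (s : Finset I) (g : I → K),
      ∑ i ∈ s, algebraMap K (LaurentSeries K) (g i) * f i = 0 → ∀ i ∈ s, g i = 0)
    (s : Finset I) (g : I → C)
    (hg : ∑ i ∈ s, algebraMap C (LaurentSeries C) (g i) * coeffMap ι (f i) = 0) :
    ∀ i ∈ s, g i = 0 := by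
  have h1 : LinearIndependent K f := by
    rw [linearIndependent_iff']
    intro s g hg
    refine hf s g ?_
    simpa only [algebraMap_mul_eq_smul] using hg
  have h2 := linearIndependent_coeffMap ι f h1
  rw [linearIndependent_iff'] at h2
  refine h2 s g ?_
  simpa only [algebraMap_mul_eq_smul] using hg

end DL0

section DLpoly

variable {K C : Type*} [Field K] [Field C] (ι : K →+* C)

theorem linearIndependent_pow_of_transcendental {A : Type*} [CommRing A] [Algebra K A] (x : A)
    (hx : Transcendental K x) : LinearIndependent K (fun a : ℕ => x ^ a) := by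
  have hinj : Function.Injective (Polynomial.aeval (R := K) x) :=
    transcendental_iff_injective.1 hx
  have h := (Polynomial.basisMonomials K).linearIndependent.map'
    (Polynomial.aeval (R := K) x).toLinearMap (LinearMap.ker_eq_bot.2 hinj)
  have he : (fun a : ℕ => x ^ a) =
      (Polynomial.aeval (R := K) x).toLinearMap ∘ (Polynomial.basisMonomials K) := by
    ext a
    simp
  rw [he]
  exact h

/-- Descent of polynomial relations from `C` to `K`. -/
theorem poly_relation_descent {F : Type*} [Field F] [Algebra K F]
    (emb : F →ₐ[K] LaurentSeries K) (j : F) (hj : Transcendental K j)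
    {I : Type*} [Fintype I] (f : I → F) (hf : LinearIndependent K⟮j⟯ f)
    (p : I → Polynomial C)
    (hp : ∑ i, Polynomial.aeval (coeffMap ι (emb j)) (p i) * coeffMap ι (emb (f i)) = 0) :
    p = 0 := by
  classical
  have hgen : Transcendental K (AdjoinSimple.gen K j) := by
    intro halg
    apply hj
    have := halg.algebraMap (A := F)
    simpa using this
  have hb := linearIndependent_pow_of_transcendental (K := K) (AdjoinSimple.gen K j) hgen
  have h1 := linearIndependent_smul hb hf
  rw [linearIndependent_iff'] at h1
  obtain ⟨D, hD⟩ : ∃ D : ℕ, ∀ i, (p i).natDegree < D := by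
    refine ⟨(Finset.univ.sup fun i => (p i).natDegree) + 1, fun i => ?_⟩
    exact Nat.lt_succ_of_le (Finset.le_sup (f := fun i => (p i).natDegree) (Finset.mem_univ i))
  have hemb : ∀ (a : ℕ) (i : I), emb (AdjoinSimple.gen K j ^ a • f i : F) =
      (emb j) ^ a * emb (f i) := by
    intro a i
    rw [IntermediateField.smul_def]
    simp
  have h4 := coeffMap_relation_descent ι
    (fun q : ℕ × I => emb (AdjoinSimple.gen K j ^ q.1 • f q.2)) ?_
    (Finset.range D ×ˢ Finset.univ) (fun q => (p q.2).coeff q.1) ?_
  · funext i
    ext a
    by_cases ha : a < D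
    · simpa using h4 (a, i) (by simp [ha])
    · rw [Polynomial.coeff_eq_zero_of_natDegree_lt (lt_of_lt_of_le (hD i) (not_lt.1 ha))]
      simp
  · intro s g hg
    refine h1 s g ?_
    apply emb.injective
    rw [map_zero, ← hg, map_sum]
    refine Finset.sum_congr rfl fun q _ => ?_
    rw [Algebra.smul_def, map_mul]
    congr 1
    exact emb.commutes _
  · rw [Finset.sum_product_right]
    rw [← hp]
    refine Finset.sum_congr rfl fun i _ => ?_
    rw [Polynomial.aeval_eq_sum_range' (hD i), Finset.sum_mul]
    refine Finset.sum_congr rfl fun a _ => ?_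
    simp only []
    rw [hemb, map_mul, map_pow, Algebra.smul_def, mul_assoc]

end DLpoly

end Fermat.Agent.S24
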