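import Mathlib

set_option autoImplicit false

namespace Fermat.Agent.S24

open IntermediateField Polynomial

/-- **Degree bound by the union-of-subspaces trick.**  `V = C[S] ⊆ M`; every `θ ∈ V` is a root of
`∏ x, (T - s x θ)`, which has coefficients in `k`.  Then `[k(S) : k] ≤ #Idx`. -/
theorem finrank_adjoin_le_card
    {C k M : Type*} [Field C] [Infinite C] [Field k] [CharZero k] [Field M]
    [Algebra C k] [Algebra k M] [Algebra C M] [IsScalarTower C k M]
    {Idx : Type*} [Fintype Idx] (s : Idx → M →ₗ[C] M) (x0 : Idx)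
    (S : Finset M)
    (hx0 : ∀ θ ∈ Algebra.adjoin C (S : Set M), s x0 θ = θ)
    (hP : ∀ θ ∈ Algebra.adjoin C (S : Set M), ∃ P : Polynomial k,
        P.map (algebraMap k M) = ∏ x, (X - Polynomial.C (s x θ))) :
    FiniteDimensional k (IntermediateField.adjoin k (S : Set M)) ∧
    Module.finrank k (IntermediateField.adjoin k (S : Set M)) ≤ Fintype.card Idx := by
  classical
  set V := Algebra.adjoin C (S : Set M) with hV
  set L := IntermediateField.adjoin k (S : Set M) with hL
  have hroot : ∀ θ ∈ V, ∀ P : Polynomial k,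
      P.map (algebraMap k M) = ∏ x, (X - Polynomial.C (s x θ)) → aeval θ P = 0 := by
    intro θ hθ P hPθ
    rw [aeval_def, ← eval_map, hPθ, eval_prod]
    refine Finset.prod_eq_zero (Finset.mem_univ x0) ?_
    simp [hx0 θ hθ]
  have hint : ∀ θ ∈ V, IsIntegral k θ := by
    intro θ hθ
    obtain ⟨P, hPθ⟩ := hP θ hθ
    refine ⟨P, ?_, hroot θ hθ P hPθ⟩
    apply monic_of_injective (algebraMap k M).injective
    rw [hPθ]
    exact monic_prod_of_monic _ _ fun x _ => monic_X_sub_C _
  have hSV : (S : Set M) ⊆ V := Algebra.subset_adjoin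
  have hfd : FiniteDimensional k L :=
    IntermediateField.finiteDimensional_adjoin fun x hx => hint x (hSV hx)
  refine ⟨hfd, ?_⟩
  have hVL : ∀ θ ∈ V, θ ∈ L := by
    intro θ hθ
    have : V ≤ L.toSubalgebra.restrictScalars C := by
      rw [hV, Algebra.adjoin_le_iff]
      intro x hx
      exact IntermediateField.subset_adjoin k _ hx
    exact this hθ
  let Ω := AlgebraicClosure M
  rw [← AlgHom.card k L Ω]
  -- each embedding agrees with some `s x` on `V`
  have key : ∀ τ : L →ₐ[k] Ω, ∃ x : Idx, ∀ θ (hθ : θ ∈ V),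
      τ ⟨θ, hVL θ hθ⟩ = algebraMap M Ω (s x θ) := by
    intro τ
    let f1 : V →ₗ[C] Ω :=
      { toFun := fun θ => τ ⟨θ.1, hVL θ.1 θ.2⟩
        map_add' := fun a b => by
          rw [← map_add]; rfl
        map_smul' := fun c a => by
          have h1 : (⟨((c • a : V) : M), hVL _ (c • a).2⟩ : L) =
              (algebraMap C k c) • (⟨a.1, hVL a.1 a.2⟩ : L) := by
            ext
            show c • (a : M) = (algebraMap C k c) • (a : M)
            rw [algebraMap_smul]
          rw [h1, map_smul, algebraMap_smul]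
          rfl }
    let f2 : Idx → V →ₗ[C] Ω := fun x =>
      ((IsScalarTower.toAlgHom C M Ω).toLinearMap.comp (s x)).comp V.val.toLinearMap
    have hcov : ⋃ x, ((LinearMap.eqLocus f1 (f2 x) : Submodule C V) : Set V) = Set.univ := by
      rw [Set.eq_univ_iff_forall]
      intro θ
      obtain ⟨P, hPθ⟩ := hP θ.1 θ.2
      have h0 := hroot θ.1 θ.2 P hPθ
      have h1 : aeval (τ ⟨θ.1, hVL θ.1 θ.2⟩) P = 0 := by
        have h2 : aeval (⟨θ.1, hVL θ.1 θ.2⟩ : L) P = 0 := by
          apply (algebraMap L M).injective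
          rw [map_zero, ← aeval_algebraMap_apply]
          exact h0
        rw [aeval_algHom_apply, h2, map_zero]
      rw [aeval_def, ← eval_map, IsScalarTower.algebraMap_eq k M Ω, ← Polynomial.map_map, hPθ,
        Polynomial.map_prod, eval_prod, Finset.prod_eq_zero_iff] at h1
      obtain ⟨x, -, hx⟩ := h1
      rw [Set.mem_iUnion]
      refine ⟨x, ?_⟩
      simp only [Polynomial.map_sub, map_X, map_C, eval_sub, eval_X, eval_C, sub_eq_zero] at hx
      exact hx
    obtain ⟨x, hx⟩ := Subspace.exists_eq_top_of_iUnion_eq_univ hcov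
    refine ⟨x, fun θ hθ => ?_⟩
    have : (⟨θ, hθ⟩ : V) ∈ LinearMap.eqLocus f1 (f2 x) := by rw [hx]; trivial
    exact this
  choose Φ hΦ using key
  refine Fintype.card_le_of_injective Φ ?_
  intro τ τ' hττ'
  apply IntermediateField.adjoin_algHom_ext
  intro x hx
  have h1 := hΦ τ x (hSV hx)
  have h2 := hΦ τ' x (hSV hx)
  rw [hττ'] at h1
  exact h1.trans h2.symm

end Fermat.Agent.S24
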