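import Mathlib
import Fermat.Agent.S24.FF.PlaceCount
import Fermat.Agent.S24.Descent
import Fermat.Agent.S24.UpperBound

set_option autoImplicit false

namespace Fermat.Agent.S24

open ModularCurve IntermediateField
open scoped IntermediateField.algebraAdjoinAdjoin

section

variable {K : Type*} [Field K] (ι : K →+* ℂ)
  {F : Type*} [Field F] [Algebra K F] (emb : F →ₐ[K] LaurentSeries K)
  (j : F) (hj : Transcendental K j)
  {M : Type*} [Field M] [Algebra ℂ M]
  (Θ : F →+* M)

include hj in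
/-- `K(j)`-linearly independent elements of `F` stay linearly independent over `ℂ(J)`. -/
theorem linearIndependent_Theta
    (hΛ : ∀ (m : ℕ) (p : Fin m → Polynomial ℂ) (f : Fin m → F),
        ∑ i, Polynomial.aeval (Θ j) (p i) * Θ (f i) = 0 →
        ∑ i, Polynomial.aeval (coeffMap ι (emb j)) (p i) * coeffMap ι (emb (f i)) = 0)
    {m : ℕ} (f : Fin m → F) (hf : LinearIndependent K⟮j⟯ f) :
    LinearIndependent ℂ⟮Θ j⟯ (fun i => Θ (f i)) := by
  rw [← LinearIndependent.iff_fractionRing (Algebra.adjoin ℂ {Θ j}) ℂ⟮Θ j⟯]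
  rw [Fintype.linearIndependent_iff]
  intro g hg
  have hg' : ∀ i, ∃ p : Polynomial ℂ, Polynomial.aeval (Θ j) p = (g i : M) := by
    intro i
    have h : ∀ z : M, z ∈ Algebra.adjoin ℂ {Θ j} → ∃ p : Polynomial ℂ,
        Polynomial.aeval (Θ j) p = z := by
      intro z hz
      rw [Algebra.adjoin_singleton_eq_range_aeval] at hz
      exact hz
    exact h _ (g i).2
  choose p hp using hg'
  have h1 : ∑ i, Polynomial.aeval (Θ j) (p i) * Θ (f i) = 0 := by
    rw [← hg]
    refine Finset.sum_congr rfl fun i _ => ?_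
    rw [hp i]
    rfl
  have h2 := poly_relation_descent ι emb j hj f hf p (hΛ m p f h1)
  intro i
  apply Subtype.ext
  rw [← hp i, h2]
  simp

include hj in
/-- **Degree theorem (abstract form).** -/
theorem finrank_eq_card_of_conjugates
    (S : Finset F) (hgen : IntermediateField.adjoin K (S : Set F) = ⊤)
    (hΘK : ∀ a : K, Θ (algebraMap K F a) = algebraMap ℂ M (ι a))
    (hΛ : ∀ (m : ℕ) (p : Fin m → Polynomial ℂ) (f : Fin m → F),
        ∑ i, Polynomial.aeval (Θ j) (p i) * Θ (f i) = 0 →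
        ∑ i, Polynomial.aeval (coeffMap ι (emb j)) (p i) * coeffMap ι (emb (f i)) = 0)
    {Idx : Type*} [Fintype Idx] (s : Idx → M →ₐ[ℂ] M) (x0 : Idx)
    (hx0 : ∀ f : F, s x0 (Θ f) = Θ f)
    (hsj : ∀ x, s x (Θ j) = Θ j)
    (hsinj : Function.Injective (fun x => (s x).toRingHom.comp Θ))
    (hP : ∀ θ ∈ Algebra.adjoin ℂ (Θ '' (S : Set F)), ∀ i : ℕ, ∃ p : Polynomial ℂ,
        (∏ x, (Polynomial.X - Polynomial.C (s x θ))).coeff i = Polynomial.aeval (Θ j) p) :
    FiniteDimensional K⟮j⟯ F ∧ Module.finrank K⟮j⟯ F = Fintype.card Idx := by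
  classical
  have hcoe : ((S.image Θ : Finset M) : Set M) = Θ '' (S : Set F) := by simp
  have hchar : CharZero ℂ⟮Θ j⟯ := charZero_of_injective_algebraMap (algebraMap ℂ ℂ⟮Θ j⟯).injective
  -- upper bound over `ℂ(J)`
  have hUB := finrank_adjoin_le_card (C := ℂ) (k := ℂ⟮Θ j⟯) (M := M)
    (fun x => (s x).toLinearMap) x0 (S.image Θ)
    (by
      rw [hcoe]
      intro θ hθ
      have : Algebra.adjoin ℂ (Θ '' (S : Set F)) ≤ AlgHom.equalizer (s x0) (AlgHom.id ℂ M) := by
        rw [Algebra.adjoin_le_iff]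
        rintro _ ⟨f, -, rfl⟩
        exact hx0 f
      exact this hθ)
    (by
      rw [hcoe]
      intro θ hθ
      rw [← Polynomial.mem_lifts, Polynomial.lifts_iff_coeff_lifts]
      intro i
      obtain ⟨p, hp⟩ := hP θ hθ i
      refine ⟨Polynomial.aeval (AdjoinSimple.gen ℂ (Θ j)) p, ?_⟩
      simp only [AlgHom.toLinearMap_apply]
      rw [hp, ← Polynomial.aeval_algebraMap_apply]
      simp)
  obtain ⟨hfdL, hleL⟩ := hUB
  set L := IntermediateField.adjoin ℂ⟮Θ j⟯ ((S.image Θ : Finset M) : Set M) with hL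
  -- `Θ F ⊆ L`
  have hΘL : ∀ f : F, Θ f ∈ L := by
    intro f
    have h1 : (IntermediateField.adjoin K (S : Set F)).toSubfield ≤ L.toSubfield.comap Θ := by
      show Subfield.closure _ ≤ _
      rw [Subfield.closure_le]
      rintro x (⟨a, rfl⟩ | hx)
      · show Θ (algebraMap K F a) ∈ L
        rw [hΘK, IsScalarTower.algebraMap_apply ℂ ℂ⟮Θ j⟯ M]
        exact L.algebraMap_mem _
      · show Θ x ∈ L
        apply IntermediateField.subset_adjoin
        rw [hcoe]
        exact ⟨x, hx, rfl⟩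
    rw [hgen] at h1
    exact h1 (show f ∈ (⊤ : IntermediateField K F) from trivial)
  have hbound : ∀ (m : ℕ) (f : Fin m → F), LinearIndependent K⟮j⟯ f → m ≤ Fintype.card Idx := by
    intro m f hf
    have h1 := linearIndependent_Theta ι emb j hj Θ hΛ f hf
    have h2 : LinearIndependent ℂ⟮Θ j⟯ (fun i => (⟨Θ (f i), hΘL (f i)⟩ : L)) := by
      refine LinearIndependent.of_comp L.val.toLinearMap ?_
      exact h1
    have h3 := h2.fintype_card_le_finrank
    rw [Fintype.card_fin] at h3
    exact h3.trans hleL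
  have hrank : Module.rank K⟮j⟯ F ≤ (Fintype.card Idx : ℕ) := by
    apply rank_le
    intro t ht
    have h1 : LinearIndependent K⟮j⟯ (fun i : Fin t.card => ((t.equivFin.symm i : t) : F)) :=
      ht.comp _ t.equivFin.symm.injective
    exact hbound _ _ h1
  have hfd : FiniteDimensional K⟮j⟯ F := by
    rw [FiniteDimensional, ← Module.rank_lt_aleph0_iff]
    exact lt_of_le_of_lt hrank (Cardinal.natCast_lt_aleph0)
  refine ⟨hfd, le_antisymm ?_ ?_⟩
  · exact Module.finrank_le_of_rank_le hrank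
  · let _ : Algebra K⟮j⟯ M := (Θ.comp (algebraMap K⟮j⟯ F)).toAlgebra
    let τ : Idx → (F →ₐ[K⟮j⟯] M) := fun x =>
      { toRingHom := (s x).toRingHom.comp Θ
        commutes' := fun a => by
          refine agree_on_adjoin j ((s x).toRingHom.comp Θ) Θ ?_ ?_ a
          · intro a
            show s x (Θ (algebraMap K F a)) = Θ (algebraMap K F a)
            rw [hΘK, AlgHom.commutes]
          · exact hsj x }
    have hτ : Function.Injective τ := by
      intro x y hxy
      apply hsinj
      exact congrArg (fun t : F →ₐ[K⟮j⟯] M => t.toRingHom) hxy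
    calc Fintype.card Idx = Nat.card Idx := Nat.card_eq_fintype_card.symm
      _ ≤ Nat.card (F →ₐ[K⟮j⟯] M) := Nat.card_le_card_of_injective τ hτ
      _ ≤ Module.finrank K⟮j⟯ F := card_algHom_le_finrank _ _ _

end

end Fermat.Agent.S24
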