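import Fermat.Statements.S24
import Fermat.Prelude.Def_ModularCurve_JqCoeff
import Fermat.Prelude.Thm_ModularCurve_coeffMap_qExpand
import Fermat.Agent.S24.Defs
import Fermat.Agent.S24.HolPer

set_option autoImplicit false

open UpperHalfPlane Function Complex ModularCurve
open scoped Manifold

noncomputable section

namespace Fermat.Agent.S24

/-- `j(q^d)` as a Laurent series over `Qbar`. -/
theorem coeffEmb_qExpand_jq (L : Type*) [Field L] [Algebra ℚ L] (d : ℕ) [NeZero d] :
    coeffEmb L (qExpand ℚ d jq) = jqNModC L d := by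
  rw [coeffEmb, coeffMap_qExpand, jqNModC]
  congr 1
  exact map_jqModC (algebraMap ℚ L)

/-- Generation principle: a subfield of `Qbar((q))` containing the constants and all `j(q^d)`,
`d ∣ N`, contains the function field. -/
theorem bar_le (N : ℕ) (S : Subfield (LaurentSeries Kb))
    (hK : ∀ a : Kb, algebraMap Kb (LaurentSeries Kb) a ∈ S)
    (hj : ∀ (d : ℕ) [NeZero d], d ∣ N → jqNModC Kb d ∈ S) :
    ∀ x ∈ modularFunctionFieldBar N, x ∈ S := by
  intro x hx
  rw [mem_laurentBaseChange_iff] at hx
  refine (Subfield.closure_le (t := S)).mpr ?_ hx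
  rintro y (⟨a, rfl⟩ | ⟨z, hz, rfl⟩)
  · exact hK a
  · have hz' : z ∈ Subfield.closure
        (Set.range (algebraMap ℚ (LaurentSeries ℚ)) ∪ divisorExpansions N) := hz
    have : Subfield.closure (Set.range (algebraMap ℚ (LaurentSeries ℚ)) ∪ divisorExpansions N)
        ≤ S.comap (coeffEmb Kb) := by
      rw [Subfield.closure_le]
      rintro w (⟨r, rfl⟩ | ⟨d, hd, hdN, rfl⟩)
      · show coeffEmb Kb (algebraMap ℚ (LaurentSeries ℚ) r) ∈ S
        have : coeffEmb Kb (algebraMap ℚ (LaurentSeries ℚ) r)
            = algebraMap Kb (LaurentSeries Kb) (algebraMap ℚ Kb r) := by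
          rw [algebraMap_laurentSeries_eq_single, algebraMap_laurentSeries_eq_single, coeffEmb,
            coeffMap_single]
        rw [this]; exact hK _
      · show coeffEmb Kb (qExpand ℚ d jq) ∈ S
        rw [coeffEmb_qExpand_jq]
        exact hj d hdN
    exact this hz'

theorem jqNModC_mem_bar (N d : ℕ) [NeZero d] (hd : d ∣ N) :
    jqNModC Kb d ∈ modularFunctionFieldBar N := by
  rw [← coeffEmb_qExpand_jq]
  exact coeffEmb_mem_laurentBaseChange _ (jqd_mem_full N hd)

theorem jBarSeries_eq (d : ℕ) [NeZero d] : jBarSeries d = jqNModC Kb d :=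
  coeffEmb_qExpand_jq Kb d

theorem coe_jBar (N d : ℕ) [NeZero d] (hd : d ∣ N) :
    ((jBar N d hd : modularFunctionFieldBar N) : LaurentSeries Kb) = jqNModC Kb d :=
  jBarSeries_eq d

/-- Two ring homs out of the function field agreeing on constants and on the `j(q^d)` agree. -/
theorem ringHom_ext_bar {N : ℕ} {E : Type*} [Field E]
    {φ ψ : modularFunctionFieldBar N →+* E}
    (hK : ∀ a : Kb, φ (algebraMap Kb _ a) = ψ (algebraMap Kb _ a))
    (hj : ∀ (d : ℕ) [NeZero d] (hd : d ∣ N), φ (jBar N d hd) = ψ (jBar N d hd)) : φ = ψ := by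
  let F := modularFunctionFieldBar N
  let S0 : Subfield F := RingHom.eqLocusField φ ψ
  let S : Subfield (LaurentSeries Kb) := S0.map F.val.toRingHom
  have key : ∀ x ∈ F, x ∈ S := by
    apply bar_le
    · intro a
      exact ⟨algebraMap Kb F a, hK a, rfl⟩
    · intro d _ hd
      exact ⟨jBar N d hd, hj d hd, coe_jBar N d hd⟩
  ext x
  obtain ⟨y, hy, hyx⟩ := key x x.2
  have : y = x := Subtype.ext hyx
  rw [← this]; exact hy

/-! ### The embedding into (fractions of) periodic holomorphic functions -/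

/-- General principle: pull back a ring hom `Φ : A →+* L` along an embedding of fields
`T : M →+* L` whose range contains the image of `Φ`. -/
def liftThrough {A M L : Type*} [Ring A] [Field M] [Field L] (T : M →+* L) (Φ : A →+* L)
    (h : ∀ x, Φ x ∈ T.fieldRange) : A →+* M :=
  (T.rangeRestrictFieldEquiv.symm : T.fieldRange →+* M).comp (Φ.codRestrict T.fieldRange h)

theorem liftThrough_spec {A M L : Type*} [Ring A] [Field M] [Field L] (T : M →+* L) (Φ : A →+* L)
    (h : ∀ x, Φ x ∈ T.fieldRange) (x : A) : T (liftThrough T Φ h x) = Φ x := by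
  have := T.rangeRestrictFieldEquiv.apply_symm_apply (Φ.codRestrict T.fieldRange h x)
  exact congrArg Subtype.val this

theorem liftThrough_eq_iff {A M L : Type*} [Ring A] [Field M] [Field L] (T : M →+* L)
    (Φ : A →+* L) (h : ∀ x, Φ x ∈ T.fieldRange) (x : A) (m : M) :
    liftThrough T Φ h x = m ↔ Φ x = T m := by
  rw [← liftThrough_spec T Φ h x]
  exact ⟨fun e => by rw [e], fun e => T.injective e⟩

/-- The analytic input: every `j(q^d)`, `d ∣ N`, is the `q`-expansion of an element of
`MerPer 1`. -/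
def GenInRange (N : ℕ) : Prop :=
  ∀ (d : ℕ) [NeZero d], d ∣ N → ∃ u : MerPer 1, toLaurent 1 u = jqNModC ℂ d

variable (ι : Kb →+* ℂ)

theorem coeffMap_jqNModC {R S : Type*} [CommRing R] [CommRing S] (f : R →+* S) (d : ℕ)
    [NeZero d] : coeffMap f (jqNModC R d) = jqNModC S d := by
  rw [jqNModC, coeffMap_qExpand, jqNModC]
  congr 1
  exact map_jqModC f

theorem coeffMap_mem_range {N : ℕ} (hgen : GenInRange N) :
    ∀ x ∈ modularFunctionFieldBar N, coeffMap ι x ∈ (toLaurent 1).fieldRange := by
  apply bar_le N ((toLaurent 1).fieldRange.comap (coeffMap ι))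
  · intro a
    refine ⟨algebraMap ℂ (MerPer 1) (ι a), ?_⟩
    rw [toLaurent_const, algebraMap_laurentSeries_eq_single, coeffMap_single]
    rfl
  · intro d _ hd
    obtain ⟨u, hu⟩ := hgen d hd
    exact ⟨u, by rw [hu, coeffMap_jqNModC]⟩

/-- The embedding of the function field of `X₀(N)` into fractions of `1`-periodic holomorphic
functions, characterised by `toLaurent 1 (Theta f) = coeffMap ι f`. -/
def Theta {N : ℕ} (hgen : GenInRange N) : modularFunctionFieldBar N →+* MerPer 1 :=
  liftThrough (toLaurent 1)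
    ((coeffMap ι).comp (modularFunctionFieldBar N).val.toRingHom)
    (fun x => coeffMap_mem_range ι hgen x x.2)

theorem toLaurent_Theta {N : ℕ} (hgen : GenInRange N) (f : modularFunctionFieldBar N) :
    toLaurent 1 (Theta ι hgen f) = coeffMap ι (f : LaurentSeries Kb) :=
  liftThrough_spec _ _ _ f

theorem Theta_eq_iff {N : ℕ} (hgen : GenInRange N) (f : modularFunctionFieldBar N)
    (u : MerPer 1) :
    Theta ι hgen f = u ↔ coeffMap ι (f : LaurentSeries Kb) = toLaurent 1 u :=
  liftThrough_eq_iff _ _ _ f u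

theorem Theta_algebraMap {N : ℕ} (hgen : GenInRange N) (a : Kb) :
    Theta ι hgen (algebraMap Kb _ a) = algebraMap ℂ (MerPer 1) (ι a) := by
  rw [Theta_eq_iff, toLaurent_const]
  show coeffMap ι (algebraMap Kb (LaurentSeries Kb) a) = _
  rw [algebraMap_laurentSeries_eq_single, coeffMap_single]
  rfl

theorem Theta_jBar {N : ℕ} (hgen : GenInRange N) (d : ℕ) [NeZero d] (hd : d ∣ N) (u : MerPer 1)
    (hu : toLaurent 1 u = jqNModC ℂ d) : Theta ι hgen (jBar N d hd) = u := by
  rw [Theta_eq_iff, hu, coe_jBar]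
  exact coeffMap_jqNModC ι d

end Fermat.Agent.S24
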