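import Mathlib
import Fermat.Agent.S24.Defs
import Fermat.Agent.S24.Theta
import Fermat.Prelude.Thm_ModularCurve_coeff_jqModC_neg_one

/-!
G0: generators of the function field `F = modularFunctionFieldBar N` (adjoin form),
transcendence of `j`, an induction principle.
(The generation principle `bar_le`, `ringHom_ext_bar` and `Theta` are in `Theta.lean`.)
-/

set_option autoImplicit false

namespace Fermat.Agent.S24

open ModularCurve

noncomputable section

theorem jBarSeries_one : jBarSeries 1 = jqModC Kb := by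
  rw [jBarSeries_eq, jqNModC_one]

theorem jBarSeries_eq_qExpand (d : ℕ) [NeZero d] :
    jBarSeries d = qExpand Kb d (jBarSeries 1) := by
  rw [jBarSeries_eq, jBarSeries_one, jqNModC]

theorem coeffMap_algebraMap' {L M : Type*} [Field L] [Field M] (φ : L →+* M) (c : L) :
    coeffMap φ (algebraMap L (LaurentSeries L) c) = algebraMap M (LaurentSeries M) (φ c) := by
  rw [algebraMap_laurentSeries_eq_single, algebraMap_laurentSeries_eq_single, coeffMap_single]

theorem coeffMap_injective {R S : Type*} [CommRing R] [CommRing S] (f : R →+* S)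
    (hf : Function.Injective f) : Function.Injective (coeffMap f) := by
  intro x y hxy
  ext k
  apply hf
  have := congrArg (fun z => HahnSeries.coeff z k) hxy
  simpa using this

/-- The set of generators of `F` over `Kb`. -/
def genSet (N : ℕ) : Set (LaurentSeries Kb) :=
  {x | ∃ (d : ℕ) (_ : NeZero d), d ∣ N ∧ x = jBarSeries d}

theorem jBarSeries_mem_genSet (N d : ℕ) [NeZero d] (hd : d ∣ N) : jBarSeries d ∈ genSet N :=
  ⟨d, ‹_›, hd, rfl⟩

@[simp] theorem coe_jF (N : ℕ) : ((jF N : FN N) : LaurentSeries Kb) = jBarSeries 1 := rfl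

/-- G0: `F` is generated over `Kb` by the `j(q^d)`, `d ∣ N`. -/
theorem modularFunctionFieldBar_eq_adjoin (N : ℕ) :
    modularFunctionFieldBar N = IntermediateField.adjoin Kb (genSet N) := by
  apply le_antisymm
  · intro x hx
    refine bar_le N (IntermediateField.adjoin Kb (genSet N)).toSubfield ?_ ?_ x hx
    · intro a
      exact IntermediateField.algebraMap_mem _ a
    · intro d _ hd
      rw [← jBarSeries_eq]
      exact IntermediateField.subset_adjoin _ _ (jBarSeries_mem_genSet N d hd)
  · rw [IntermediateField.adjoin_le_iff]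
    rintro _ ⟨d, hd0, hd, rfl⟩
    exact jBarSeries_mem N d hd

theorem transcendental_jBarSeries_one : Transcendental Kb (jBarSeries 1) := by
  rw [jBarSeries_one]
  exact P2MW.S_ModularCurve_coeff_jqModC_neg_one.ModularCurve.CharLRows.transcendental_jqModC Kb

theorem transcendental_jF (N : ℕ) : Transcendental Kb (jF N) := by
  have h := transcendental_jBarSeries_one
  intro halg
  apply h
  have := halg.algebraMap (A := LaurentSeries Kb)
  exact this

/-- Induction principle for `F`: a property of Laurent series which holds for the constants and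
the generators and is stable under the field operations holds on `F`. -/
theorem modularFunctionFieldBar_induction (N : ℕ) {p : LaurentSeries Kb → Prop}
    (hconst : ∀ a : Kb, p (algebraMap Kb (LaurentSeries Kb) a))
    (hgen : ∀ (d : ℕ) [NeZero d], d ∣ N → p (jBarSeries d))
    (hadd : ∀ x y, p x → p y → p (x + y))
    (hmul : ∀ x y, p x → p y → p (x * y))
    (hinv : ∀ x, p x → p x⁻¹)
    {x : LaurentSeries Kb} (hx : x ∈ modularFunctionFieldBar N) : p x := by
  rw [modularFunctionFieldBar_eq_adjoin] at hx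
  induction hx using IntermediateField.adjoin_induction with
  | mem y hy =>
    obtain ⟨d, hd0, hd, rfl⟩ := hy
    exact hgen d hd
  | algebraMap c => exact hconst c
  | add x y _ _ hx hy => exact hadd x y hx hy
  | inv x _ hx => exact hinv x hx
  | mul x y _ _ hx hy => exact hmul x y hx hy

/-- The generators inside `F`. -/
def genSetF (N : ℕ) : Set (FN N) :=
  {x | ∃ (d : ℕ) (_ : NeZero d) (hd : d ∣ N), x = jBar N d hd}

/-- G0, internal form: `F = Kb(j_d : d ∣ N)`. -/
theorem adjoin_genSetF_eq_top (N : ℕ) :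
    IntermediateField.adjoin Kb (genSetF N) = ⊤ := by
  rw [eq_top_iff]
  rintro ⟨x, hx⟩ -
  have key : ∃ hy : x ∈ modularFunctionFieldBar N,
      (⟨x, hy⟩ : FN N) ∈ IntermediateField.adjoin Kb (genSetF N) := by
    refine modularFunctionFieldBar_induction N
      (p := fun y => ∃ hy : y ∈ modularFunctionFieldBar N,
        (⟨y, hy⟩ : FN N) ∈ IntermediateField.adjoin Kb (genSetF N))
      ?_ ?_ ?_ ?_ ?_ hx
    · intro a
      exact ⟨IntermediateField.algebraMap_mem _ a,
        (IntermediateField.adjoin Kb (genSetF N)).algebraMap_mem a⟩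
    · intro d _ hd
      exact ⟨jBarSeries_mem N d hd, IntermediateField.subset_adjoin _ _ ⟨d, ‹_›, hd, rfl⟩⟩
    · rintro x y ⟨hx, hx'⟩ ⟨hy, hy'⟩
      refine ⟨add_mem hx hy, ?_⟩
      have : (⟨x + y, add_mem hx hy⟩ : FN N) = ⟨x, hx⟩ + ⟨y, hy⟩ := rfl
      rw [this]
      exact add_mem hx' hy'
    · rintro x y ⟨hx, hx'⟩ ⟨hy, hy'⟩
      refine ⟨mul_mem hx hy, ?_⟩
      have : (⟨x * y, mul_mem hx hy⟩ : FN N) = ⟨x, hx⟩ * ⟨y, hy⟩ := rfl
      rw [this]
      exact mul_mem hx' hy'
    · rintro x ⟨hx, hx'⟩
      refine ⟨inv_mem hx, ?_⟩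
      have : (⟨x⁻¹, inv_mem hx⟩ : FN N) = (⟨x, hx⟩)⁻¹ := rfl
      rw [this]
      exact inv_mem hx'
  exact key.2

theorem finite_genSetF (N : ℕ) [NeZero N] : (genSetF N).Finite := by
  classical
  have : genSetF N ⊆ ⋃ d ∈ N.divisors, {x | ∃ (_ : NeZero d) (hd : d ∣ N), x = jBar N d hd} := by
    rintro x ⟨d, hd0, hd, rfl⟩
    simp only [Set.mem_iUnion]
    exact ⟨d, Nat.mem_divisors.mpr ⟨hd, NeZero.ne N⟩, hd0, hd, rfl⟩
  refine Set.Finite.subset ?_ this
  refine Set.Finite.biUnion (Finset.finite_toSet _) ?_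
  intro d _
  refine Set.Subsingleton.finite ?_
  rintro x ⟨_, _, rfl⟩ y ⟨_, _, rfl⟩
  rfl

end

end Fermat.Agent.S24
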