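import Mathlib
import Fermat.Agent.S24.Defs

set_option autoImplicit false

open UpperHalfPlane hiding I
open Function Filter WithZero
open scoped Manifold Topology MatrixGroups

namespace Fermat.Agent.S24

noncomputable section

theorem hol_mdiff (f : Hol) : MDiff (f : ℍ → ℂ) := f.2

theorem hol_analyticAt_of_mdiff {F : ℍ → ℂ} (hF : MDiff F) (z : ℍ) :
    AnalyticAt ℂ (F ∘ ofComplex) (z : ℂ) :=
  (UpperHalfPlane.mdifferentiable_iff.mp hF).analyticOnNhd isOpen_upperHalfPlaneSet z z.im_pos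

theorem hol_analyticAt (f : Hol) (z : ℍ) : AnalyticAt ℂ ((f : ℍ → ℂ) ∘ ofComplex) (z : ℂ) :=
  hol_analyticAt_of_mdiff f.2 z

theorem hol_meromorphicAt (f : Hol) (z : ℍ) :
    MeromorphicAt ((f : ℍ → ℂ) ∘ ofComplex) (z : ℂ) := (hol_analyticAt f z).meromorphicAt

instance instIsDomainHol : IsDomain Hol := by
  have : NoZeroDivisors Hol := ⟨by
    intro a b hab
    have h : (a : ℍ → ℂ) * (b : ℍ → ℂ) = 0 := by
      have := congrArg (Subtype.val) hab
      simpa using this
    rcases (UpperHalfPlane.mul_eq_zero_iff a.2 b.2).mp h with h | h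
    · exact Or.inl (Subtype.ext h)
    · exact Or.inr (Subtype.ext h)⟩
  have : Nontrivial Hol := ⟨⟨0, 1, fun h => by
    have := congrFun (congrArg Subtype.val h) UpperHalfPlane.I
    simp at this⟩⟩
  exact NoZeroDivisors.to_isDomain _

/-- The field of fractions of the holomorphic functions on the upper half plane. -/
abbrev Mer : Type := FractionRing Hol

theorem algebraMap_Hol_Mer_injective : Function.Injective (algebraMap Hol Mer) :=
  IsFractionRing.injective Hol Mer

instance instFaithfulSMulHolMer : FaithfulSMul Hol Mer :=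
  (faithfulSMul_iff_algebraMap_injective _ _).mpr algebraMap_Hol_Mer_injective

/-- The order of vanishing at `τ`. -/
def holOrd (τ : ℍ) (f : Hol) : WithTop ℤ := meromorphicOrderAt ((f : ℍ → ℂ) ∘ ofComplex) (τ : ℂ)

theorem holOrd_eq_map (τ : ℍ) (f : Hol) :
    holOrd τ f = (analyticOrderAt ((f : ℍ → ℂ) ∘ ofComplex) (τ : ℂ)).map (↑) :=
  (hol_analyticAt f τ).meromorphicOrderAt_eq

theorem holOrd_eq_top_iff (τ : ℍ) (f : Hol) : holOrd τ f = ⊤ ↔ f = 0 := by
  constructor
  · intro h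
    rw [holOrd, meromorphicOrderAt_eq_top_iff] at h
    apply Subtype.ext
    apply UpperHalfPlane.eq_zero_of_frequently f.2 (τ := τ)
    apply Eventually.frequently
    rw [eventually_nhdsWithin_iff] at h ⊢
    have h2 := (UpperHalfPlane.continuous_coe.tendsto τ).eventually h
    filter_upwards [h2] with z hz hne
    have := hz (fun h => hne (UpperHalfPlane.ext h))
    simpa using this
  · rintro rfl
    rw [holOrd, meromorphicOrderAt_eq_top_iff]
    exact Eventually.of_forall fun z => by simp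

theorem holOrd_zero (τ : ℍ) : holOrd τ 0 = ⊤ := (holOrd_eq_top_iff τ 0).mpr rfl

theorem holOrd_mul (τ : ℍ) (f g : Hol) : holOrd τ (f * g) = holOrd τ f + holOrd τ g :=
  meromorphicOrderAt_mul (hol_meromorphicAt f τ) (hol_meromorphicAt g τ)

theorem holOrd_add (τ : ℍ) (f g : Hol) : min (holOrd τ f) (holOrd τ g) ≤ holOrd τ (f + g) :=
  meromorphicOrderAt_add (hol_meromorphicAt f τ) (hol_meromorphicAt g τ)

theorem holOrd_nonneg (τ : ℍ) (f : Hol) : 0 ≤ holOrd τ f :=
  (hol_analyticAt f τ).meromorphicOrderAt_nonneg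

theorem holOrd_eq_zero_iff (τ : ℍ) (f : Hol) : holOrd τ f = 0 ↔ (f : ℍ → ℂ) τ ≠ 0 := by
  rw [holOrd_eq_map]
  have h := (hol_analyticAt f τ).analyticOrderAt_eq_zero
  simp only [comp_apply, ofComplex_apply] at h
  rw [← h]
  cases analyticOrderAt ((f : ℍ → ℂ) ∘ ofComplex) (τ : ℂ) with
  | top => simp
  | coe n => simp

theorem holOrd_algebraMap (τ : ℍ) {c : ℂ} (hc : c ≠ 0) : holOrd τ (algebraMap ℂ Hol c) = 0 :=
  (holOrd_eq_zero_iff τ _).mpr (by simpa using hc)

theorem holOrd_one (τ : ℍ) : holOrd τ 1 = 0 :=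
  (holOrd_eq_zero_iff τ _).mpr (by simp)

/-- `⊤ ↦ 0`, `n ↦ exp (-n)`. -/
def toVal : WithTop ℤ → ℤᵐ⁰
  | ⊤ => 0
  | (n : ℤ) => exp (-n)

@[simp] theorem toVal_top : toVal ⊤ = 0 := rfl
@[simp] theorem toVal_coe (n : ℤ) : toVal (n : WithTop ℤ) = exp (-n) := rfl

theorem toVal_add (a b : WithTop ℤ) : toVal (a + b) = toVal a * toVal b := by
  cases a with
  | top => simp
  | coe a =>
    cases b with
    | top => simp
    | coe b => rw [← WithTop.coe_add, toVal_coe, toVal_coe, toVal_coe, neg_add, exp_add]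

theorem toVal_anti {a b : WithTop ℤ} (h : a ≤ b) : toVal b ≤ toVal a := by
  cases b with
  | top => simp
  | coe b =>
    cases a with
    | top => simp at h
    | coe a =>
      rw [toVal_coe, toVal_coe, exp_le_exp]
      exact neg_le_neg (by exact_mod_cast h)

theorem toVal_eq_zero_iff (a : WithTop ℤ) : toVal a = 0 ↔ a = ⊤ := by
  cases a with
  | top => simp
  | coe a => simp

theorem toVal_eq_exp_iff (a : WithTop ℤ) (n : ℤ) : toVal a = exp (-n) ↔ a = n := by
  cases a with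
  | top => simpa using (exp_ne_zero (a := n)).symm
  | coe a => rw [toVal_coe, exp_inj]; simp

/-- The valuation on `Hol` given by the order of vanishing at `τ`. -/
def holVal (τ : ℍ) : Valuation Hol ℤᵐ⁰ where
  toFun f := toVal (holOrd τ f)
  map_zero' := by simp [holOrd_zero]
  map_one' := by rw [holOrd_one]; exact (toVal_coe 0).trans (by simp)
  map_mul' f g := by rw [holOrd_mul, toVal_add]
  map_add_le_max' f g := by
    refine (toVal_anti (holOrd_add τ f g)).trans ?_
    rcases le_total (holOrd τ f) (holOrd τ g) with h | h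
    · rw [min_eq_left h]; exact le_max_left _ _
    · rw [min_eq_right h]; exact le_max_right _ _

theorem holVal_apply (τ : ℍ) (f : Hol) : holVal τ f = toVal (holOrd τ f) := rfl

theorem holVal_eq_zero_iff (τ : ℍ) (f : Hol) : holVal τ f = 0 ↔ f = 0 := by
  rw [holVal_apply, toVal_eq_zero_iff, holOrd_eq_top_iff]

theorem nonZeroDivisors_le_holVal (τ : ℍ) : nonZeroDivisors Hol ≤ (holVal τ).supp.primeCompl := by
  intro f hf h
  exact nonZeroDivisors.ne_zero hf ((holVal_eq_zero_iff τ f).mp h)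

/-- The valuation on `Mer` given by the order at `τ`. -/
def merVal (τ : ℍ) : Valuation Mer ℤᵐ⁰ :=
  (holVal τ).extendToLocalization (nonZeroDivisors_le_holVal τ) Mer

@[simp] theorem merVal_algebraMap (τ : ℍ) (f : Hol) :
    merVal τ (algebraMap Hol Mer f) = holVal τ f :=
  Valuation.extendToLocalization_apply_map_apply _ _ _ _


theorem merVal_div (τ : ℍ) (a b : Hol) :
    merVal τ (algebraMap Hol Mer a / algebraMap Hol Mer b) = holVal τ a / holVal τ b := by
  rw [map_div₀, merVal_algebraMap, merVal_algebraMap]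

theorem holVal_le_one (τ : ℍ) (f : Hol) : holVal τ f ≤ 1 := by
  have h := toVal_anti (holOrd_nonneg τ f)
  rw [holVal_apply]
  refine h.trans (le_of_eq ?_)
  exact (toVal_coe 0).trans (by simp)

theorem holVal_eq_one_iff (τ : ℍ) (f : Hol) : holVal τ f = 1 ↔ (f : ℍ → ℂ) τ ≠ 0 := by
  rw [← holOrd_eq_zero_iff, holVal_apply]
  have := toVal_eq_exp_iff (holOrd τ f) 0
  simpa using this

theorem holVal_lt_one_iff (τ : ℍ) (f : Hol) : holVal τ f < 1 ↔ (f : ℍ → ℂ) τ = 0 := by
  rw [lt_iff_le_and_ne, ne_eq, holVal_eq_one_iff]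
  simp [holVal_le_one]

theorem holVal_eq_exp_iff (τ : ℍ) (f : Hol) (n : ℕ) :
    holVal τ f = exp (-(n : ℤ)) ↔ analyticOrderAt ((f : ℍ → ℂ) ∘ ofComplex) (τ : ℂ) = n := by
  rw [holVal_apply, toVal_eq_exp_iff, holOrd_eq_map]
  cases analyticOrderAt ((f : ℍ → ℂ) ∘ ofComplex) (τ : ℂ) with
  | top => simp
  | coe m => simp

theorem merVal_algebraMap_complex (τ : ℍ) {c : ℂ} (hc : c ≠ 0) :
    merVal τ (algebraMap ℂ Mer c) = 1 := by
  rw [IsScalarTower.algebraMap_apply ℂ Hol Mer, merVal_algebraMap, holVal_eq_one_iff]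
  simpa using hc

theorem exists_merVal_eq_exp (τ : ℍ) {u : Mer} (hu : u ≠ 0) : ∃ k : ℤ, merVal τ u = exp k := by
  have h : merVal τ u ≠ 0 := (Valuation.ne_zero_iff _).mpr hu
  exact ⟨log (merVal τ u), (exp_log h).symm⟩

/-- Precomposition with an element of `GL(2,ℝ)⁺`. -/
def compGL (g : GL (Fin 2) ℝ) (hg : 0 < g.det.val) : Hol →ₐ[ℂ] Hol where
  toFun f := ⟨fun z => (f : ℍ → ℂ) (g • z), f.2.comp (mdifferentiable_smul hg)⟩
  map_one' := rfl
  map_mul' _ _ := rfl
  map_zero' := rfl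
  map_add' _ _ := rfl
  commutes' _ := rfl

@[simp] theorem compGL_apply (g : GL (Fin 2) ℝ) (hg : 0 < g.det.val) (f : Hol) (z : ℍ) :
    (compGL g hg f : ℍ → ℂ) z = (f : ℍ → ℂ) (g • z) := rfl

theorem holOrd_compGL (g : GL (Fin 2) ℝ) (hg : 0 < g.det.val) (f : Hol) (τ : ℍ) :
    holOrd τ (compGL g hg f) = holOrd (g • τ) f :=
  meromorphicOrderAt_comp_smul (f := (f : ℍ → ℂ)) (τ := τ) hg

theorem holVal_compGL (g : GL (Fin 2) ℝ) (hg : 0 < g.det.val) (f : Hol) (τ : ℍ) :
    holVal τ (compGL g hg f) = holVal (g • τ) f := by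
  rw [holVal_apply, holVal_apply, holOrd_compGL]

theorem compGL_injective (g : GL (Fin 2) ℝ) (hg : 0 < g.det.val) :
    Function.Injective (compGL g hg) := by
  intro a b hab
  apply Subtype.ext
  funext z
  have := congrFun (congrArg Subtype.val hab) (g⁻¹ • z)
  simpa using this

theorem det_mapGL_pos (g : SL(2, ℤ)) :
    0 < (Matrix.SpecialLinearGroup.mapGL ℝ g).det.val := by
  simp

/-- The left action of `SL(2,ℤ)` on `Hol`: `(g f)(z) = f (g⁻¹ z)`. -/
def actHol : SL(2, ℤ) →* (Hol ≃ₐ[ℂ] Hol) where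
  toFun g := AlgEquiv.ofAlgHom (compGL _ (det_mapGL_pos g⁻¹)) (compGL _ (det_mapGL_pos g))
    (by ext f z; simp) (by ext f z; simp)
  map_one' := by ext f z; simp
  map_mul' g h := by
    ext f z
    simp [mul_smul]

theorem actHol_apply (g : SL(2, ℤ)) (f : Hol) (z : ℍ) :
    (actHol g f : ℍ → ℂ) z = (f : ℍ → ℂ) (g⁻¹ • z) := rfl

theorem holVal_actHol (g : SL(2, ℤ)) (f : Hol) (τ : ℍ) :
    holVal τ (actHol g f) = holVal (g⁻¹ • τ) f :=
  holVal_compGL _ (det_mapGL_pos g⁻¹) f τ

/-- The left action of `SL(2,ℤ)` on `Mer`. -/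
def actMer : SL(2, ℤ) →* (Mer ≃ₐ[ℂ] Mer) where
  toFun g := IsFractionRing.algEquivOfAlgEquiv (actHol g)
  map_one' := by
    ext u
    obtain ⟨a, b, -, rfl⟩ := IsFractionRing.div_surjective (A := Hol) u
    simp
  map_mul' g h := by
    ext u
    obtain ⟨a, b, -, rfl⟩ := IsFractionRing.div_surjective (A := Hol) u
    simp

@[simp] theorem actMer_algebraMap (g : SL(2, ℤ)) (f : Hol) :
    actMer g (algebraMap Hol Mer f) = algebraMap Hol Mer (actHol g f) :=
  IsFractionRing.algEquivOfAlgEquiv_algebraMap _ _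

theorem merVal_actMer (g : SL(2, ℤ)) (u : Mer) (τ : ℍ) :
    merVal τ (actMer g u) = merVal (g⁻¹ • τ) u := by
  obtain ⟨a, b, -, rfl⟩ := IsFractionRing.div_surjective (A := Hol) u
  rw [map_div₀, actMer_algebraMap, actMer_algebraMap, merVal_div, merVal_div, holVal_actHol,
    holVal_actHol]

end

end Fermat.Agent.S24
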