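import Fermat.Statements.S24
import Fermat.Agent.S24.Defs
import Fermat.Prelude.Def_ModularCurve_X0ModL

set_option autoImplicit false

open UpperHalfPlane hiding I
open Complex Function Filter ModularForm EisensteinSeries
open scoped Manifold MatrixGroups ModularForm Topology Real ArithmeticFunction.sigma

namespace Fermat.Agent.S24

noncomputable section

/-- (Q1) the analytic `q`-expansion of `E₄` is the formal series `eisenstein4`. -/
theorem qExpansion_E4 :
    qExpansion 1 E₄ = ModularCurve.eisenstein4.map (Int.castRingHom ℂ) := by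
  ext m
  rw [PowerSeries.coeff_map, ModularCurve.eisenstein4, PowerSeries.coeff_mk]
  have h := EisensteinSeries.E_qExpansion_coeff (k := 4) (by norm_num) (by decide) m
  rw [show (qExpansion 1 E₄) = qExpansion 1 (E (k := 4) (by norm_num)) from rfl, h]
  split_ifs with hm
  · simp
  · have hb : bernoulli 4 = -1 / 30 := by decide +kernel
    rw [hb]
    simp [ArithmeticFunction.sigma_apply]
    norm_num

/-! ### Taylor series at `0` of a function `ℂ → ℂ` -/

/-- The Taylor series at `0`. -/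
def tay (φ : ℂ → ℂ) : PowerSeries ℂ :=
  .mk fun m ↦ (↑m.factorial)⁻¹ * iteratedDeriv m φ 0

theorem coeff_tay (φ : ℂ → ℂ) (m : ℕ) :
    (tay φ).coeff m = (↑m.factorial)⁻¹ * iteratedDeriv m φ 0 := by
  simp [tay]

theorem qExpansion_eq_tay (h : ℝ) (f : ℍ → ℂ) : qExpansion h f = tay (cuspFunction h f) := rfl

theorem tay_congr {φ ψ : ℂ → ℂ} (h : φ =ᶠ[𝓝 0] ψ) : tay φ = tay ψ := by
  ext m
  rw [coeff_tay, coeff_tay, h.iteratedDeriv_eq]

theorem tay_mul {φ ψ : ℂ → ℂ} (hf : AnalyticAt ℂ φ 0) (hg : AnalyticAt ℂ ψ 0) :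
    tay (φ * ψ) = tay φ * tay ψ := by
  ext
  simp only [coeff_tay, iteratedDeriv_mul hf.contDiffAt hg.contDiffAt, Finset.mul_sum,
    PowerSeries.coeff_mul, Finset.Nat.sum_antidiagonal_eq_sum_range_succ_mk, Nat.succ_eq_add_one]
  refine Finset.sum_congr rfl fun i hi ↦ ?_
  rw [Nat.cast_choose _ (by grind)]
  field_simp [Nat.factorial_ne_zero]

theorem tay_sub {φ ψ : ℂ → ℂ} (hf : AnalyticAt ℂ φ 0) (hg : AnalyticAt ℂ ψ 0) :
    tay (φ - ψ) = tay φ - tay ψ := by
  ext m
  simp [coeff_tay, iteratedDeriv_sub hf.contDiffAt hg.contDiffAt, mul_sub]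

theorem tay_one : tay (1 : ℂ → ℂ) = 1 := by
  ext m
  have h2 : iteratedDeriv m (1 : ℂ → ℂ) 0 = if m = 0 then 1 else 0 := by
    simpa [ite_apply] using! iteratedDeriv_const
  simp +contextual [coeff_tay, h2]

theorem tay_id : tay (fun q : ℂ => q) = PowerSeries.X := by
  ext m
  rw [coeff_tay, PowerSeries.coeff_X]
  rcases m with _ | _ | m
  · simp
  · simp [iteratedDeriv_one]
  · have : iteratedDeriv (m + 1 + 1) (fun q : ℂ => q) 0 = 0 := by
      rw [iteratedDeriv_succ', iteratedDeriv_succ']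
      simp
    simp [this]

theorem tay_pow {φ : ℂ → ℂ} (hf : AnalyticAt ℂ φ 0) (n : ℕ) : tay (φ ^ n) = tay φ ^ n := by
  induction n with
  | zero => simpa using tay_one
  | succ n ih => rw [pow_succ, pow_succ, tay_mul (hf.pow n) hf, ih]

theorem tay_prod {ι : Type*} (s : Finset ι) (φ : ι → ℂ → ℂ) (hφ : ∀ i, AnalyticAt ℂ (φ i) 0) :
    tay (∏ i ∈ s, φ i) = ∏ i ∈ s, tay (φ i) := by
  classical
  induction s using Finset.induction_on with
  | empty => simpa using tay_one
  | insert a s ha ih =>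
    rw [Finset.prod_insert ha, Finset.prod_insert ha, tay_mul (hφ a), ih]
    exact Finset.analyticAt_prod _ fun i _ => hφ i

theorem tendstoLocallyUniformlyOn_iteratedDeriv {ι : Type*} {l : Filter ι} {F : ι → ℂ → ℂ}
    {f : ℂ → ℂ} {U : Set ℂ} (hU : IsOpen U) (hf : TendstoLocallyUniformlyOn F f l U)
    (hF : ∀ᶠ n in l, DifferentiableOn ℂ (F n) U) (m : ℕ) :
    TendstoLocallyUniformlyOn (fun n => iteratedDeriv m (F n)) (iteratedDeriv m f) l U ∧
      ∀ᶠ n in l, DifferentiableOn ℂ (iteratedDeriv m (F n)) U := by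
  induction m with
  | zero => simpa [iteratedDeriv_zero] using ⟨hf, hF⟩
  | succ m ih =>
    refine ⟨?_, ?_⟩
    · have := ih.1.deriv ih.2 hU
      simpa [iteratedDeriv_succ, Function.comp_def] using this
    · filter_upwards [ih.2] with n hn
      rw [iteratedDeriv_succ]
      exact hn.deriv hU

theorem tendsto_coeff_tay {ι : Type*} {l : Filter ι} {F : ι → ℂ → ℂ}
    {f : ℂ → ℂ} {U : Set ℂ} (hU : IsOpen U) (h0 : (0 : ℂ) ∈ U)
    (hf : TendstoLocallyUniformlyOn F f l U)
    (hF : ∀ᶠ n in l, DifferentiableOn ℂ (F n) U) (m : ℕ) :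
    Tendsto (fun n => (tay (F n)).coeff m) l (𝓝 ((tay f).coeff m)) := by
  simp only [coeff_tay]
  exact ((tendstoLocallyUniformlyOn_iteratedDeriv hU hf hF m).1.tendsto_at h0).const_mul _

open scoped PowerSeries.WithPiTopology in
/-- The Taylor series of Euler's product is the formal Euler product. -/
theorem tay_tprod_one_sub_pow :
    tay (fun q : ℂ => ∏' n : ℕ, (1 - q ^ (n + 1))) =
      ModularCurve.etaProd.map (Int.castRingHom ℂ) := by
  ext m
  have h1 : Tendsto (fun s : Finset ℕ => (tay (fun q : ℂ => ∏ n ∈ s, (1 - q ^ (n + 1)))).coeff m)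
      atTop (𝓝 ((tay (fun q : ℂ => ∏' n : ℕ, (1 - q ^ (n + 1)))).coeff m)) := by
    refine tendsto_coeff_tay Metric.isOpen_ball (Metric.mem_ball_self one_pos)
      multipliableLocallyUniformlyOn_one_sub_pow.hasProdLocallyUniformlyOn
      (.of_forall fun s => ?_) m
    exact DifferentiableOn.fun_finsetProd (fun _ _ ↦ by fun_prop)
  have h2 : ∀ s : Finset ℕ, tay (fun q : ℂ => ∏ n ∈ s, (1 - q ^ (n + 1))) =
      (∏ n ∈ s, (1 - PowerSeries.X ^ (n + 1) : PowerSeries ℤ)).map (Int.castRingHom ℂ) := by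
    intro s
    have e : (fun q : ℂ => ∏ n ∈ s, (1 - q ^ (n + 1))) =
        ∏ n ∈ s, ((1 : ℂ → ℂ) - (fun q : ℂ => q) ^ (n + 1)) := by
      funext q; simp
    rw [e, tay_prod _ _ (fun n => by
      apply AnalyticAt.sub analyticAt_const
      exact (analyticAt_id).pow _), map_prod]
    refine Finset.prod_congr rfl fun n _ => ?_
    have ha : AnalyticAt ℂ (fun q : ℂ => q) 0 := analyticAt_id
    have h1' : AnalyticAt ℂ (1 : ℂ → ℂ) 0 := analyticAt_const
    rw [tay_sub h1' (ha.pow _), tay_one, tay_pow ha, tay_id]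
    simp
  have h3 : Tendsto (fun s : Finset ℕ =>
      ((∏ n ∈ s, (1 - PowerSeries.X ^ (n + 1) : PowerSeries ℤ)).map (Int.castRingHom ℂ)).coeff m)
      atTop (𝓝 ((ModularCurve.etaProd.map (Int.castRingHom ℂ)).coeff m)) := by
    have hp : HasProd (fun n : ℕ => (1 - PowerSeries.X ^ (n + 1) : PowerSeries ℤ))
        ModularCurve.etaProd := (PowerSeries.WithPiTopology.multipliable_one_sub_X_pow ℤ).hasProd
    have hc := ((PowerSeries.WithPiTopology.continuous_coeff ℤ m).tendsto _).comp hp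
    have hcast : Continuous (fun z : ℤ => (z : ℂ)) := continuous_of_discreteTopology
    simp only [PowerSeries.coeff_map]
    exact (hcast.tendsto _).comp hc
  simp only [h2] at h1
  exact tendsto_nhds_unique h1 h3

theorem analyticAt_tprod_one_sub_pow :
    AnalyticAt ℂ (fun q : ℂ => ∏' n : ℕ, (1 - q ^ (n + 1))) 0 :=
  differentiableOn_tprod_one_sub_pow.analyticAt (Metric.ball_mem_nhds 0 one_pos)

/-- (Q2) the analytic `q`-expansion of `Δ` is the formal series `q ∏ (1 - qⁿ)²⁴`. -/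
theorem qExpansion_discriminant :
    qExpansion 1 ModularForm.discriminant =
      PowerSeries.X * ModularCurve.dedekindEtaUnit.map (Int.castRingHom ℂ) := by
  have h1 : cuspFunction 1 ModularForm.discriminant =ᶠ[𝓝 0]
      (fun q : ℂ => q) * (fun q : ℂ => ∏' n : ℕ, (1 - q ^ (n + 1))) ^ 24 := by
    filter_upwards [Metric.ball_mem_nhds (0 : ℂ) one_pos] with q hq
    rw [discriminant_cuspFunction_eqOn hq]
    simp only [Pi.mul_apply, Pi.pow_apply]
    rw [(multipliable_one_sub_pow (by simpa using hq)).tprod_pow 24]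
  have ha : AnalyticAt ℂ (fun q : ℂ => q) 0 := analyticAt_id
  rw [qExpansion_eq_tay, tay_congr h1, tay_mul ha (analyticAt_tprod_one_sub_pow.pow 24),
    tay_id, tay_pow analyticAt_tprod_one_sub_pow, tay_tprod_one_sub_pow,
    ModularCurve.dedekindEtaUnit, map_pow]

/-! ### Scaling `τ ↦ d τ` -/

local notation "𝕢" => Periodic.qParam

theorem qParam_mul_nat (d : ℕ) (z : ℂ) : 𝕢 1 ((d : ℂ) * z) = 𝕢 1 z ^ d := by
  simp only [Periodic.qParam, ← Complex.exp_nat_mul]
  congr 1
  simp
  ring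

section scaling

variable {d : ℕ} (hd : 0 < d) {f : ℍ → ℂ} (s : ℍ → ℍ) (hs : ∀ τ : ℍ, (s τ : ℂ) = d * τ)

include hd hs

theorem scale_eq_ofComplex (τ : ℍ) : s τ = ofComplex ((d : ℂ) * τ) := by
  rw [← hs τ, ofComplex_apply]

theorem periodic_scale (hper : Periodic (f ∘ ofComplex) 1) :
    Periodic ((f ∘ s) ∘ ofComplex) 1 := by
  intro w
  by_cases hw : 0 < im w
  · have hw' : 0 < im (w + 1) := by simpa using hw
    have hdw : 0 < im ((d : ℂ) * w) := by
      simpa using mul_pos (Nat.cast_pos.mpr hd : (0 : ℝ) < d) hw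
    simp only [comp_apply, ofComplex_apply_of_im_pos hw', ofComplex_apply_of_im_pos hw,
      scale_eq_ofComplex hd s hs, UpperHalfPlane.coe_mk]
    have := hper.nat_mul d ((d : ℂ) * w)
    simp only [comp_apply, mul_one] at this
    rw [mul_add, mul_one, this]
  · have hw' : im (w + 1) ≤ 0 := by simpa using not_lt.mp hw
    simp [ofComplex_apply_of_im_nonpos hw', ofComplex_apply_of_im_nonpos (not_lt.mp hw)]

theorem mdiff_scale (hhol : MDiff f) : MDiff (f ∘ s) := by
  intro τ
  rw [UpperHalfPlane.mdifferentiableAt_iff]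
  have h1 : DifferentiableAt ℂ (f ∘ ofComplex) ((d : ℂ) * τ) := by
    have := UpperHalfPlane.mdifferentiableAt_iff.mp (hhol (s τ))
    rwa [hs τ] at this
  have h2 : DifferentiableAt ℂ (fun w : ℂ => (d : ℂ) * w) τ := by fun_prop
  have h3 : ((f ∘ s) ∘ ofComplex) =ᶠ[𝓝 (τ : ℂ)] (f ∘ ofComplex) ∘ (fun w : ℂ => (d : ℂ) * w) := by
    filter_upwards [isOpen_upperHalfPlaneSet.mem_nhds τ.im_pos] with w hw
    simp only [comp_apply, ofComplex_apply_of_im_pos hw, scale_eq_ofComplex hd s hs,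
      UpperHalfPlane.coe_mk]
  exact (DifferentiableAt.comp (τ : ℂ) h1 h2).congr_of_eventuallyEq h3

theorem tendsto_scale_atImInfty : Tendsto s atImInfty atImInfty := by
  rw [atImInfty, tendsto_comap_iff]
  have h1 : (UpperHalfPlane.im ∘ s) = fun τ : ℍ => (d : ℝ) * τ.im := by
    funext τ
    have := congrArg Complex.im (hs τ)
    simpa using this
  rw [h1]
  have h2 : Tendsto UpperHalfPlane.im (comap UpperHalfPlane.im atTop) atTop := tendsto_comap
  exact h2.const_mul_atTop (Nat.cast_pos.mpr hd)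

theorem isBoundedAtImInfty_scale (hbdd : IsBoundedAtImInfty f) : IsBoundedAtImInfty (f ∘ s) :=
  hbdd.comp_tendsto (tendsto_scale_atImInfty hd s hs)

/-- (Q3) the `q`-expansion of `τ ↦ f (d τ)`. -/
theorem qExpansion_scale_coeff (hper : Periodic (f ∘ ofComplex) 1) (hhol : MDiff f)
    (hbdd : IsBoundedAtImInfty f) (n : ℕ) :
    (qExpansion 1 (f ∘ s)).coeff n = if d ∣ n then (qExpansion 1 f).coeff (n / d) else 0 := by
  have han : AnalyticAt ℂ (cuspFunction 1 (f ∘ s)) 0 :=
    analyticAt_cuspFunction_zero one_pos (periodic_scale hd s hs hper) (mdiff_scale hd s hs hhol)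
      (isBoundedAtImInfty_scale hd s hs hbdd)
  have key : ∀ τ : ℍ, HasSum (fun m : ℕ =>
      (if d ∣ m then (qExpansion 1 f).coeff (m / d) else 0) • 𝕢 1 (τ : ℂ) ^ m) ((f ∘ s) τ) := by
    intro τ
    have h1 : HasSum (fun m : ℕ => (qExpansion 1 f).coeff m • 𝕢 1 ((s τ : ℍ) : ℂ) ^ m) (f (s τ)) :=
      hasSum_qExpansion one_pos hper hhol hbdd (s τ)
    rw [hs τ, qParam_mul_nat] at h1
    have hinj : Function.Injective (fun m : ℕ => d * m) := fun a b h =>
      Nat.eq_of_mul_eq_mul_left hd h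
    refine (hinj.hasSum_iff ?_).mp ?_
    · intro x hx
      have hx' : ¬ d ∣ x := fun ⟨m, hm⟩ => hx ⟨m, hm.symm⟩
      rw [if_neg hx', zero_smul]
    · have h2 : ((fun m : ℕ =>
          (if d ∣ m then (qExpansion 1 f).coeff (m / d) else 0) • 𝕢 1 (τ : ℂ) ^ m) ∘
            fun m : ℕ => d * m) =
          fun m : ℕ => (qExpansion 1 f).coeff m • (𝕢 1 (τ : ℂ) ^ d) ^ m := by
        funext m
        simp only [comp_apply]
        rw [if_pos (dvd_mul_right d m), Nat.mul_div_cancel_left _ hd, pow_mul]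
      rw [h2]
      exact h1
  exact (@qExpansion_coeff_unique (ℍ → ℂ) ⟨fun g => g, fun _ _ h => h⟩ 1 (f ∘ s) _ one_pos han key
    n).symm

/-- (Q3') the same statement for Laurent series. -/
theorem ofPowerSeries_qExpansion_scale [NeZero d] (hper : Periodic (f ∘ ofComplex) 1)
    (hhol : MDiff f) (hbdd : IsBoundedAtImInfty f) :
    HahnSeries.ofPowerSeries ℤ ℂ (qExpansion 1 (f ∘ s)) =
      ModularCurve.qExpand ℂ d (HahnSeries.ofPowerSeries ℤ ℂ (qExpansion 1 f)) := by
  ext k
  by_cases hk : (d : ℤ) ∣ k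
  · obtain ⟨m, rfl⟩ := hk
    rw [ModularCurve.qExpand_coeff_mul]
    rcases le_or_gt 0 m with hm | hm
    · lift m to ℕ using hm
      rw [show (d : ℤ) * (m : ℤ) = ((d * m : ℕ) : ℤ) by push_cast; ring,
        HahnSeries.ofPowerSeries_apply_coeff, HahnSeries.ofPowerSeries_apply_coeff,
        qExpansion_scale_coeff hd s hs hper hhol hbdd, if_pos (dvd_mul_right _ _),
        Nat.mul_div_cancel_left _ hd]
    · rw [ModularCurve.ofPowerSeries_coeff_of_neg _ hm, ModularCurve.ofPowerSeries_coeff_of_neg]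
      exact mul_neg_of_pos_of_neg (by exact_mod_cast hd) hm
  · rw [ModularCurve.qExpand_coeff_of_not_dvd _ _ hk]
    rcases le_or_gt 0 k with hk0 | hk0
    · lift k to ℕ using hk0
      rw [HahnSeries.ofPowerSeries_apply_coeff, qExpansion_scale_coeff hd s hs hper hhol hbdd,
        if_neg (fun h => hk (by exact_mod_cast h))]
    · exact ModularCurve.ofPowerSeries_coeff_of_neg _ hk0

end scaling

/-! ### (Q4) the dictionary for `j` -/

local notation "ι" => HahnSeries.ofPowerSeries ℤ ℂ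

/-- (Q4) `E₄³ = j · Δ` for `q`-expansions, in `LaurentSeries ℂ`. -/
theorem ofPowerSeries_qExpansion_E4_pow :
    ι (qExpansion 1 E₄) ^ 3 = ModularCurve.jqModC ℂ * ι (qExpansion 1 ModularForm.discriminant) := by
  rw [qExpansion_E4, qExpansion_discriminant, ModularCurve.jqModC, ModularCurve.jNum, map_mul,
    map_mul, map_mul, map_pow, map_pow, HahnSeries.ofPowerSeries_X]
  have h1 : ι (ModularCurve.dedekindEtaUnitInv.map (Int.castRingHom ℂ)) *
      ι (ModularCurve.dedekindEtaUnit.map (Int.castRingHom ℂ)) = 1 := by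
    rw [← map_mul, ← map_mul, mul_comm, ModularCurve.dedekindEtaUnit_mul_inv, map_one, map_one]
  have h2 : (HahnSeries.single (-1 : ℤ) (1 : ℂ)) * HahnSeries.single (1 : ℤ) (1 : ℂ) = 1 := by
    rw [HahnSeries.single_mul_single]
    simp
  calc _ = ((HahnSeries.single (-1 : ℤ) (1 : ℂ)) * HahnSeries.single (1 : ℤ) (1 : ℂ)) *
        (ι (ModularCurve.eisenstein4.map (Int.castRingHom ℂ)) ^ 3 *
        (ι (ModularCurve.dedekindEtaUnitInv.map (Int.castRingHom ℂ)) *
          ι (ModularCurve.dedekindEtaUnit.map (Int.castRingHom ℂ)))) := by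
        rw [h1, h2, one_mul, mul_one]
    _ = _ := by ring

theorem periodic_E4 : Periodic ((E₄ : ℍ → ℂ) ∘ ofComplex) 1 := by
  simpa using SlashInvariantFormClass.periodic_comp_ofComplex E₄ one_mem_strictPeriods_SL

theorem mdiff_E4 : MDiff (E₄ : ℍ → ℂ) := ModularFormClass.holo E₄

theorem isBoundedAtImInfty_E4 : IsBoundedAtImInfty (E₄ : ℍ → ℂ) := ModularFormClass.bdd_at_infty E₄

theorem periodic_discriminant : Periodic (ModularForm.discriminant ∘ ofComplex) 1 := by
  simpa using SlashInvariantFormClass.periodic_comp_ofComplex CuspForm.discriminant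
    one_mem_strictPeriods_SL

theorem mdiff_discriminant : MDiff ModularForm.discriminant :=
  ModularFormClass.holo CuspForm.discriminant

theorem isBoundedAtImInfty_discriminant : IsBoundedAtImInfty ModularForm.discriminant :=
  ModularFormClass.bdd_at_infty CuspForm.discriminant

section scal

variable (d : ℕ) [NeZero d]

theorem periodic_comp_scal {f : ℍ → ℂ} (hper : Periodic (f ∘ ofComplex) 1) :
    Periodic ((f ∘ scal d) ∘ ofComplex) 1 :=
  periodic_scale (Nat.pos_of_ne_zero (NeZero.ne d)) (scal d) (coe_scal d) hper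

theorem mdiff_comp_scal {f : ℍ → ℂ} (hhol : MDiff f) : MDiff (f ∘ scal d) :=
  mdiff_scale (Nat.pos_of_ne_zero (NeZero.ne d)) (scal d) (coe_scal d) hhol

theorem isBoundedAtImInfty_comp_scal {f : ℍ → ℂ} (hbdd : IsBoundedAtImInfty f) :
    IsBoundedAtImInfty (f ∘ scal d) :=
  isBoundedAtImInfty_scale (Nat.pos_of_ne_zero (NeZero.ne d)) (scal d) (coe_scal d) hbdd

/-- (Q3') for `scal d`. -/
theorem ofPowerSeries_qExpansion_comp_scal {f : ℍ → ℂ} (hper : Periodic (f ∘ ofComplex) 1)
    (hhol : MDiff f) (hbdd : IsBoundedAtImInfty f) :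
    ι (qExpansion 1 (f ∘ scal d)) = ModularCurve.qExpand ℂ d (ι (qExpansion 1 f)) :=
  ofPowerSeries_qExpansion_scale (Nat.pos_of_ne_zero (NeZero.ne d)) (scal d) (coe_scal d) hper hhol
    hbdd

/-- (Q4) `E₄(dτ)³ = j(q^d) · Δ(dτ)` for `q`-expansions, in `LaurentSeries ℂ`. -/
theorem ofPowerSeries_qExpansion_E4_scal_pow :
    ι (qExpansion 1 ((E₄ : ℍ → ℂ) ∘ scal d)) ^ 3 =
      ModularCurve.jqNModC ℂ d * ι (qExpansion 1 (ModularForm.discriminant ∘ scal d)) := by
  rw [ofPowerSeries_qExpansion_comp_scal d periodic_E4 mdiff_E4 isBoundedAtImInfty_E4,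
    ofPowerSeries_qExpansion_comp_scal d periodic_discriminant mdiff_discriminant
      isBoundedAtImInfty_discriminant, ModularCurve.jqNModC, ← map_pow, ← map_mul,
    ofPowerSeries_qExpansion_E4_pow]

theorem qExpansion_discriminant_ne_zero : qExpansion 1 ModularForm.discriminant ≠ 0 := by
  intro h
  have := ModularForm.discriminant_qExpansion_coeff_one
  rw [h] at this
  simp at this

theorem ofPowerSeries_qExpansion_discriminant_scal_ne_zero :
    ι (qExpansion 1 (ModularForm.discriminant ∘ scal d)) ≠ 0 := by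
  rw [ofPowerSeries_qExpansion_comp_scal d periodic_discriminant mdiff_discriminant
      isBoundedAtImInfty_discriminant]
  intro h
  have h1 := (map_eq_zero_iff _ (ModularCurve.qExpand_injective (R := ℂ) d)).mp h
  exact qExpansion_discriminant_ne_zero
    ((map_eq_zero_iff _ HahnSeries.ofPowerSeries_injective).mp h1)

/-- (Q4'') the `q`-expansion of `j(dτ)` as a quotient. -/
theorem jqNModC_eq_div :
    ModularCurve.jqNModC ℂ d = ι (qExpansion 1 ((E₄ : ℍ → ℂ) ∘ scal d)) ^ 3 /
      ι (qExpansion 1 (ModularForm.discriminant ∘ scal d)) := by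
  rw [ofPowerSeries_qExpansion_E4_scal_pow,
    mul_div_cancel_right₀ _ (ofPowerSeries_qExpansion_discriminant_scal_ne_zero d)]

/-- The formal generator `j(q^d)` over `Kb`, pushed to `ℂ`. -/
theorem coeffMap_jBarSeries (φ : Kb →+* ℂ) :
    ModularCurve.coeffMap φ (jBarSeries d) = ModularCurve.jqNModC ℂ d := by
  rw [jBarSeries, ModularCurve.coeffEmb, ModularCurve.coeffMap_coeffMap,
    ← ModularCurve.jqModC_rat, ← ModularCurve.jqNModC, ModularCurve.coeffMap_jqNModC]

theorem jd_eq (τ : ℍ) :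
    jd d τ = ((E₄ : ℍ → ℂ) ∘ scal d) τ ^ 3 / (ModularForm.discriminant ∘ scal d) τ := rfl

end scal

end

end Fermat.Agent.S24
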