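import Fermat.Agent.S24.Hol
import Fermat.Agent.S24.HolPer

/-!
# `HolPer h ≤ Hol` and the induced embedding `MerPer h →+* Mer`
-/

set_option autoImplicit false

open UpperHalfPlane Function Complex
open scoped Manifold

noncomputable section

namespace Fermat.Agent.S24

theorem HolPer_le_Hol (h : ℕ) : HolPer h ≤ Hol := fun _ hf => hf.1

/-- The inclusion of periodic bounded holomorphic functions in all holomorphic functions. -/
def inclHol (h : ℕ) : HolPer h →ₐ[ℂ] Hol := Subalgebra.inclusion (HolPer_le_Hol h)

@[simp] theorem coe_inclHol (h : ℕ) (f : HolPer h) : (inclHol h f : ℍ → ℂ) = f := rfl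

theorem inclHol_injective (h : ℕ) : Injective (inclHol h) :=
  Subalgebra.inclusion_injective (HolPer_le_Hol h)

variable (h : ℕ) [NeZero h]

theorem algebraMap_comp_inclHol_injective :
    Injective ((algebraMap Hol Mer).comp (inclHol h).toRingHom) :=
  (IsFractionRing.injective Hol Mer).comp (inclHol_injective h)

/-- The embedding of fractions of `h`-periodic functions in `Mer`. -/
def toMer : MerPer h →+* Mer :=
  IsFractionRing.lift (algebraMap_comp_inclHol_injective h)

theorem toMer_algebraMap (f : HolPer h) :
    toMer h (algebraMap (HolPer h) (MerPer h) f) = algebraMap Hol Mer (inclHol h f) :=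
  IsFractionRing.lift_algebraMap _ _

theorem toMer_injective : Injective (toMer h) := (toMer h).injective

theorem toMer_div (a b : HolPer h) :
    toMer h (algebraMap _ (MerPer h) a / algebraMap _ (MerPer h) b) =
      algebraMap Hol Mer (inclHol h a) / algebraMap Hol Mer (inclHol h b) := by
  rw [map_div₀, toMer_algebraMap, toMer_algebraMap]

theorem toMer_const (c : ℂ) :
    toMer h (algebraMap ℂ (MerPer h) c) = algebraMap ℂ Mer c := by
  rw [IsScalarTower.algebraMap_apply ℂ (HolPer h) (MerPer h), toMer_algebraMap,
    IsScalarTower.algebraMap_apply ℂ Hol Mer, AlgHom.commutes]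

end Fermat.Agent.S24
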