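import Mathlib
import Fermat.Agent.S24.Hol
import Fermat.Agent.S24.ToMer
import Fermat.Agent.S24.Theta
import Fermat.Agent.S24.QExp
import Fermat.Agent.S24.Hermite

/-!
The family of embeddings `sigma N x : FN N →+* Mer`, `x : XN N`, of the function field of `X₀(N)`
into the field of fractions of the holomorphic functions on the upper half plane.
-/

set_option autoImplicit false

open UpperHalfPlane hiding I
open Function ModularForm EisensteinSeries ModularCurve CongruenceSubgroup
open scoped Manifold MatrixGroups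

namespace Fermat.Agent.S24

noncomputable section

/-! ### The generators are `q`-expansions -/

/-- `E₄(dτ)` as an element of `HolPer 1`. -/
def e4Scal (d : ℕ) [NeZero d] : HolPer 1 :=
  ⟨(E₄ : ℍ → ℂ) ∘ scal d, mdiff_comp_scal d mdiff_E4,
    by simpa using periodic_comp_scal d periodic_E4,
    isBoundedAtImInfty_comp_scal d isBoundedAtImInfty_E4⟩

/-- `Δ(dτ)` as an element of `HolPer 1`. -/
def deltaScal (d : ℕ) [NeZero d] : HolPer 1 :=
  ⟨ModularForm.discriminant ∘ scal d, mdiff_comp_scal d mdiff_discriminant,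
    by simpa using periodic_comp_scal d periodic_discriminant,
    isBoundedAtImInfty_comp_scal d isBoundedAtImInfty_discriminant⟩

/-- `j(dτ)` as an element of `MerPer 1`. -/
def jdPer (d : ℕ) [NeZero d] : MerPer 1 :=
  algebraMap (HolPer 1) (MerPer 1) (e4Scal d) ^ 3 / algebraMap (HolPer 1) (MerPer 1) (deltaScal d)

theorem toLaurent_jdPer (d : ℕ) [NeZero d] : toLaurent 1 (jdPer d) = jqNModC ℂ d := by
  rw [jdPer, map_div₀, map_pow, toLaurent_algebraMap, toLaurent_algebraMap, jqNModC_eq_div]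
  simp [e4Scal, deltaScal]

theorem genInRange (N : ℕ) : GenInRange N := fun d _ _ => ⟨jdPer d, toLaurent_jdPer d⟩

/-! ### The functions `j(dτ)` -/

theorem mdiff_jd (d : ℕ) [NeZero d] : MDiff (jd d) := by
  have h1 : MDiff (((E₄ : ℍ → ℂ) ∘ scal d) ^ 3) := (mdiff_comp_scal d mdiff_E4).pow 3
  have h2 : MDiff (ModularForm.discriminant ∘ scal d) := mdiff_comp_scal d mdiff_discriminant
  rw [UpperHalfPlane.mdifferentiable_iff] at h1 h2 ⊢
  have := h1.div h2 (fun z _ => discriminant_ne_zero _)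
  exact this

/-- `j(dτ)` as an element of `Hol`. -/
def jdHol (d : ℕ) [NeZero d] : Hol := ⟨jd d, mdiff_jd d⟩

@[simp] theorem coe_jdHol (d : ℕ) [NeZero d] : (jdHol d : ℍ → ℂ) = jd d := rfl

theorem toMer_jdPer (d : ℕ) [NeZero d] : toMer 1 (jdPer d) = algebraMap Hol Mer (jdHol d) := by
  have hne : algebraMap Hol Mer (inclHol 1 (deltaScal d)) ≠ 0 := by
    rw [Ne, map_eq_zero_iff _ (IsFractionRing.injective Hol Mer)]
    intro h
    have := congrFun (congrArg Subtype.val h) UpperHalfPlane.I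
    exact discriminant_ne_zero _ this
  rw [jdPer, map_div₀, map_pow, toMer_algebraMap, toMer_algebraMap, div_eq_iff hne, ← map_pow,
    ← map_mul]
  congr 1
  apply Subtype.ext
  funext τ
  show (E₄ (scal d τ)) ^ 3 = jd d τ * ModularForm.discriminant (scal d τ)
  rw [jd, jfun, div_mul_cancel₀ _ (discriminant_ne_zero _)]

/-! ### The embedding `ThetaMer` -/

/-- The embedding of the function field into `Mer`. -/
def ThetaMer (N : ℕ) : FN N →+* Mer := (toMer 1).comp (Theta iotaK.toRingHom (genInRange N))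

theorem ThetaMer_algebraMap (N : ℕ) (a : Kb) :
    ThetaMer N (algebraMap Kb (FN N) a) = algebraMap ℂ Mer (iotaK a) := by
  rw [ThetaMer, RingHom.comp_apply, Theta_algebraMap, toMer_const]
  rfl

theorem ThetaMer_jBar (N d : ℕ) [NeZero d] (hd : d ∣ N) :
    ThetaMer N (jBar N d hd) = algebraMap Hol Mer (jdHol d) := by
  rw [ThetaMer, RingHom.comp_apply, Theta_jBar _ _ d hd (jdPer d) (toLaurent_jdPer d),
    toMer_jdPer]

theorem scal_eq_smul (d : ℕ) [NeZero d] (τ : ℍ) : scal d τ = heckeDiagMatrix d • τ := by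
  apply UpperHalfPlane.ext
  rw [coe_scal, coe_heckeDiagMatrix_smul (NeZero.ne d)]

theorem scal_one (τ : ℍ) : scal 1 τ = τ := by
  apply UpperHalfPlane.ext
  simp

theorem jd_one : jd 1 = jfun := by
  funext τ
  rw [jd, scal_one]

/-! ### The family -/

/-- `f ↦ g · Theta f`. -/
def sigma0 (N : ℕ) (g : SL(2, ℤ)) : FN N →+* Mer :=
  ((actMer g : Mer ≃ₐ[ℂ] Mer) : Mer →+* Mer).comp (ThetaMer N)

theorem sigma0_apply (N : ℕ) (g : SL(2, ℤ)) (f : FN N) :
    sigma0 N g f = actMer g (ThetaMer N f) := rfl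

theorem sigma0_algebraMap (N : ℕ) (g : SL(2, ℤ)) (a : Kb) :
    sigma0 N g (algebraMap Kb (FN N) a) = algebraMap ℂ Mer (iotaK a) := by
  rw [sigma0_apply, ThetaMer_algebraMap, AlgEquiv.commutes]

theorem sigma0_jBar (N : ℕ) (g : SL(2, ℤ)) (d : ℕ) [NeZero d] (hd : d ∣ N) :
    sigma0 N g (jBar N d hd) = algebraMap Hol Mer (actHol g (jdHol d)) := by
  rw [sigma0_apply, ThetaMer_jBar, actMer_algebraMap]

theorem sigma0_mul (N : ℕ) (g h : SL(2, ℤ)) (f : FN N) :
    sigma0 N (g * h) f = actMer g (sigma0 N h f) := by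
  rw [sigma0_apply, sigma0_apply, map_mul]
  rfl

variable (hinv : IsSLInvariant jfun)

include hinv in
theorem actHol_jdHol_of_mem {N d : ℕ} [NeZero d] (hd : d ∣ N) {γ : SL(2, ℤ)}
    (hγ : γ ∈ Gamma0 N) : actHol γ (jdHol d) = jdHol d := by
  apply Subtype.ext
  funext τ
  rw [actHol_apply]
  show jfun (scal d (γ⁻¹ • τ)) = jfun (scal d τ)
  rw [scal_eq_smul, scal_eq_smul, hinv.comp_diag_smul hd (inv_mem hγ)]

include hinv in
theorem sigma0_of_mem {N : ℕ} {γ : SL(2, ℤ)} (hγ : γ ∈ Gamma0 N) :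
    sigma0 N γ = ThetaMer N := by
  apply ringHom_ext_bar
  · intro a
    rw [sigma0_algebraMap, ThetaMer_algebraMap]
  · intro d _ hd
    rw [sigma0_jBar, ThetaMer_jBar, actHol_jdHol_of_mem hinv hd hγ]

include hinv in
theorem sigma0_mul_of_mem {N : ℕ} (g : SL(2, ℤ)) {γ : SL(2, ℤ)} (hγ : γ ∈ Gamma0 N) :
    sigma0 N (g * γ) = sigma0 N g := by
  ext f
  rw [sigma0_mul, sigma0_of_mem hinv hγ, sigma0_apply]

/-- The family of embeddings indexed by the cosets. -/
def sigma (N : ℕ) (x : XN N) : FN N →+* Mer := sigma0 N x.out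

include hinv in
theorem sigma_mk (N : ℕ) (g : SL(2, ℤ)) : sigma N (g : XN N) = sigma0 N g := by
  obtain ⟨γ, hγ⟩ := QuotientGroup.mk_out_eq_mul (Gamma0 N) g
  rw [sigma, hγ, sigma0_mul_of_mem hinv g γ.2]

include hinv in
theorem actMer_sigma (N : ℕ) (s : SL(2, ℤ)) (x : XN N) (f : FN N) :
    actMer s (sigma N x f) = sigma N (s • x) f := by
  induction x using QuotientGroup.induction_on with
  | H g =>
    rw [MulAction.Quotient.smul_coe, smul_eq_mul, sigma_mk hinv, sigma_mk hinv, sigma0_mul]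

theorem sigma_algebraMap (N : ℕ) (x : XN N) (a : Kb) :
    sigma N x (algebraMap Kb (FN N) a) = algebraMap ℂ Mer (iotaK a) :=
  sigma0_algebraMap N _ a

include hinv in
theorem actHol_jdHol_one (g : SL(2, ℤ)) : actHol g (jdHol 1) = jdHol 1 := by
  apply Subtype.ext
  funext τ
  rw [actHol_apply]
  show jd 1 (g⁻¹ • τ) = jd 1 τ
  rw [jd_one, hinv]

include hinv in
theorem sigma_jF (N : ℕ) (x : XN N) : sigma N x (jF N) = algebraMap Hol Mer (jdHol 1) := by
  rw [sigma, jF, sigma0_jBar, actHol_jdHol_one hinv]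

include hinv in
theorem sigma_injective (hpole : HasSimplePoleAtImInfty jfun) (N : ℕ) [NeZero N] :
    Injective (sigma N) := by
  intro x y hxy
  induction x using QuotientGroup.induction_on with
  | H g =>
  induction y using QuotientGroup.induction_on with
  | H h =>
    rw [sigma_mk hinv, sigma_mk hinv] at hxy
    have h1 := congrArg (fun φ : FN N →+* Mer => φ (jBar N N dvd_rfl)) hxy
    simp only [sigma0_jBar] at h1
    have h2 := IsFractionRing.injective Hol Mer h1
    rw [QuotientGroup.eq]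
    apply mem_Gamma0_of_comp_diag_eq hinv hpole
    intro τ
    have h3 := congrFun (congrArg Subtype.val h2) (h • τ)
    rw [actHol_apply, actHol_apply, inv_smul_smul] at h3
    rw [mul_smul, ← scal_eq_smul, ← scal_eq_smul]
    exact h3

end

end Fermat.Agent.S24
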