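import Mathlib
import Fermat.Agent.S24.Degree
import Fermat.Agent.S24.Sigma
import Fermat.Agent.S24.Gen
import Fermat.Agent.S24.Conj
import Fermat.Agent.S24.FF.Param

/-!
Instantiation of the abstract degree theorem: `[F_N : Kb(j)] = card (SL₂(ℤ) / Γ₀(N))`,
assuming the statement `CharpolyCoeff N` ("the characteristic polynomial of a holomorphic element
has coefficients in `ℂ[j]`").
-/

set_option autoImplicit false

namespace Fermat.Agent.S24

open ModularCurve IntermediateField CongruenceSubgroup
open scoped MatrixGroups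

noncomputable section

instance degreeInst_finite_XN (N : ℕ) [NeZero N] : Finite (XN N) :=
  Subgroup.finite_quotient_of_finiteIndex

instance degreeInst_fintype_XN (N : ℕ) [NeZero N] : Fintype (XN N) := Fintype.ofFinite _

/-- (CP): the coefficients of the characteristic polynomial are polynomials in `j`. -/
def CharpolyCoeff (N : ℕ) [NeZero N] : Prop :=
  ∀ θ ∈ Algebra.adjoin ℂ (ThetaMer N '' genSetF N), ∀ i : ℕ, ∃ p : Polynomial ℂ,
    (∏ x : XN N, (Polynomial.X - Polynomial.C (actMer (Quotient.out x) θ))).coeff i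
      = Polynomial.aeval (algebraMap Hol Mer (jdHol 1)) p

theorem ThetaMer_jF (N : ℕ) : ThetaMer N (jF N) = algebraMap Hol Mer (jdHol 1) :=
  ThetaMer_jBar N 1 (one_dvd N)

theorem toMer_aeval (u : MerPer 1) (p : Polynomial ℂ) :
    toMer 1 (Polynomial.aeval u p) = Polynomial.aeval (toMer 1 u) p := by
  rw [Polynomial.aeval_def, Polynomial.aeval_def, Polynomial.hom_eval₂]
  congr 1
  ext c
  exact toMer_const 1 c

theorem toLaurent_aeval (u : MerPer 1) (p : Polynomial ℂ) :
    toLaurent 1 (Polynomial.aeval u p) = Polynomial.aeval (toLaurent 1 u) p := by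
  rw [Polynomial.aeval_def, Polynomial.aeval_def, Polynomial.hom_eval₂]
  congr 1
  refine RingHom.ext fun c => ?_
  rw [RingHom.comp_apply, toLaurent_const, algebraMap_laurentSeries_eq_single]
  rfl

theorem ThetaMer_relation (N : ℕ) (m : ℕ) (p : Fin m → Polynomial ℂ) (f : Fin m → FN N)
    (h : ∑ i, Polynomial.aeval (ThetaMer N (jF N)) (p i) * ThetaMer N (f i) = 0) :
    ∑ i, Polynomial.aeval (coeffMap iotaK.toRingHom ((modularFunctionFieldBar N).val (jF N))) (p i)
      * coeffMap iotaK.toRingHom ((modularFunctionFieldBar N).val (f i)) = 0 := by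
  have h1 : toMer 1 (∑ i, Polynomial.aeval (Theta iotaK.toRingHom (genInRange N) (jF N)) (p i)
      * Theta iotaK.toRingHom (genInRange N) (f i)) = 0 := by
    rw [map_sum, ← h]
    refine Finset.sum_congr rfl fun i _ => ?_
    rw [map_mul, toMer_aeval]
    rfl
  have h2 := (map_eq_zero_iff _ (toMer_injective 1)).mp h1
  have h3 := congrArg (toLaurent 1) h2
  rw [map_zero, map_sum] at h3
  rw [← h3]
  refine Finset.sum_congr rfl fun i _ => ?_
  rw [map_mul, toLaurent_aeval, toLaurent_Theta, toLaurent_Theta]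
  rfl

theorem degree_of_charpolyCoeff (N : ℕ) [NeZero N] (hP : CharpolyCoeff N) :
    FiniteDimensional Kb⟮jF N⟯ (FN N) ∧ Module.finrank Kb⟮jF N⟯ (FN N) = Nat.card (XN N) := by
  classical
  have hinv := jfun_isSLInvariant
  have hpole := jfun_hasSimplePoleAtImInfty
  rw [Nat.card_eq_fintype_card]
  refine finrank_eq_card_of_conjugates iotaK.toRingHom (modularFunctionFieldBar N).val (jF N)
    (transcendental_jF N) (ThetaMer N) (finite_genSetF N).toFinset ?_ ?_ (ThetaMer_relation N)
    (fun x : XN N => ((actMer (Quotient.out x) : Mer ≃ₐ[ℂ] Mer) : Mer →ₐ[ℂ] Mer))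
    ((1 : SL(2, ℤ)) : XN N) ?_ ?_ ?_ ?_
  · rw [Set.Finite.coe_toFinset]
    exact adjoin_genSetF_eq_top N
  · exact ThetaMer_algebraMap N
  · intro f
    have h1 : sigma N ((1 : SL(2, ℤ)) : XN N) f = sigma0 N 1 f := by rw [sigma_mk hinv]
    have h2 : sigma0 N 1 f = ThetaMer N f := by
      rw [sigma0_apply, map_one]
      rfl
    exact h1.trans h2
  · intro x
    have h1 := sigma_jF hinv N x
    rw [← ThetaMer_jF N] at h1
    exact h1
  · intro x y hxy
    exact sigma_injective hinv hpole N hxy
  · rw [Set.Finite.coe_toFinset, ThetaMer_jF]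
    exact hP

theorem isFiniteParam_jF_of (N : ℕ) [NeZero N] (hP : CharpolyCoeff N) :
    IsFiniteParam Kb (jF N) :=
  ⟨transcendental_jF N, (degree_of_charpolyCoeff N hP).1⟩

end

end Fermat.Agent.S24
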