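import Mathlib
import Fermat.Agent.S24.Conj
import Fermat.Agent.S24.Sigma

/-!
Moderate growth at `i∞` of the conjugates `τ ↦ j_d (g τ)` (growth part of (CP)).
-/

set_option autoImplicit false

namespace Fermat.Agent.S24

open UpperHalfPlane ModularForm CongruenceSubgroup Filter Topology EisensteinSeries
open Matrix.SpecialLinearGroup Fermat.Agent.Common
open scoped MatrixGroups Manifold

noncomputable section

local notation "𝕢" => Function.Periodic.qParam
local notation "Δ" => ModularForm.discriminant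

/-- Moderate growth at `i∞`: some power of `Δ` kills the pole. -/
def ModGrowth (f : ℍ → ℂ) : Prop :=
  ∃ M : ℕ, IsBoundedAtImInfty (fun τ => Δ τ ^ M * f τ)

theorem isBoundedAtImInfty_discriminant_pow (k : ℕ) :
    IsBoundedAtImInfty (fun τ => Δ τ ^ k) := by
  induction k with
  | zero =>
    simp only [pow_zero]
    exact Filter.const_boundedAtFilter atImInfty (1 : ℂ)
  | succ k ih =>
    have := ih.mul isBoundedAtImInfty_discriminant
    refine this.congr' ?_ (EventuallyEq.refl _ _)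
    exact Eventually.of_forall fun τ => by simp [pow_succ]

theorem isBoundedAtImInfty_pow_mul_mono {f : ℍ → ℂ} {M M' : ℕ} (h : M ≤ M')
    (hf : IsBoundedAtImInfty (fun τ => Δ τ ^ M * f τ)) :
    IsBoundedAtImInfty (fun τ => Δ τ ^ M' * f τ) := by
  obtain ⟨k, rfl⟩ := Nat.exists_eq_add_of_le h
  have := (isBoundedAtImInfty_discriminant_pow k).mul hf
  refine this.congr' ?_ (EventuallyEq.refl _ _)
  exact Eventually.of_forall fun τ => by simp [pow_add]; ring

theorem ModGrowth.of_bounded {f : ℍ → ℂ} (h : IsBoundedAtImInfty f) : ModGrowth f :=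
  ⟨0, by simpa using h⟩

theorem ModGrowth.const (c : ℂ) : ModGrowth (fun _ => c) :=
  ModGrowth.of_bounded (Filter.const_boundedAtFilter atImInfty c)

theorem ModGrowth.add {f g : ℍ → ℂ} (hf : ModGrowth f) (hg : ModGrowth g) :
    ModGrowth (f + g) := by
  obtain ⟨M, hM⟩ := hf
  obtain ⟨M', hM'⟩ := hg
  refine ⟨max M M', ?_⟩
  have := (isBoundedAtImInfty_pow_mul_mono (le_max_left M M') hM).add
    (isBoundedAtImInfty_pow_mul_mono (le_max_right M M') hM')
  refine this.congr' ?_ (EventuallyEq.refl _ _)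
  exact Eventually.of_forall fun τ => by simp [mul_add]

theorem ModGrowth.mul {f g : ℍ → ℂ} (hf : ModGrowth f) (hg : ModGrowth g) :
    ModGrowth (f * g) := by
  obtain ⟨M, hM⟩ := hf
  obtain ⟨M', hM'⟩ := hg
  refine ⟨M + M', ?_⟩
  have := hM.mul hM'
  refine this.congr' ?_ (EventuallyEq.refl _ _)
  exact Eventually.of_forall fun τ => by simp [pow_add]; ring

theorem ModGrowth.neg {f : ℍ → ℂ} (hf : ModGrowth f) : ModGrowth (-f) := by
  have := (ModGrowth.const (-1)).mul hf
  have e : (fun _ : ℍ => (-1 : ℂ)) * f = -f := by ext τ; simp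
  rwa [e] at this

theorem ModGrowth.sub {f g : ℍ → ℂ} (hf : ModGrowth f) (hg : ModGrowth g) :
    ModGrowth (f - g) := by
  rw [sub_eq_add_neg]
  exact hf.add hg.neg

theorem ModGrowth.smul {f : ℍ → ℂ} (c : ℂ) (hf : ModGrowth f) : ModGrowth (c • f) := by
  have := (ModGrowth.const c).mul hf
  have e : (fun _ : ℍ => c) * f = c • f := by ext τ; simp
  rwa [e] at this

theorem ModGrowth.one : ModGrowth (1 : ℍ → ℂ) := ModGrowth.const 1

theorem ModGrowth.zero : ModGrowth (0 : ℍ → ℂ) := ModGrowth.const 0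

theorem ModGrowth.pow {f : ℍ → ℂ} (hf : ModGrowth f) (n : ℕ) : ModGrowth (f ^ n) := by
  induction n with
  | zero => simpa using ModGrowth.one
  | succ n ih => rw [pow_succ]; exact ih.mul hf

theorem ModGrowth.sum {ι : Type*} (s : Finset ι) {f : ι → ℍ → ℂ}
    (hf : ∀ i ∈ s, ModGrowth (f i)) : ModGrowth (∑ i ∈ s, f i) := by
  classical
  induction s using Finset.induction_on with
  | empty => simpa using ModGrowth.zero
  | insert a s ha ih =>
    rw [Finset.sum_insert ha]
    exact (hf a (Finset.mem_insert_self a s)).add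
      (ih fun i hi => hf i (Finset.mem_insert_of_mem hi))

theorem ModGrowth.prod {ι : Type*} (s : Finset ι) {f : ι → ℍ → ℂ}
    (hf : ∀ i ∈ s, ModGrowth (f i)) : ModGrowth (∏ i ∈ s, f i) := by
  classical
  induction s using Finset.induction_on with
  | empty => simpa using ModGrowth.one
  | insert a s ha ih =>
    rw [Finset.prod_insert ha]
    exact (hf a (Finset.mem_insert_self a s)).mul
      (ih fun i hi => hf i (Finset.mem_insert_of_mem hi))

/-- The functions of moderate growth, as a subalgebra of `ℍ → ℂ`. -/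
def modGrowthSubalgebra : Subalgebra ℂ (ℍ → ℂ) where
  carrier := {f | ModGrowth f}
  mul_mem' hf hg := hf.mul hg
  add_mem' hf hg := hf.add hg
  algebraMap_mem' c := ModGrowth.const c

theorem mem_modGrowthSubalgebra {f : ℍ → ℂ} : f ∈ modGrowthSubalgebra ↔ ModGrowth f := Iff.rfl

theorem tendsto_discriminant_div_q :
    Tendsto (fun τ : ℍ => Δ τ / 𝕢 1 (τ : ℂ)) atImInfty (𝓝 1) := by
  refine tendsto_atImInfty_tprod_one_sub_eta_q_pow.congr fun τ => ?_
  have hq : 𝕢 1 (τ : ℂ) ≠ 0 := by simp [Function.Periodic.qParam]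
  rw [discriminant_eq_q_prod]
  field_simp

/-- Growth of `J ∘ (τ ↦ (a τ + b) / e)` for `J` with a simple pole at `i∞`. -/
theorem HasSimplePoleAtImInfty.isBoundedAtImInfty_pow_mul {J : ℍ → ℂ}
    (hJ : HasSimplePoleAtImInfty J) {a b e : ℝ} (hae : 0 < a * e) {M : ℕ} (hM : a / e ≤ M) :
    IsBoundedAtImInfty (fun τ => Δ τ ^ M * J (upperTriangularGL a b e hae.ne' • τ)) := by
  have h1 : IsBoundedAtImInfty (fun τ : ℍ => (Δ τ / 𝕢 1 (τ : ℂ)) ^ M) :=
    (tendsto_discriminant_div_q.pow M).isBigO_one ℝ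
  have h2 : IsBoundedAtImInfty (fun τ : ℍ => J (upperTriangularGL a b e hae.ne' • τ) *
      𝕢 1 ((upperTriangularGL a b e hae.ne' • τ : ℍ) : ℂ)) :=
    (hJ.comp (tendsto_upperTriangularGL_smul (b := b) hae)).isBigO_one ℝ
  have h3 : IsBoundedAtImInfty (fun τ : ℍ => 𝕢 1 (τ : ℂ) ^ M /
      𝕢 1 ((upperTriangularGL a b e hae.ne' • τ : ℍ) : ℂ)) := by
    refine Asymptotics.IsBigO.of_bound 1 (Eventually.of_forall fun τ => ?_)
    rw [norm_div, norm_pow, norm_qParam_coe, norm_qParam_coe, im_upperTriangularGL_smul hae,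
      ← Real.exp_nat_mul, ← Real.exp_sub]
    simp only [Pi.one_apply, norm_one, mul_one]
    rw [Real.exp_le_one_iff]
    have him := τ.im_pos
    have : 0 ≤ ((M : ℝ) - a / e) * τ.im := mul_nonneg (sub_nonneg.mpr hM) him.le
    nlinarith [Real.pi_pos]
  have := (h1.mul h2).mul h3
  refine this.congr' ?_ (EventuallyEq.refl _ _)
  refine Eventually.of_forall fun τ => ?_
  have hq : 𝕢 1 (τ : ℂ) ≠ 0 := by simp [Function.Periodic.qParam]
  have hq' : 𝕢 1 ((upperTriangularGL a b e hae.ne' • τ : ℍ) : ℂ) ≠ 0 := by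
    simp [Function.Periodic.qParam]
  simp only [Pi.mul_apply]
  rw [div_pow]
  field_simp

/-- (CP), growth: `Δ ^ d * (j_d ∘ g)` is bounded at `i∞`. -/
theorem isBoundedAtImInfty_pow_discriminant_mul_jd (d : ℕ) [NeZero d] (g : SL(2, ℤ)) :
    IsBoundedAtImInfty (fun τ => Δ τ ^ d * jd d (g • τ)) := by
  obtain ⟨a, b, e, ha, he, hae, -, h⟩ := exists_jd_smul_eq d g
  have har : (0 : ℝ) < a := by exact_mod_cast ha
  have her : (0 : ℝ) < e := by exact_mod_cast he
  have hpos : (0 : ℝ) < (a : ℝ) * e := mul_pos har her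
  have hM : (a : ℝ) / e ≤ (d : ℕ) := by
    have h1 : (1 : ℝ) ≤ e := by exact_mod_cast he
    have h2 : (a : ℝ) * e = d := by exact_mod_cast hae
    rw [div_le_iff₀ her, ← h2]
    nlinarith
  have := jfun_hasSimplePoleAtImInfty.isBoundedAtImInfty_pow_mul (b := b) hpos hM
  refine this.congr' ?_ (EventuallyEq.refl _ _)
  exact Eventually.of_forall fun τ => by simp only [h hpos.ne' τ]

theorem exists_pow_discriminant_mul_bounded (d : ℕ) [NeZero d] (g : SL(2, ℤ)) :
    ∃ M : ℕ, IsBoundedAtImInfty (fun τ => Δ τ ^ M * jd d (g • τ)) :=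
  ⟨d, isBoundedAtImInfty_pow_discriminant_mul_jd d g⟩

theorem modGrowth_jd_smul (d : ℕ) [NeZero d] (g : SL(2, ℤ)) :
    ModGrowth (fun τ => jd d (g • τ)) :=
  exists_pow_discriminant_mul_bounded d g

/-- The generators `j_d` (`d ∣ N`) inside `Hol`. -/
def genSetHol (N : ℕ) : Set Hol :=
  {x | ∃ (d : ℕ) (_ : NeZero d) (_ : d ∣ N), x = jdHol d}

/-- (CP), growth: all `SL(2,ℤ)`-translates of elements of `ℂ[j_d : d ∣ N]` have moderate growth. -/
theorem modGrowth_actHol (N : ℕ) (g : SL(2, ℤ)) {h : Hol}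
    (hh : h ∈ Algebra.adjoin ℂ (genSetHol N)) : ModGrowth (actHol g h : ℍ → ℂ) := by
  induction hh using Algebra.adjoin_induction with
  | mem x hx =>
    obtain ⟨d, _, -, rfl⟩ := hx
    exact modGrowth_jd_smul d g⁻¹
  | algebraMap c =>
    rw [AlgEquiv.commutes]
    exact ModGrowth.const c
  | add x y _ _ hx hy =>
    rw [map_add]
    exact hx.add hy
  | mul x y _ _ hx hy =>
    rw [map_mul]
    exact hx.mul hy

end

end Fermat.Agent.S24
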