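import Mathlib
import Fermat.Agent.S24.DegreeInst
import Fermat.Agent.S24.Growth
import Fermat.Agent.Common.JPoly
import Fermat.Agent.S28.Analytic.Conj

/-!
(CP): the characteristic polynomial of a holomorphic element of the function field has
coefficients in `ℂ[j]`.
-/

set_option autoImplicit false

namespace Fermat.Agent.S24

open UpperHalfPlane ModularForm CongruenceSubgroup Filter Topology EisensteinSeries
open scoped MatrixGroups Manifold

noncomputable section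

/-- Holomorphic functions of moderate growth at `i∞`. -/
def holGrowth : Subalgebra ℂ (ℍ → ℂ) := Hol ⊓ modGrowthSubalgebra

/-- The map from holomorphic functions of moderate growth to `Mer`. -/
def holGrowthToMer : holGrowth →ₐ[ℂ] Mer :=
  (IsScalarTower.toAlgHom ℂ Hol Mer).comp (Subalgebra.inclusion inf_le_left)

theorem holGrowthToMer_mk (f : Hol) (hf : (f : ℍ → ℂ) ∈ holGrowth) :
    holGrowthToMer ⟨f, hf⟩ = algebraMap Hol Mer f := rfl

theorem jd_one_mem_holGrowth : jd 1 ∈ holGrowth := by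
  refine ⟨mdiff_jd 1, ?_⟩
  have := modGrowth_jd_smul 1 1
  simp only [one_smul] at this
  exact this

/-- `j` as a holomorphic function of moderate growth. -/
def jHolGrowth : holGrowth := ⟨jd 1, jd_one_mem_holGrowth⟩

theorem aeval_jHolGrowth_apply (p : Polynomial ℂ) (τ : ℍ) :
    ((Polynomial.aeval jHolGrowth p : holGrowth) : ℍ → ℂ) τ = p.eval (jfun τ) := by
  have h := Polynomial.aeval_algHom_apply
    ((Pi.evalAlgHom ℂ (fun _ : ℍ => ℂ) τ).comp holGrowth.val) jHolGrowth p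
  have h2 : ((Pi.evalAlgHom ℂ (fun _ : ℍ => ℂ) τ).comp holGrowth.val) jHolGrowth = jfun τ := by
    show jd 1 τ = jfun τ
    rw [jd_one]
  rw [h2] at h
  rw [← Polynomial.coe_aeval_eq_eval, h]
  rfl

theorem exists_aeval_of_invariant (f : holGrowth) (hf : S28.IsSL2Inv (f : ℍ → ℂ)) :
    ∃ P : Polynomial ℂ, f = Polynomial.aeval jHolGrowth P := by
  obtain ⟨hmd, M, hM⟩ := f.2
  obtain ⟨p, -, hp⟩ := Common.JPoly.exists_polynomial_of_invariant (f : ℍ → ℂ) hmd hf M hM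
  refine ⟨p, Subtype.ext (funext fun τ => ?_)⟩
  rw [aeval_jHolGrowth_apply, hp τ]
  rfl

theorem isGamma0Inv_of_mem_adjoin (N : ℕ) {h : Hol}
    (hh : h ∈ Algebra.adjoin ℂ (genSetHol N)) : S28.IsGamma0Inv N (h : ℍ → ℂ) := by
  intro γ hγ τ
  induction hh using Algebra.adjoin_induction with
  | mem x hx =>
    obtain ⟨d, _, hd, rfl⟩ := hx
    exact jd_smul_of_mem_Gamma0 hd hγ τ
  | algebraMap c => rfl
  | add x y _ _ hx hy =>
    show (x : ℍ → ℂ) (γ • τ) + (y : ℍ → ℂ) (γ • τ) = (x : ℍ → ℂ) τ + (y : ℍ → ℂ) τ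
    rw [hx, hy]
  | mul x y _ _ hx hy =>
    show (x : ℍ → ℂ) (γ • τ) * (y : ℍ → ℂ) (γ • τ) = (x : ℍ → ℂ) τ * (y : ℍ → ℂ) τ
    rw [hx, hy]

theorem ThetaMer_image_genSetF (N : ℕ) :
    ThetaMer N '' genSetF N = (IsScalarTower.toAlgHom ℂ Hol Mer) '' genSetHol N := by
  ext x
  constructor
  · rintro ⟨_, ⟨d, hd0, hd, rfl⟩, rfl⟩
    exact ⟨jdHol d, ⟨d, hd0, hd, rfl⟩, (ThetaMer_jBar N d hd).symm⟩
  · rintro ⟨_, ⟨d, hd0, hd, rfl⟩, rfl⟩
    exact ⟨jBar N d hd, ⟨d, hd0, hd, rfl⟩, ThetaMer_jBar N d hd⟩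

/-- (CP). -/
theorem charpolyCoeff (N : ℕ) [NeZero N] : CharpolyCoeff N := by
  intro θ hθ i
  rw [ThetaMer_image_genSetF, Algebra.adjoin_image] at hθ
  obtain ⟨h, hh, rfl⟩ := hθ
  have huS : ∀ c : S28.Q N, S28.conj N (h : ℍ → ℂ) c ∈ holGrowth := fun c =>
    ⟨(actHol (Quotient.out c) h).2, modGrowth_actHol N (Quotient.out c) hh⟩
  obtain ⟨P, hP⟩ := S28.charpoly_coeff_of holGrowth holGrowthToMer jHolGrowth
    exists_aeval_of_invariant (isGamma0Inv_of_mem_adjoin N hh) huS i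
  refine ⟨P, ?_⟩
  have e : ∀ c : S28.Q N, holGrowthToMer ⟨S28.conj N (h : ℍ → ℂ) c, huS c⟩
      = actMer (Quotient.out c) (IsScalarTower.toAlgHom ℂ Hol Mer h) := fun c =>
    (actMer_algebraMap (Quotient.out c) h).symm
  simp only [e] at hP
  have hJ : holGrowthToMer jHolGrowth = algebraMap Hol Mer (jdHol 1) := rfl
  rw [hJ] at hP
  rw [← hP]
  congr 1

end

end Fermat.Agent.S24
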