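import Mathlib

set_option autoImplicit false

namespace Fermat.Agent.S24

open Module

section LinAlg

variable {k V : Type*} [Field k] [AddCommGroup V] [Module k V] [FiniteDimensional k V]

theorem finrank_ker_add_le (P Q : V →ₗ[k] V) :
    finrank k (LinearMap.ker (P + Q)) ≤
      finrank k ↥(LinearMap.ker P ⊓ LinearMap.ker Q) +
        finrank k ↥(LinearMap.range P ⊓ LinearMap.range Q) := by
  set K := LinearMap.ker (P + Q) with hK
  let f : K →ₗ[k] V := P.domRestrict K
  have h1 := LinearMap.finrank_range_add_finrank_ker f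
  have h2 : finrank k (LinearMap.range f) ≤ finrank k ↥(LinearMap.range P ⊓ LinearMap.range Q) := by
    apply Submodule.finrank_mono
    rintro _ ⟨⟨v, hv⟩, rfl⟩
    refine ⟨⟨v, rfl⟩, ⟨-v, ?_⟩⟩
    have : P v + Q v = 0 := hv
    simp only [f, LinearMap.domRestrict_apply, map_neg]
    exact (eq_neg_of_add_eq_zero_left this).symm
  have h3 : finrank k (LinearMap.ker f) ≤ finrank k ↥(LinearMap.ker P ⊓ LinearMap.ker Q) := by
    let g : LinearMap.ker f →ₗ[k] ↥(LinearMap.ker P ⊓ LinearMap.ker Q) :=
      LinearMap.codRestrict _ (K.subtype ∘ₗ (LinearMap.ker f).subtype) (by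
        rintro ⟨⟨v, hv⟩, hv'⟩
        have h1 : P v = 0 := hv'
        have h2 : P v + Q v = 0 := hv
        refine ⟨h1, ?_⟩
        rw [h1, zero_add] at h2
        exact h2)
    apply LinearMap.finrank_le_finrank_of_injective (f := g)
    intro x y hxy
    have := congrArg Subtype.val hxy
    exact Subtype.ext (Subtype.ext this)
  omega

theorem finrank_range_three (P Q : V →ₗ[k] V) :
    finrank k V + finrank k ↥(LinearMap.range P ⊔ LinearMap.range Q) ≤
      finrank k (LinearMap.range P) + finrank k (LinearMap.range Q) +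
        finrank k (LinearMap.range (P + Q)) +
        finrank k ↥(LinearMap.ker P ⊓ LinearMap.ker Q) := by
  have h1 := Submodule.finrank_sup_add_finrank_inf_eq (LinearMap.range P) (LinearMap.range Q)
  have h2 := LinearMap.finrank_range_add_finrank_ker (P + Q)
  have h3 := finrank_ker_add_le P Q
  omega

end LinAlg

section Perm

open Equiv.Perm

variable {X : Type*} [Fintype X] [DecidableEq X]

/-- The number of orbits of the cyclic group generated by `g`. -/
noncomputable def numOrb (g : Equiv.Perm X) : ℕ :=
  Nat.card (MulAction.orbitRel.Quotient (Subgroup.zpowers g) X)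

omit [Fintype X] [DecidableEq X] in
theorem orbitRel_zpowers_iff (g : Equiv.Perm X) (x y : X) :
    (MulAction.orbitRel (Subgroup.zpowers g) X) x y ↔ SameCycle g y x := by
  rw [MulAction.orbitRel_apply, MulAction.mem_orbit_iff]
  constructor
  · rintro ⟨⟨h, i, rfl⟩, hx⟩
    exact ⟨i, hx⟩
  · rintro ⟨i, hx⟩
    exact ⟨⟨g ^ i, i, rfl⟩, hx⟩

/-- auxiliary classifying map for the cycles of `g`. -/
def cycMap (g : Equiv.Perm X) (x : X) : Equiv.Perm X ⊕ X :=
  if g x = x then Sum.inr x else Sum.inl (g.cycleOf x)

theorem cycMap_eq_iff (g : Equiv.Perm X) (x y : X) :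
    cycMap g x = cycMap g y ↔ SameCycle g x y := by
  unfold cycMap
  constructor
  · intro h
    by_cases hx : g x = x <;> by_cases hy : g y = y
    · rw [if_pos hx, if_pos hy] at h
      rw [Sum.inr.inj h]
    · rw [if_pos hx, if_neg hy] at h
      cases h
    · rw [if_neg hx, if_pos hy] at h
      cases h
    · rw [if_neg hx, if_neg hy] at h
      have h' := Sum.inl.inj h
      have hy' : y ∈ (g.cycleOf y).support := (mem_support_cycleOf_iff' hy).2 (SameCycle.refl g y)
      rw [← h'] at hy'
      exact (mem_support_cycleOf_iff' hx).1 hy'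
  · intro h
    by_cases hx : g x = x
    · have hxy : x = y := h.eq_of_left hx
      subst hxy
      rfl
    · have hy : g y ≠ y := fun hy => hx (h.apply_eq_self_iff.2 hy)
      rw [if_neg hx, if_neg hy, h.cycleOf_eq]

theorem image_cycMap (g : Equiv.Perm X) :
    Finset.univ.image (cycMap g) =
      (g.cycleFactorsFinset.image Sum.inl) ∪
        ((Finset.univ.filter (fun x => g x = x)).image Sum.inr) := by
  ext z
  simp only [Finset.mem_image, Finset.mem_univ, true_and, Finset.mem_union, Finset.mem_filter]
  constructor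
  · rintro ⟨x, rfl⟩
    unfold cycMap
    by_cases hx : g x = x
    · rw [if_pos hx]
      exact Or.inr ⟨x, hx, rfl⟩
    · rw [if_neg hx]
      exact Or.inl ⟨_, cycleOf_mem_cycleFactorsFinset_iff.2 (mem_support.2 hx), rfl⟩
  · rintro (⟨c, hc, rfl⟩ | ⟨x, hx, rfl⟩)
    · obtain ⟨x, hx⟩ := (mem_cycleFactorsFinset_iff.1 hc).1.nonempty_support
      have hgx : g x ≠ x := mem_support.1 (mem_cycleFactorsFinset_support_le hc hx)
      refine ⟨x, ?_⟩
      unfold cycMap
      rw [if_neg hgx, ← cycle_is_cycleOf hx hc]
    · exact ⟨x, by unfold cycMap; rw [if_pos hx]⟩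

theorem numOrb_eq_card_image (g : Equiv.Perm X) :
    numOrb g = (Finset.univ.image (cycMap g)).card := by
  classical
  have hker : MulAction.orbitRel (Subgroup.zpowers g) X = Setoid.ker (cycMap g) := by
    ext x y
    rw [orbitRel_zpowers_iff, Setoid.ker_def, cycMap_eq_iff]
    exact ⟨SameCycle.symm, SameCycle.symm⟩
  unfold numOrb MulAction.orbitRel.Quotient
  rw [hker, Nat.card_congr (Setoid.quotientKerEquivRange (cycMap g))]
  have : Set.range (cycMap g) = ↑(Finset.univ.image (cycMap g)) := by
    rw [Finset.coe_image, Finset.coe_univ, Set.image_univ]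
  rw [this, Nat.card_coe_set_eq, Set.ncard_coe_finset]

theorem numOrb_add_card_support (g : Equiv.Perm X) :
    numOrb g + g.support.card = g.cycleFactorsFinset.card + Fintype.card X := by
  rw [numOrb_eq_card_image, image_cycMap, Finset.card_union_of_disjoint,
    Finset.card_image_of_injective _ Sum.inl_injective,
    Finset.card_image_of_injective _ Sum.inr_injective]
  · have h := Finset.card_filter_add_card_filter_not (s := (Finset.univ : Finset X))
      (fun x => g x = x)
    have hs : g.support = Finset.univ.filter (fun x => ¬ g x = x) := by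
      ext x; simp
    rw [hs, add_assoc, h, Finset.card_univ]
  · rw [Finset.disjoint_left]
    intro z hz hz'
    obtain ⟨c, -, rfl⟩ := Finset.mem_image.1 hz
    obtain ⟨x, -, hx⟩ := Finset.mem_image.1 hz'
    cases hx

theorem sign_eq_neg_one_pow (g : Equiv.Perm X) :
    Equiv.Perm.sign g = (-1 : ℤˣ) ^ (numOrb g + Fintype.card X) := by
  have h := numOrb_add_card_support g
  have hc : Multiset.card g.cycleType = g.cycleFactorsFinset.card := by
    rw [cycleType_def, Multiset.card_map]; rfl
  rw [sign_of_cycleType, sum_cycleType, hc]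
  have h2 : numOrb g + Fintype.card X + 2 * g.support.card =
      g.support.card + g.cycleFactorsFinset.card + 2 * Fintype.card X := by omega
  have h3 : (-1 : ℤˣ) ^ (numOrb g + Fintype.card X + 2 * g.support.card) =
      (-1 : ℤˣ) ^ (g.support.card + g.cycleFactorsFinset.card + 2 * Fintype.card X) := by rw [h2]
  rw [pow_add, pow_add _ _ (2 * Fintype.card X), pow_mul, pow_mul] at h3
  simpa using h3.symm

end Perm

section Scott

open Equiv.Perm

variable {X : Type*}

/-- The operator `f ↦ f ∘ g` on rational functions on `X`. -/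
def opL (g : Equiv.Perm X) : (X → ℚ) →ₗ[ℚ] (X → ℚ) := LinearMap.funLeft ℚ ℚ g

@[simp] theorem opL_apply (g : Equiv.Perm X) (f : X → ℚ) (x : X) : opL g f x = f (g x) := rfl

theorem opL_mul (a c : Equiv.Perm X) : opL (a * c) = opL c ∘ₗ opL a := rfl

theorem opL_injective (g : Equiv.Perm X) : Function.Injective (opL g) :=
  LinearMap.funLeft_injective_of_surjective _ _ _ g.surjective

/-- The subgroup of permutations leaving `f` invariant. -/
def invSubgroup (f : X → ℚ) : Subgroup (Equiv.Perm X) where
  carrier := {h | ∀ x, f (h x) = f x}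
  mul_mem' := by
    intro a b ha hb x
    rw [Equiv.Perm.mul_apply, ha, hb]
  one_mem' := fun _ => rfl
  inv_mem' := by
    intro a ha x
    have := ha (a⁻¹ x)
    have h2 : a (a⁻¹ x) = x := by simp
    rw [h2] at this
    exact this.symm

theorem mem_ker_one_sub_iff (g : Equiv.Perm X) (f : X → ℚ) :
    f ∈ LinearMap.ker (1 - opL g) ↔ g ∈ invSubgroup f := by
  rw [LinearMap.mem_ker]
  constructor
  · intro h x
    have := congrFun h x
    simp only [LinearMap.sub_apply, Module.End.one_apply, Pi.sub_apply, opL_apply,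
      Pi.zero_apply] at this
    linarith
  · intro h
    ext x
    simp only [LinearMap.sub_apply, Module.End.one_apply, Pi.sub_apply, opL_apply, Pi.zero_apply]
    rw [h x, sub_self]

variable [Fintype X]

theorem finrank_ker_one_sub (g : Equiv.Perm X) :
    finrank ℚ (LinearMap.ker (1 - opL g)) = numOrb g := by
  classical
  let Q := MulAction.orbitRel.Quotient (Subgroup.zpowers g) X
  have : Fintype Q := Fintype.ofFinite Q
  let F : (Q → ℚ) →ₗ[ℚ] (X → ℚ) := LinearMap.funLeft ℚ ℚ (fun x => (Quotient.mk'' x : Q))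
  have hinj : Function.Injective F :=
    LinearMap.funLeft_injective_of_surjective _ _ _ Quotient.mk''_surjective
  have hrange : LinearMap.range F = LinearMap.ker (1 - opL g) := by
    ext f
    rw [mem_ker_one_sub_iff]
    constructor
    · rintro ⟨φ, rfl⟩ x
      show φ (Quotient.mk'' (g x)) = φ (Quotient.mk'' x)
      congr 1
      apply Quotient.sound
      exact (orbitRel_zpowers_iff g (g x) x).2 (sameCycle_apply_right.2 (SameCycle.refl g x))
    · intro h
      refine ⟨Quotient.lift f ?_, ?_⟩
      · intro x y hxy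
        obtain ⟨i, hi⟩ := (orbitRel_zpowers_iff g x y).1 hxy
        rw [← hi]
        exact (Subgroup.zpow_mem _ h i) y
      · ext x
        rfl
  rw [← hrange, LinearMap.finrank_range_of_inj hinj, Module.finrank_fintype_fun_eq_card, numOrb,
    Nat.card_eq_fintype_card]

theorem finrank_range_one_sub (g : Equiv.Perm X) :
    finrank ℚ (LinearMap.range (1 - opL g)) + numOrb g = Fintype.card X := by
  rw [← finrank_ker_one_sub, LinearMap.finrank_range_add_finrank_ker,
    Module.finrank_fintype_fun_eq_card]

theorem numOrb_le (g : Equiv.Perm X) : numOrb g ≤ Fintype.card X := by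
  have := finrank_range_one_sub g
  omega

/-- The sum functional. -/
def sumL : (X → ℚ) →ₗ[ℚ] ℚ where
  toFun f := ∑ x, f x
  map_add' f g := by simp [Finset.sum_add_distrib]
  map_smul' r f := by simp [Finset.mul_sum]

theorem card_le_finrank_ker_sumL : Fintype.card X ≤ finrank ℚ (LinearMap.ker (sumL (X := X))) + 1 := by
  have h1 := LinearMap.finrank_range_add_finrank_ker (sumL (X := X))
  have h2 : finrank ℚ (LinearMap.range (sumL (X := X))) ≤ 1 := by
    have := Submodule.finrank_le (LinearMap.range (sumL (X := X)))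
    rwa [Module.finrank_self] at this
  rw [Module.finrank_fintype_fun_eq_card] at h1
  omega

variable [DecidableEq X]

omit [Fintype X] in
theorem one_sub_opL_single (g : Equiv.Perm X) (x : X) :
    (1 - opL g) (Pi.single (g x) (1 : ℚ)) = Pi.single (g x) 1 - Pi.single x 1 := by
  ext y
  simp only [LinearMap.sub_apply, Module.End.one_apply, Pi.sub_apply, opL_apply, Pi.single_apply,
    g.injective.eq_iff]

theorem ker_sumL_le (U : Submodule ℚ (X → ℚ))
    (h : ∀ x y : X, (Pi.single x (1 : ℚ) - Pi.single y 1 : X → ℚ) ∈ U) :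
    LinearMap.ker (sumL (X := X)) ≤ U := by
  intro f hf
  rcases isEmpty_or_nonempty X with hX | ⟨⟨x0⟩⟩
  · have : f = 0 := Subsingleton.elim _ _
    rw [this]; exact U.zero_mem
  · have hf' : ∑ x, f x = 0 := hf
    have : f = ∑ x, f x • (Pi.single x (1 : ℚ) - Pi.single x0 1 : X → ℚ) := by
      ext y
      simp only [Finset.sum_apply, Pi.smul_apply, Pi.sub_apply, Pi.single_apply, smul_eq_mul,
        mul_sub, Finset.sum_sub_distrib, mul_ite,
        mul_one, mul_zero, Finset.sum_ite_eq, Finset.mem_univ, if_true]
      by_cases hy : y = x0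
      · simp [hy, hf']
      · simp [hy]
    rw [this]
    exact U.sum_mem fun x _ => U.smul_mem _ (h x x0)

theorem scott_ineq (a c : Equiv.Perm X)
    (ht : ∀ x y : X, ∃ g ∈ Subgroup.closure ({a, c} : Set (Equiv.Perm X)), g x = y) :
    2 * Fintype.card X + numOrb a + numOrb c + numOrb (a * c) ≤ 3 * Fintype.card X + 2 := by
  set P : (X → ℚ) →ₗ[ℚ] (X → ℚ) := opL c ∘ₗ (1 - opL a) with hP
  set Q : (X → ℚ) →ₗ[ℚ] (X → ℚ) := 1 - opL c with hQ
  have hPQ : P + Q = 1 - opL (a * c) := by
    rw [opL_mul, hP, hQ]
    ext f x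
    simp
  have hrP : finrank ℚ (LinearMap.range P) = finrank ℚ (LinearMap.range (1 - opL a)) := by
    rw [hP, LinearMap.range_comp]
    exact (Submodule.equivMapOfInjective _ (opL_injective c) _).finrank_eq.symm
  have hker : finrank ℚ ↥(LinearMap.ker P ⊓ LinearMap.ker Q) ≤ 1 := by
    let cst : ℚ →ₗ[ℚ] (X → ℚ) := LinearMap.pi fun _ => LinearMap.id
    have hle : LinearMap.ker P ⊓ LinearMap.ker Q ≤ LinearMap.range cst := by
      rintro f ⟨hf1, hf2⟩
      have ha : a ∈ invSubgroup f := by
        rw [← mem_ker_one_sub_iff, LinearMap.mem_ker]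
        apply opL_injective c
        rw [map_zero]
        exact hf1
      have hc : c ∈ invSubgroup f := (mem_ker_one_sub_iff c f).1 hf2
      have hcl : Subgroup.closure ({a, c} : Set (Equiv.Perm X)) ≤ invSubgroup f := by
        rw [Subgroup.closure_le]
        rintro g (rfl | rfl)
        · exact ha
        · exact hc
      rcases isEmpty_or_nonempty X with hX | ⟨⟨x0⟩⟩
      · exact ⟨0, Subsingleton.elim _ _⟩
      · refine ⟨f x0, ?_⟩
        ext y
        obtain ⟨g, hg, hgy⟩ := ht x0 y
        rw [← hgy]
        exact (hcl hg x0).symm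
    calc finrank ℚ ↥(LinearMap.ker P ⊓ LinearMap.ker Q) ≤ finrank ℚ (LinearMap.range cst) :=
          Submodule.finrank_mono hle
      _ ≤ finrank ℚ ℚ := LinearMap.finrank_range_le cst
      _ = 1 := Module.finrank_self ℚ
  set U := LinearMap.range P ⊔ LinearMap.range Q with hU
  have hUQ : ∀ f, (1 - opL c) f ∈ U := fun f => Submodule.mem_sup_right ⟨f, rfl⟩
  have hUP : ∀ f, opL c ((1 - opL a) f) ∈ U := fun f => Submodule.mem_sup_left ⟨f, rfl⟩
  have hUA : ∀ f, (1 - opL a) f ∈ U := by
    intro f
    have : (1 - opL a) f = opL c ((1 - opL a) f) + (1 - opL c) ((1 - opL a) f) := by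
      simp
    rw [this]
    exact U.add_mem (hUP f) (hUQ _)
  have hpair : ∀ g ∈ Subgroup.closure ({a, c} : Set (Equiv.Perm X)), ∀ x : X,
      (Pi.single x (1 : ℚ) - Pi.single (g x) 1 : X → ℚ) ∈ U := by
    intro g hg
    induction hg using Subgroup.closure_induction with
    | mem g hg =>
      intro x
      rw [← neg_sub, ← one_sub_opL_single]
      rcases hg with rfl | rfl
      · exact U.neg_mem (hUA _)
      · exact U.neg_mem (hUQ _)
    | one => intro x; simp
    | mul g h _ _ hg hh =>
      intro x
      have := U.add_mem (hh x) (hg (h x))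
      rwa [sub_add_sub_cancel] at this
    | inv g _ hg =>
      intro x
      have := U.neg_mem (hg (g⁻¹ x))
      rw [neg_sub] at this
      simpa using this
  have hUbig : LinearMap.ker (sumL (X := X)) ≤ U := by
    apply ker_sumL_le
    intro x y
    obtain ⟨g, hg, hgy⟩ := ht x y
    rw [← hgy]
    exact hpair g hg x
  have h1 := Submodule.finrank_mono hUbig
  have h2 := card_le_finrank_ker_sumL (X := X)
  have h3 := finrank_range_three P Q
  rw [hPQ, hrP, Module.finrank_fintype_fun_eq_card] at h3
  have h4 := finrank_range_one_sub a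
  have h5 := finrank_range_one_sub c
  have h6 := finrank_range_one_sub (a * c)
  have e1 : finrank ℚ (LinearMap.range Q) = finrank ℚ (LinearMap.range (1 - opL c)) := rfl
  have e2 : finrank ℚ U = finrank ℚ ↥(LinearMap.range P ⊔ LinearMap.range Q) := rfl
  omega

theorem scott_parity (a c : Equiv.Perm X) :
    Even (3 * Fintype.card X + numOrb a + numOrb c + numOrb (a * c)) := by
  have h := Equiv.Perm.sign_mul a c
  rw [sign_eq_neg_one_pow, sign_eq_neg_one_pow, sign_eq_neg_one_pow, ← pow_add] at h
  by_contra hodd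
  rw [Nat.not_even_iff_odd] at hodd
  have h2 : (-1 : ℤˣ) ^ (numOrb (a * c) + Fintype.card X +
      (numOrb a + Fintype.card X + (numOrb c + Fintype.card X))) = 1 := by
    rw [pow_add, h, ← pow_add, ← two_mul, pow_mul]
    simp
  have h3 : Odd (numOrb (a * c) + Fintype.card X +
      (numOrb a + Fintype.card X + (numOrb c + Fintype.card X))) := by
    convert hodd using 1
    ring
  rw [h3.neg_one_pow] at h2
  exact absurd h2 (by decide)

/-- **Scott's lemma / Ree's theorem** for permutations `a`, `c`, `b = a * c` generating a transitive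
group on `X`, `n = card X`, `o g` the number of cycles (orbits of `zpowers g`):
`(n - o a) + (n - o b) + (n - o c)` is even and at least `2 n - 2`. -/
theorem scott (a b c : Equiv.Perm X) (habc : a * c = b)
    (ht : ∀ x y : X, ∃ g ∈ Subgroup.closure ({a, c} : Set (Equiv.Perm X)), g x = y) :
    Even (((Fintype.card X : ℤ) - numOrb a) + ((Fintype.card X : ℤ) - numOrb b) +
        ((Fintype.card X : ℤ) - numOrb c)) ∧
      2 * (Fintype.card X : ℤ) - 2 ≤ ((Fintype.card X : ℤ) - numOrb a) +
        ((Fintype.card X : ℤ) - numOrb b) + ((Fintype.card X : ℤ) - numOrb c) := by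
  subst habc
  have h1 := scott_ineq a c ht
  obtain ⟨r, hr⟩ := scott_parity a c
  refine ⟨⟨3 * (Fintype.card X : ℤ) - r, ?_⟩, ?_⟩
  · have : (3 * Fintype.card X + numOrb a + numOrb c + numOrb (a * c) : ℤ) = r + r := by
      exact_mod_cast hr
    linarith
  · have : (2 * Fintype.card X + numOrb a + numOrb c + numOrb (a * c) : ℤ) ≤
        3 * Fintype.card X + 2 := by exact_mod_cast h1
    linarith

end Scott

section Action

variable {G X : Type*} [Group G] [MulAction G X]

theorem numOrb_toPerm (g : G) :
    numOrb (MulAction.toPerm g : Equiv.Perm X) =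
      Nat.card (MulAction.orbitRel.Quotient (Subgroup.zpowers g) X) := by
  have h : MulAction.orbitRel (Subgroup.zpowers (MulAction.toPerm g : Equiv.Perm X)) X =
      MulAction.orbitRel (Subgroup.zpowers g) X := by
    ext x y
    rw [MulAction.orbitRel_apply, MulAction.orbitRel_apply, MulAction.mem_orbit_iff,
      MulAction.mem_orbit_iff]
    constructor
    · rintro ⟨⟨_, i, rfl⟩, hx⟩
      refine ⟨⟨g ^ i, i, rfl⟩, ?_⟩
      rw [← hx]
      show g ^ i • y = ((MulAction.toPermHom G X g) ^ i) y
      rw [← map_zpow]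
      rfl
    · rintro ⟨⟨_, i, rfl⟩, hx⟩
      refine ⟨⟨(MulAction.toPerm g) ^ i, i, rfl⟩, ?_⟩
      rw [← hx]
      show ((MulAction.toPermHom G X g) ^ i) y = g ^ i • y
      rw [← map_zpow]
      rfl
  unfold numOrb MulAction.orbitRel.Quotient
  rw [h]

/-- Scott's lemma for a transitive action of a group generated by `s` and `t`. -/
theorem scott_action [Fintype X] [DecidableEq X] [MulAction.IsPretransitive G X] (s t : G)
    (hgen : Subgroup.closure ({s, t} : Set G) = ⊤) :
    Even (((Fintype.card X : ℤ) - Nat.card (MulAction.orbitRel.Quotient (Subgroup.zpowers s) X)) +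
        ((Fintype.card X : ℤ) -
          Nat.card (MulAction.orbitRel.Quotient (Subgroup.zpowers (s * t)) X)) +
        ((Fintype.card X : ℤ) -
          Nat.card (MulAction.orbitRel.Quotient (Subgroup.zpowers t) X))) ∧
      2 * (Fintype.card X : ℤ) - 2 ≤
        ((Fintype.card X : ℤ) - Nat.card (MulAction.orbitRel.Quotient (Subgroup.zpowers s) X)) +
        ((Fintype.card X : ℤ) -
          Nat.card (MulAction.orbitRel.Quotient (Subgroup.zpowers (s * t)) X)) +
        ((Fintype.card X : ℤ) -
          Nat.card (MulAction.orbitRel.Quotient (Subgroup.zpowers t) X)) := by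
  rw [← numOrb_toPerm s, ← numOrb_toPerm t, ← numOrb_toPerm (s * t)]
  refine scott (MulAction.toPerm s) (MulAction.toPerm (s * t)) (MulAction.toPerm t) ?_ ?_
  · exact (map_mul (MulAction.toPermHom G X) s t).symm
  · intro x y
    obtain ⟨g, hg⟩ := MulAction.exists_smul_eq G x y
    refine ⟨MulAction.toPermHom G X g, ?_, hg⟩
    have hmem : g ∈ Subgroup.closure ({s, t} : Set G) := by rw [hgen]; trivial
    have := Subgroup.mem_map_of_mem (MulAction.toPermHom G X) hmem
    rw [MonoidHom.map_closure, Set.image_pair] at this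
    exact this

end Action

end Fermat.Agent.S24
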