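import Fermat.Agent.S24.Orbits
import Fermat.Agent.S24.Scott

/-!
`TargetInt` from Scott's lemma and the orbit counts (independent of other statements' files).
-/

set_option autoImplicit false

namespace Fermat.Agent.S24

open scoped MatrixGroups

theorem targetInt_scott (N : ℕ) [NeZero N] : TargetInt N := by
  classical
  have := finite_quotient_Gamma0 N
  let _ : Fintype (XN N) := Fintype.ofFinite _
  obtain ⟨hψ, ho2, ho3, hoc⟩ := targetOrbits N
  obtain ⟨hev, hle⟩ := scott_action (G := SL(2, ℤ)) (X := XN N) ModularGroup.S ModularGroup.T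
    SpecialLinearGroup.SL2Z_generators
  rw [← Nat.card_eq_fintype_card] at hev hle
  change Even (((Nat.card (XN N) : ℤ) - orbCount N ModularGroup.S) +
    ((Nat.card (XN N) : ℤ) - orbCount N (ModularGroup.S * ModularGroup.T)) +
    ((Nat.card (XN N) : ℤ) - orbCount N ModularGroup.T)) at hev
  change 2 * (Nat.card (XN N) : ℤ) - 2 ≤ ((Nat.card (XN N) : ℤ) - orbCount N ModularGroup.S) +
    ((Nat.card (XN N) : ℤ) - orbCount N (ModularGroup.S * ModularGroup.T)) +
    ((Nat.card (XN N) : ℤ) - orbCount N ModularGroup.T) at hle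
  obtain ⟨r, hr⟩ := hev
  have hr0 : 0 ≤ r + 1 - (Nat.card (XN N) : ℤ) := by omega
  refine ⟨(r + 1 - (Nat.card (XN N) : ℤ)).toNat, ?_⟩
  have h1 : (((r + 1 - (Nat.card (XN N) : ℤ)).toNat : ℤ) : ℚ) = (r : ℚ) + 1 - Nat.card (XN N) := by
    rw [Int.toNat_of_nonneg hr0]; push_cast; ring
  have h1' : (((r + 1 - (Nat.card (XN N) : ℤ)).toNat : ℕ) : ℚ) = (r : ℚ) + 1 - Nat.card (XN N) := by
    rw [← h1]; norm_cast
  rw [h1', ModularCurve.genusFormula]
  have hrq : ((Nat.card (XN N) : ℚ) - orbCount N ModularGroup.S) +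
    ((Nat.card (XN N) : ℚ) - orbCount N (ModularGroup.S * ModularGroup.T)) +
    ((Nat.card (XN N) : ℚ) - orbCount N ModularGroup.T) = r + r := by exact_mod_cast hr
  have ho2q : 2 * (orbCount N ModularGroup.S : ℚ)
      = ModularCurve.dedekindPsi N + ModularCurve.nuTwo N := by exact_mod_cast ho2
  have ho3q : 3 * (orbCount N (ModularGroup.S * ModularGroup.T) : ℚ)
      = ModularCurve.dedekindPsi N + 2 * ModularCurve.nuThree N := by exact_mod_cast ho3
  rw [hψ] at hrq ⊢
  rw [hoc] at hrq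
  linarith

end Fermat.Agent.S24
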