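import Fermat.Agent.S24.Defs
import Fermat.Agent.S20.Basic
import Fermat.Agent.S20.Serre
import Fermat.Agent.S20.Elliptic

/-!
Analytic facts on the `j`-function (work packages AN1a and AN1b of S24):
invariance, surjectivity, Ramanujan identities, derivative of `j`, elliptic points.
-/

set_option autoImplicit false
namespace Fermat.Agent.S24
open UpperHalfPlane ModularForm EisensteinSeries Derivative Filter
open Fermat.Agent.S20
open scoped MatrixGroups Manifold Topology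

local notation "Δ" => ModularForm.discriminant

theorem jfun_eq_div : jfun = ((E₄ : ℍ → ℂ) ^ 3) / Δ := rfl

theorem mdiff_jfun : MDiff jfun := by
  rw [jfun_eq_div]
  exact (E₄.holo'.pow 3).div Delta_mem.1 discriminant_ne_zero

theorem jfun_slash (γ : SL(2, ℤ)) : jfun ∣[(0 : ℤ)] γ = jfun := by
  have h : ((E₄ : ℍ → ℂ) ^ 3) ∣[(12 : ℤ)] γ = (E₄ : ℍ → ℂ) ^ 3 :=
    (M1_congr (by norm_num) (pow_mem_M1 E4_mem 3)).2.2 γ
  rw [jfun_eq_div, show (0 : ℤ) = 12 - 12 by norm_num, div_slash_SL2, h, Delta_mem.2.2]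

theorem jfun_smul (γ : SL(2, ℤ)) (τ : ℍ) : jfun (γ • τ) = jfun τ := by
  have h := congrFun (jfun_slash γ) τ
  rw [SL_slash_apply] at h
  simpa using h

theorem jfun_mul_discriminant (τ : ℍ) : jfun τ * Δ τ = E₄ τ ^ 3 := by
  rw [jfun, div_mul_cancel₀ _ (discriminant_ne_zero τ)]

theorem jfun_sub_mul_discriminant (τ : ℍ) : (jfun τ - 1728) * Δ τ = E₆ τ ^ 2 := by
  rw [sub_mul, jfun_mul_discriminant, Delta_eq]; ring

theorem jfun_sub (τ : ℍ) : jfun τ - 1728 = E₆ τ ^ 2 / Δ τ := by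
  rw [← jfun_sub_mul_discriminant, mul_div_cancel_right₀ _ (discriminant_ne_zero τ)]

theorem jfun_eq_zero_iff (τ : ℍ) : jfun τ = 0 ↔ E₄ τ = 0 := by
  rw [jfun, div_eq_zero_iff]
  simp [discriminant_ne_zero τ]

theorem jfun_eq_1728_iff (τ : ℍ) : jfun τ = 1728 ↔ E₆ τ = 0 := by
  rw [← sub_eq_zero, jfun_sub, div_eq_zero_iff]
  simp [discriminant_ne_zero τ]

theorem hasSum_E2' (τ : ℍ) : HasSum (fun m : ℕ => (if m = 0 then 1 else -24 * ArithmeticFunction.sigma 1 m : ℂ) • Function.Periodic.qParam 1 τ ^ m) (E2 τ) := by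
  simpa only [Function.Periodic.qParam, Complex.ofReal_one, div_one] using hasSum_qExpansion_E2 (z := τ)

theorem E2_vadd_one (τ : ℍ) : E2 ((1 : ℝ) +ᵥ τ) = E2 τ := by
  refine (hasSum_E2' _).unique ?_
  have h : Function.Periodic.qParam 1 (((1 : ℝ) +ᵥ τ : ℍ) : ℂ) = Function.Periodic.qParam 1 τ := by
    rw [UpperHalfPlane.coe_vadd]
    simp only [Function.Periodic.qParam, Complex.ofReal_one, div_one]
    rw [mul_add, mul_one, Complex.exp_add, Complex.exp_two_pi_mul_I, one_mul]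
  rw [h]
  exact hasSum_E2' τ

theorem periodic_E2 : Function.Periodic (E2 ∘ ofComplex) (1 : ℝ) := by
  intro w
  by_cases hw : 0 < w.im
  · have hw' : 0 < (w + (1 : ℝ)).im := by simpa using hw
    simp only [Function.comp_apply]
    rw [ofComplex_apply_of_im_pos hw, ofComplex_apply_of_im_pos hw', ← E2_vadd_one ⟨w, hw⟩]
    congr 1
    ext
    simp [add_comm]
  · have hw' : ¬ 0 < (w + (1 : ℝ)).im := by simpa using hw
    simp only [Function.comp_apply]
    rw [ofComplex_apply_of_im_nonpos (not_lt.mp hw), ofComplex_apply_of_im_nonpos (not_lt.mp hw')]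

theorem E2_tendsto : Tendsto E2 atImInfty (𝓝 1) := by
  have hper := periodic_E2
  have hanal := analyticAt_cuspFunction_zero one_pos hper E2_mdifferentiable isBoundedAtImInfty_E2
  have h1 := tendsto_valueAtInfty one_pos hper E2_mdifferentiable isBoundedAtImInfty_E2
  have h2 := (hasFPowerSeriesOnBall_cuspFunction one_pos hanal hasSum_E2').coeff_zero 0
  rw [cuspFunction_apply_zero one_pos hanal hper] at h2
  rw [← h2] at h1
  simpa using h1




theorem D_tendsto_zero {k : ℤ} {r : ℍ → ℂ} (hr : r ∈ M1 k) : Tendsto (D r) atImInfty (𝓝 0) := by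
  set c := valueAtInfty r
  have h1 : IsZeroAtImInfty (r - fun _ => c) := by
    have := (M1_tendsto hr).sub (tendsto_const_nhds (x := c))
    rw [sub_self] at this
    exact this
  have h2 := isZeroAtImInfty_normalizedDeriv (hr.1.sub mdifferentiable_const) h1
  rw [normalizedDerivOfComplex_sub _ _ hr.1 mdifferentiable_const,
    normalizedDerivOfComplex_const, sub_zero] at h2
  exact h2

theorem serre_tendsto {k : ℤ} {r : ℍ → ℂ} (hr : r ∈ M1 k) :
    Tendsto (serreDerivative k r) atImInfty (𝓝 (-(k * 12⁻¹ * valueAtInfty r))) := by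
  have h := (D_tendsto_zero hr).sub
    (((tendsto_const_nhds (x := (k : ℂ) * 12⁻¹)).mul E2_tendsto).mul (M1_tendsto hr))
  simpa using h

theorem M1_eq_zero_of_lt_twelve {k : ℤ} (hk : k < 12) {r : ℍ → ℂ} (hr : r ∈ M1 k)
    (h0 : Tendsto r atImInfty (𝓝 0)) : r = 0 := by
  obtain ⟨s, hs, rfl⟩ := M1_exists_eq_Delta_mul hr h0.limUnder_eq
  rw [M1_eq_zero_of_neg (by omega) hs, mul_zero]

theorem serre_E4 : serreDerivative 4 E₄ = (-(1 / 3 : ℂ)) • (E₆ : ℍ → ℂ) := by
  have h1 : serreDerivative ((4 : ℤ) : ℂ) E₄ ∈ M1 (4 + 2) := serre_mem_M1 E4_mem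
  have h2 := serre_tendsto E4_mem
  rw [show valueAtInfty (E₄ : ℍ → ℂ) = 1 from E4_tendsto.limUnder_eq] at h2
  have h3 : serreDerivative ((4 : ℤ) : ℂ) E₄ - (-(1 / 3 : ℂ)) • (E₆ : ℍ → ℂ) ∈ M1 6 :=
    sub_mem h1 (Submodule.smul_mem _ _ E6_mem)
  have h4 := M1_eq_zero_of_lt_twelve (by norm_num) h3 (by
    have := h2.sub (E6_tendsto.const_smul (-(1 / 3 : ℂ)))
    convert this using 2
    simp; norm_num)
  have := sub_eq_zero.mp h4
  simpa using this

theorem serre_E6 : serreDerivative 6 E₆ = (-(1 / 2 : ℂ)) • ((E₄ : ℍ → ℂ) ^ 2) := by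
  have h1 : serreDerivative ((6 : ℤ) : ℂ) E₆ ∈ M1 (6 + 2) := serre_mem_M1 E6_mem
  have h2 := serre_tendsto E6_mem
  rw [show valueAtInfty (E₆ : ℍ → ℂ) = 1 from E6_tendsto.limUnder_eq] at h2
  have h3 : serreDerivative ((6 : ℤ) : ℂ) E₆ - (-(1 / 2 : ℂ)) • ((E₄ : ℍ → ℂ) ^ 2) ∈ M1 8 :=
    sub_mem h1 (Submodule.smul_mem _ _ (M1_congr (by norm_num) (pow_mem_M1 E4_mem 2)))
  have h4 := M1_eq_zero_of_lt_twelve (by norm_num) h3 (by
    have := h2.sub ((E4_tendsto.pow 2).const_smul (-(1 / 2 : ℂ)))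
    convert this using 2
    simp; norm_num)
  have := sub_eq_zero.mp h4
  simpa using this

/-- Ramanujan's identity for `E₄`. -/
theorem D_E4 (τ : ℍ) : D E₄ τ = (E2 τ * E₄ τ - E₆ τ) / 3 := by
  have h := congrFun serre_E4 τ
  simp only [serreDerivative_apply, Pi.smul_apply, smul_eq_mul] at h
  linear_combination h

/-- Ramanujan's identity for `E₆`. -/
theorem D_E6 (τ : ℍ) : D E₆ τ = (E2 τ * E₆ τ - E₄ τ ^ 2) / 2 := by
  have h := congrFun serre_E6 τ
  simp only [serreDerivative_apply, Pi.smul_apply, smul_eq_mul, Pi.pow_apply] at h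
  linear_combination h

theorem bracket_E4_E6 (τ : ℍ) : 2 * E₄ τ * D E₆ τ - 3 * E₆ τ * D E₄ τ = -1728 * Δ τ := by
  rw [D_E4, D_E6, neg_mul, Delta_eq]; ring


theorem D_discriminant (τ : ℍ) : D Δ τ = E2 τ * Δ τ := by
  have h : (1728 : ℂ) • Δ = (E₄ : ℍ → ℂ) ^ 3 - (E₆ : ℍ → ℂ) ^ 2 := by
    ext z; simpa using Delta_eq z
  have h2 : D _ τ = D _ τ := congrArg (fun f => D f τ) h
  rw [normalizedDerivOfComplex_smul _ _ Delta_mem.1,
    normalizedDerivOfComplex_sub _ _ (E4_mem.1.pow 3) (E6_mem.1.pow 2),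
    normalizedDerivOfComplex_pow _ _ E4_mem.1, normalizedDerivOfComplex_pow _ _ E6_mem.1] at h2
  simp only [Pi.smul_apply, Pi.sub_apply, Pi.mul_apply, Pi.pow_apply, smul_eq_mul, D_E4, D_E6] at h2
  have h3 := Delta_eq τ
  norm_num at h2
  linear_combination (1 / 1728 : ℂ) * h2 - (1 / 1728 : ℂ) * E2 τ * h3

theorem D_jfun (τ : ℍ) : D jfun τ = - (E₄ τ ^ 2 * E₆ τ) / Δ τ := by
  have h : jfun * Δ = (E₄ : ℍ → ℂ) ^ 3 := by
    ext z; simpa using jfun_mul_discriminant z
  have h2 : D _ τ = D _ τ := congrArg (fun f => D f τ) h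
  rw [normalizedDerivOfComplex_mul _ _ mdiff_jfun Delta_mem.1,
    normalizedDerivOfComplex_pow _ _ E4_mem.1] at h2
  simp only [Pi.add_apply, Pi.mul_apply, Pi.pow_apply, D_E4, D_discriminant] at h2
  have h3 := jfun_mul_discriminant τ
  have h0 := discriminant_ne_zero τ
  rw [eq_div_iff h0]
  norm_num at h2
  linear_combination h2 - E2 τ * h3


theorem Delta_tendsto : Tendsto Δ atImInfty (𝓝 0) :=
  CuspFormClass.zero_at_infty CuspForm.discriminant

theorem jfun_surjective : Function.Surjective jfun := by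
  intro c
  by_contra hcon
  push Not at hcon
  set g : ℍ → ℂ := (E₄ : ℍ → ℂ) ^ 3 - c • Δ with hg
  have hgmem : g ∈ M1 12 :=
    sub_mem (M1_congr (by norm_num) (pow_mem_M1 E4_mem 3)) (Submodule.smul_mem _ _ Delta_mem)
  have hne : ∀ τ, g τ ≠ 0 := by
    intro τ h0
    apply hcon τ
    simp only [hg, Pi.sub_apply, Pi.pow_apply, Pi.smul_apply, smul_eq_mul] at h0
    rw [jfun, div_eq_iff (discriminant_ne_zero τ)]
    linear_combination h0
  have hlim : Tendsto g atImInfty (𝓝 1) := by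
    have := (E4_tendsto.pow 3).sub (Delta_tendsto.const_smul c)
    rw [one_pow, smul_zero, sub_zero] at this
    exact this
  have hinv : (1 : ℍ → ℂ) / g ∈ M1 (0 - 12) := by
    refine ⟨one_mem_M1.1.div hgmem.1 hne, ?_, fun γ => ?_⟩
    · have := (hlim.inv₀ one_ne_zero).isBigO_one ℝ
      rw [one_div]
      exact this
    · rw [div_slash_SL2, one_mem_M1.2.2, hgmem.2.2]
  have h0 := congrFun (M1_eq_zero_of_neg (by norm_num) hinv) I
  simp only [Pi.div_apply, Pi.one_apply, Pi.zero_apply, one_div, inv_eq_zero] at h0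
  exact hne I h0

theorem E6_I : E₆ I = 0 := by
  have h := congrFun (E6_mem.2.2 ModularGroup.S) I
  rw [SL_slash_apply, S_smul_I, denom_S_I] at h
  have hI : (Complex.I : ℂ) ^ (-(6 : ℤ)) = -1 := by
    rw [zpow_neg, show (6 : ℤ) = ((6 : ℕ) : ℤ) by norm_num, zpow_natCast,
      show (6 : ℕ) = 2 * 3 by norm_num, pow_mul, Complex.I_sq]
    norm_num
  rw [hI] at h
  have : E₆ I * 2 = 0 := by linear_combination -h
  simpa using this

theorem E4_rhoPt : E₄ rhoPt = 0 := by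
  have h := congrFun (E4_mem.2.2 (ModularGroup.S * ModularGroup.T)) rhoPt
  rw [SL_slash_apply, ST_smul_rhoPt, denom_ST] at h
  have h1 : ((rhoPt : ℂ) + 1) = - (rhoPt : ℂ) ^ 2 := by linear_combination rhoPt_sq
  have hI : ((rhoPt : ℂ) + 1) ^ (-(4 : ℤ)) = rhoPt := by
    rw [zpow_neg, show (4 : ℤ) = ((4 : ℕ) : ℤ) by norm_num, zpow_natCast, h1]
    apply inv_eq_of_mul_eq_one_left
    have := rho_cube
    linear_combination ((rhoPt : ℂ) ^ 6 + (rhoPt : ℂ) ^ 3 + 1) * this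
  rw [hI] at h
  have h2 : E₄ rhoPt * ((rhoPt : ℂ) - 1) = 0 := by linear_combination h
  rcases mul_eq_zero.mp h2 with h3 | h3
  · exact h3
  · exfalso
    have h4 : (rhoPt : ℂ) = 1 := by linear_combination h3
    have h5 := rhoPt_sq
    rw [h4] at h5
    norm_num at h5

theorem jfun_I : jfun I = 1728 := (jfun_eq_1728_iff I).mpr E6_I

theorem jfun_rhoPt : jfun rhoPt = 0 := (jfun_eq_zero_iff rhoPt).mpr E4_rhoPt

theorem D_E6_I_ne_zero : D E₆ I ≠ 0 := by
  intro h
  have h1 := bracket_E4_E6 I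
  rw [h, E6_I] at h1
  have := discriminant_ne_zero I
  apply this
  linear_combination (1 / 1728 : ℂ) * h1

theorem D_E4_rhoPt_ne_zero : D E₄ rhoPt ≠ 0 := by
  intro h
  have h1 := bracket_E4_E6 rhoPt
  rw [h, E4_rhoPt] at h1
  have := discriminant_ne_zero rhoPt
  apply this
  linear_combination (1 / 1728 : ℂ) * h1

theorem D_jfun_ne_zero {τ : ℍ} (h0 : jfun τ ≠ 0) (h1 : jfun τ ≠ 1728) : D jfun τ ≠ 0 := by
  rw [D_jfun]
  rw [Ne, jfun_eq_zero_iff] at h0
  rw [Ne, jfun_eq_1728_iff] at h1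
  exact div_ne_zero (neg_ne_zero.mpr (mul_ne_zero (pow_ne_zero 2 h0) h1)) (discriminant_ne_zero τ)

/-! ### Behaviour at the cusp -/

theorem discriminant_div_q_tendsto :
    Tendsto (fun τ : ℍ => Δ τ / Function.Periodic.qParam 1 τ) atImInfty (𝓝 1) := by
  refine tendsto_atImInfty_tprod_one_sub_eta_q_pow.congr fun τ => ?_
  rw [discriminant_eq_q_prod, mul_div_cancel_left₀ _ (Function.Periodic.qParam_ne_zero _)]

theorem jfun_mul_q_tendsto :
    Tendsto (fun τ : ℍ => jfun τ * Function.Periodic.qParam 1 τ) atImInfty (𝓝 1) := by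
  have h := (E4_tendsto.pow 3).div discriminant_div_q_tendsto one_ne_zero
  rw [one_pow, div_one] at h
  refine h.congr fun τ => ?_
  have h1 := discriminant_ne_zero τ
  have h2 : Function.Periodic.qParam 1 (τ : ℂ) ≠ 0 := Function.Periodic.qParam_ne_zero _
  simp only [jfun, Pi.div_apply]
  field_simp

/-! ### Orders of vanishing -/

theorem analyticAt_comp_ofComplex_J {f : ℍ → ℂ} (hf : MDiff f) (τ : ℍ) :
    AnalyticAt ℂ (f ∘ ofComplex) τ :=
  (UpperHalfPlane.mdifferentiable_iff.mp hf).analyticAt (isOpen_upperHalfPlaneSet.mem_nhds τ.2)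

theorem order_eq_one_of_D_ne_zero {f : ℍ → ℂ} (hf : MDiff f) {τ : ℍ} (h0 : f τ = 0)
    (h1 : D f τ ≠ 0) : analyticOrderAt (f ∘ ofComplex) τ = 1 := by
  refine (analyticAt_comp_ofComplex_J hf τ).analyticOrderAt_eq_one_of_zero_deriv_ne_zero
    (by simpa using h0) ?_
  intro h
  apply h1
  rw [normalizedDerivOfComplex, h, mul_zero]

theorem order_eq_zero_of_ne_zero {f : ℍ → ℂ} (hf : MDiff f) {τ : ℍ} (h0 : f τ ≠ 0) :
    analyticOrderAt (f ∘ ofComplex) τ = 0 :=
  (analyticAt_comp_ofComplex_J hf τ).analyticOrderAt_eq_zero.mpr (by simpa using h0)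

theorem order_jfun_sub {τ : ℍ} {c : ℂ} (hc : jfun τ = c) (h0 : c ≠ 0) (h1 : c ≠ 1728) :
    analyticOrderAt ((fun z => jfun z - c) ∘ ofComplex) τ = 1 := by
  have hm : MDiff (fun z => jfun z - c) := mdiff_jfun.sub mdifferentiable_const
  refine order_eq_one_of_D_ne_zero hm (by simp [hc]) ?_
  have : (fun z => jfun z - c) = jfun - fun _ => c := rfl
  rw [this, normalizedDerivOfComplex_sub _ _ mdiff_jfun mdifferentiable_const,
    normalizedDerivOfComplex_const, sub_zero]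
  exact D_jfun_ne_zero (hc ▸ h0) (hc ▸ h1)

theorem D_E6_ne_zero {τ : ℍ} (h : E₆ τ = 0) : D E₆ τ ≠ 0 := by
  intro h2
  have h1 := bracket_E4_E6 τ
  rw [h, h2] at h1
  apply discriminant_ne_zero τ
  linear_combination (1 / 1728 : ℂ) * h1

theorem D_E4_ne_zero {τ : ℍ} (h : E₄ τ = 0) : D E₄ τ ≠ 0 := by
  intro h2
  have h1 := bracket_E4_E6 τ
  rw [h, h2] at h1
  apply discriminant_ne_zero τ
  linear_combination (1 / 1728 : ℂ) * h1

theorem order_jfun_sub_1728 {τ : ℍ} (hc : jfun τ = 1728) :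
    analyticOrderAt ((fun z => jfun z - 1728) ∘ ofComplex) τ = 2 := by
  have hm : MDiff (fun z => jfun z - 1728) := mdiff_jfun.sub mdifferentiable_const
  have h6 : E₆ τ = 0 := (jfun_eq_1728_iff τ).mp hc
  have h : ((fun z => jfun z - 1728) ∘ ofComplex) * (Δ ∘ ofComplex) = ((E₆ : ℍ → ℂ) ∘ ofComplex) ^ 2 := by
    ext w
    simpa using jfun_sub_mul_discriminant (ofComplex w)
  have h2 : analyticOrderAt _ (τ : ℂ) = analyticOrderAt _ (τ : ℂ) :=
    congrArg (fun f => analyticOrderAt f (τ : ℂ)) h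
  rw [analyticOrderAt_mul (analyticAt_comp_ofComplex_J hm τ) (analyticAt_comp_ofComplex_J Delta_mem.1 τ),
    analyticOrderAt_pow (analyticAt_comp_ofComplex_J E6_mem.1 τ),
    order_eq_zero_of_ne_zero Delta_mem.1 (discriminant_ne_zero τ),
    order_eq_one_of_D_ne_zero E6_mem.1 h6 (D_E6_ne_zero h6)] at h2
  simpa using h2

theorem order_jfun {τ : ℍ} (hc : jfun τ = 0) :
    analyticOrderAt (jfun ∘ ofComplex) τ = 3 := by
  have h4 : E₄ τ = 0 := (jfun_eq_zero_iff τ).mp hc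
  have h : (jfun ∘ ofComplex) * (Δ ∘ ofComplex) = ((E₄ : ℍ → ℂ) ∘ ofComplex) ^ 3 := by
    ext w
    simpa using jfun_mul_discriminant (ofComplex w)
  have h2 : analyticOrderAt _ (τ : ℂ) = analyticOrderAt _ (τ : ℂ) :=
    congrArg (fun f => analyticOrderAt f (τ : ℂ)) h
  rw [analyticOrderAt_mul (analyticAt_comp_ofComplex_J mdiff_jfun τ) (analyticAt_comp_ofComplex_J Delta_mem.1 τ),
    analyticOrderAt_pow (analyticAt_comp_ofComplex_J E4_mem.1 τ),
    order_eq_zero_of_ne_zero Delta_mem.1 (discriminant_ne_zero τ),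
    order_eq_one_of_D_ne_zero E4_mem.1 h4 (D_E4_ne_zero h4)] at h2
  simpa using h2

theorem order_jfun_sub_1728_I :
    analyticOrderAt ((fun z => jfun z - 1728) ∘ ofComplex) (I : ℍ) = 2 := order_jfun_sub_1728 jfun_I

theorem order_jfun_rhoPt : analyticOrderAt (jfun ∘ ofComplex) rhoPt = 3 := order_jfun jfun_rhoPt

end Fermat.Agent.S24
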