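import Fermat.Agent.S24.PointData
import Fermat.Agent.S24.JAnalytic
import Fermat.Agent.S24.DegreeInst

/-!
The targets `TargetNontrivial`, `TargetGeneric`, `TargetI`, `TargetRho` from `CharpolyCoeff N`.
-/

set_option autoImplicit false

namespace Fermat.Agent.S24

variable (N : ℕ) [NeZero N] (hP : CharpolyCoeff N)

include hP

theorem targetNontrivial_of_charpolyCoeff : TargetNontrivial N :=
  targetNontrivial_of N (isFiniteParam_jF_of N hP)

theorem targetGeneric_of_charpolyCoeff : TargetGeneric N :=
  targetGeneric_of N (isFiniteParam_jF_of N hP) (degree_of_charpolyCoeff N hP).2 jfun_surjective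
    (fun _ _ hc h0 h1 => order_jfun_sub hc h0 h1)

theorem targetI_of_charpolyCoeff : TargetI N :=
  targetI_of N (isFiniteParam_jF_of N hP) (degree_of_charpolyCoeff N hP).2 order_jfun_sub_1728_I

theorem targetRho_of_charpolyCoeff : TargetRho N :=
  targetRho_of N (isFiniteParam_jF_of N hP) (degree_of_charpolyCoeff N hP).2 order_jfun_rhoPt

end Fermat.Agent.S24
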