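import Mathlib

set_option autoImplicit false

noncomputable section

namespace Fermat.Agent.S24

open PowerSeries IsLocalRing

section Taylor

variable {K R : Type*} [Field K] [CommRing R] [Algebra K R]

/-- `p` is a `π`-adic expansion of `u`. -/
def IsExp (π : R) (u : R) (p : K⟦X⟧) : Prop :=
  ∀ n : ℕ, π ^ n ∣ u - Polynomial.aeval π (trunc n p)

theorem IsExp.add {π u w : R} {p r : K⟦X⟧} (hu : IsExp π u p) (hw : IsExp π w r) :
    IsExp π (u + w) (p + r) := by
  intro n
  have := dvd_add (hu n) (hw n)
  rw [map_add, map_add]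
  convert this using 1
  ring

theorem X_pow_dvd_trunc_mul_sub (n : ℕ) (p r : K⟦X⟧) :
    (Polynomial.X : Polynomial K) ^ n ∣ trunc n p * trunc n r - trunc n (p * r) := by
  rw [Polynomial.X_pow_dvd_iff]
  intro d hd
  rw [Polynomial.coeff_sub, sub_eq_zero, ← trunc_trunc_mul_trunc, coeff_trunc, if_pos hd,
    ← Polynomial.coe_mul, Polynomial.coeff_coe]

theorem IsExp.mul {π u w : R} {p r : K⟦X⟧} (hu : IsExp π u p) (hw : IsExp π w r) :
    IsExp π (u * w) (p * r) := by
  intro n
  obtain ⟨a, ha⟩ := hu n
  obtain ⟨b, hb⟩ := hw n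
  obtain ⟨c, hc⟩ := X_pow_dvd_trunc_mul_sub n p r
  have hc' := congrArg (Polynomial.aeval π) hc
  rw [map_sub, map_mul (Polynomial.aeval π) (trunc n p), map_mul (Polynomial.aeval π) (Polynomial.X ^ n),
    map_pow, Polynomial.aeval_X] at hc'
  refine ⟨a * w + Polynomial.aeval π (trunc n p) * b + Polynomial.aeval π c, ?_⟩
  linear_combination w * ha + Polynomial.aeval π (trunc n p) * hb + hc'

theorem isExp_algebraMap (π : R) (c : K) : IsExp π (algebraMap K R c) (C c : K⟦X⟧) := by
  intro n
  rcases n with _ | n
  · simp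
  · rw [trunc_C, Polynomial.aeval_C, sub_self]
    exact dvd_zero _

theorem isExp_X (π : R) : IsExp π π (X : K⟦X⟧) := by
  intro n
  rcases n with _ | _ | n
  · simp
  · simp [trunc_succ, trunc_zero']
  · rw [trunc_X, Polynomial.aeval_X, sub_self]
    exact dvd_zero _

theorem IsExp.unique {π u : R} (hπ : ¬ IsUnit π) (hπ0 : π ∈ nonZeroDivisors R) {p r : K⟦X⟧}
    (hp : IsExp π u p) (hr : IsExp π u r) : p = r := by
  ext m
  induction m using Nat.strong_induction_on with
  | _ m ih =>
    have h1 : π ^ (m + 1) ∣ Polynomial.aeval π (trunc (m + 1) p) -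
        Polynomial.aeval π (trunc (m + 1) r) := by
      have := dvd_sub (hr (m + 1)) (hp (m + 1))
      convert this using 1
      ring
    have h2 : trunc m p = trunc m r := by
      ext d
      rw [coeff_trunc, coeff_trunc]
      split_ifs with hd
      · exact ih d hd
      · rfl
    rw [trunc_succ, trunc_succ, h2, map_add, map_add, add_sub_add_left_eq_sub,
      Polynomial.aeval_monomial, Polynomial.aeval_monomial, ← sub_mul, ← map_sub, pow_succ,
      mul_comm (π ^ m)] at h1
    have h3 : π ∣ algebraMap K R (coeff m p - coeff m r) := by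
      obtain ⟨c, hc⟩ := h1
      refine ⟨c, ?_⟩
      have hm : π ^ m ∈ nonZeroDivisors R := pow_mem hπ0 m
      refine (mul_cancel_right_mem_nonZeroDivisors hm).mp ?_
      rw [hc]; ring
    by_contra hne
    have hu : IsUnit (algebraMap K R (coeff m p - coeff m r)) :=
      (IsUnit.mk0 _ (sub_ne_zero.mpr hne)).map _
    exact hπ (isUnit_of_dvd_unit h3 hu)

/-- Existence of expansions, given a one-step decomposition. -/
theorem exists_isExp {π : R} (hdec : ∀ u : R, ∃ (c : K) (w : R), u = algebraMap K R c + π * w)
    (u : R) : ∃ p : K⟦X⟧, IsExp π u p := by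
  choose c w hcw using hdec
  let rem : ℕ → R := fun n => Nat.rec u (fun _ x => w x) n
  have hrem : ∀ n, rem (n + 1) = w (rem n) := fun n => rfl
  refine ⟨PowerSeries.mk fun n => c (rem n), fun n => ⟨rem n, ?_⟩⟩
  induction n with
  | zero => simp [rem]
  | succ n ih =>
    rw [trunc_succ, map_add, Polynomial.aeval_monomial, coeff_mk, hrem, pow_succ]
    have := hcw (rem n)
    linear_combination ih + π ^ n * this

end Taylor

section DVR

variable {K R : Type*} [Field K] [CommRing R] [IsDomain R] [IsDiscreteValuationRing R]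
  [Algebra K R]

theorem exists_decomp (hres : Function.Surjective (algebraMap K (ResidueField R))) {π : R}
    (hπ : Irreducible π) (u : R) : ∃ (c : K) (w : R), u = algebraMap K R c + π * w := by
  obtain ⟨c, hc⟩ := hres (residue R u)
  have h : u - algebraMap K R c ∈ maximalIdeal R := by
    rw [← residue_eq_zero_iff, map_sub, ← hc, sub_eq_zero]
    rfl
  rw [hπ.maximalIdeal_eq, Ideal.mem_span_singleton] at h
  obtain ⟨w, hw⟩ := h
  exact ⟨c, w, by rw [← hw]; ring⟩

variable (hres : Function.Surjective (algebraMap K (ResidueField R))) {π : R}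
  (hπ : Irreducible π)

/-- The Taylor expansion of `u` at the uniformizer `π`. -/
def taylorFun (u : R) : K⟦X⟧ := (exists_isExp (exists_decomp hres hπ) u).choose

theorem isExp_taylorFun (u : R) : IsExp π u (taylorFun hres hπ u) :=
  (exists_isExp (exists_decomp hres hπ) u).choose_spec

theorem taylorFun_eq {u : R} {p : K⟦X⟧} (h : IsExp π u p) : taylorFun hres hπ u = p :=
  (isExp_taylorFun hres hπ u).unique hπ.not_isUnit (mem_nonZeroDivisors_of_ne_zero hπ.ne_zero) h

/-- The Taylor expansion map `R →ₐ[K] K⟦X⟧` of a discrete valuation ring with coefficient field. -/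
def taylor : R →ₐ[K] K⟦X⟧ where
  toFun := taylorFun hres hπ
  map_one' := taylorFun_eq hres hπ (by simpa using isExp_algebraMap (K := K) π 1)
  map_mul' u w := taylorFun_eq hres hπ ((isExp_taylorFun hres hπ u).mul (isExp_taylorFun hres hπ w))
  map_zero' := taylorFun_eq hres hπ (by simpa using isExp_algebraMap (K := K) π 0)
  map_add' u w := taylorFun_eq hres hπ ((isExp_taylorFun hres hπ u).add (isExp_taylorFun hres hπ w))
  commutes' c := taylorFun_eq hres hπ (isExp_algebraMap π c)

theorem isExp_taylor (u : R) : IsExp π u (taylor hres hπ u) := isExp_taylorFun hres hπ u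

@[simp] theorem taylor_uniformizer : taylor hres hπ π = X := taylorFun_eq hres hπ (isExp_X π)

theorem taylor_injective : Function.Injective (taylor hres hπ) := by
  rw [injective_iff_map_eq_zero]
  intro u hu
  have h := isExp_taylor hres hπ u
  rw [hu] at h
  have h' : ∀ n, π ^ n ∣ u := fun n => by simpa using h n
  by_contra hne
  obtain ⟨n, hn⟩ := (FiniteMultiplicity.of_not_isUnit hπ.not_isUnit hne)
  exact hn (h' (n + 1))

theorem dvd_sub_constantCoeff_taylor (u : R) :
    π ∣ u - algebraMap K R (constantCoeff (taylor hres hπ u)) := by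
  have h := isExp_taylor hres hπ u 1
  rw [trunc_succ, trunc_zero', zero_add, Polynomial.aeval_monomial, pow_zero, mul_one, pow_one,
    coeff_zero_eq_constantCoeff] at h
  exact h

theorem isUnit_iff_constantCoeff_taylor_ne_zero (u : R) :
    IsUnit u ↔ constantCoeff (taylor hres hπ u) ≠ 0 := by
  have h := dvd_sub_constantCoeff_taylor hres hπ u
  constructor
  · intro hu h0
    rw [h0, map_zero, sub_zero] at h
    exact hπ.not_isUnit (isUnit_of_dvd_unit h hu)
  · intro h0
    by_contra hu
    have h1 : π ∣ u := by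
      have : u ∈ maximalIdeal R := hu
      rwa [hπ.maximalIdeal_eq, Ideal.mem_span_singleton] at this
    have h2 : π ∣ algebraMap K R (constantCoeff (taylor hres hπ u)) := by
      have := dvd_sub h1 h
      simpa using this
    exact hπ.not_isUnit (isUnit_of_dvd_unit h2 ((IsUnit.mk0 _ h0).map _))

end DVR

end Fermat.Agent.S24
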