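import Mathlib
import Fermat.Prelude.Def_AlgebraicCurve_CanonicalDivisor
import Fermat.Agent.S24.Taylor

set_option autoImplicit false

noncomputable section

namespace Fermat.Agent.S24

open IsLocalRing KaehlerDifferential AlgebraicCurve

section DerivationZero

variable {K A M : Type*} [Field K] [CharZero K] [CommRing A] [IsDomain A] [Algebra K A]
  [AddCommGroup M] [Module A M] [Module K M] [IsScalarTower K A M] [NoZeroSMulDivisors A M]

theorem derivation_aeval_of_eq_zero (d : Derivation K A M) (A₀ : Subalgebra K A)
    (h0 : ∀ a ∈ A₀, d a = 0) (a : A) (P : Polynomial A₀) :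
    d (Polynomial.aeval a P) = Polynomial.aeval a (Polynomial.derivative P) • d a := by
  induction P using Polynomial.induction_on' with
  | add p q hp hq => rw [map_add, map_add, hp, hq, map_add, map_add, add_smul]
  | monomial n c =>
    rw [Polynomial.aeval_monomial, Polynomial.derivative_monomial, Polynomial.aeval_monomial,
      Derivation.leibniz, Derivation.leibniz_pow,
      show d (algebraMap A₀ A c) = 0 from h0 _ c.2, smul_zero, add_zero]
    simp only [map_mul, map_natCast]
    rw [← Nat.cast_smul_eq_nsmul A, smul_smul, smul_smul]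

/-- A `K`-derivation killing `t` is zero as soon as everything is algebraic over `K[t]`. -/
theorem derivation_eq_zero_of_isAlgebraic (d : Derivation K A M) (t : A) (ht : d t = 0)
    (a : A) (ha : IsAlgebraic (Algebra.adjoin K {t}) a) : d a = 0 := by
  have h0 : ∀ x ∈ Algebra.adjoin K {t}, d x = 0 := by
    intro x hx
    have := Derivation.eqOn_adjoin (D1 := d) (D2 := 0) (s := {t}) (by
      intro y hy
      rw [Set.mem_singleton_iff] at hy
      rw [hy, ht]; rfl) hx
    simpa using this
  have : IsAddTorsionFree (Algebra.adjoin K {t}) := .of_isTorsionFree K _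
  obtain ⟨P, hP0, hP⟩ := ha
  induction hn : P.natDegree using Nat.strong_induction_on generalizing P with
  | _ n ih =>
    have h1 := derivation_aeval_of_eq_zero d _ h0 a P
    rw [hP, map_zero] at h1
    rcases smul_eq_zero.mp h1.symm with h2 | h2
    · by_cases hd : Polynomial.derivative P = 0
      · rw [Polynomial.derivative_eq_zero] at hd
        rw [Polynomial.eq_C_of_natDegree_eq_zero hd, Polynomial.aeval_C] at hP
        exfalso
        apply hP0
        rw [Polynomial.eq_C_of_natDegree_eq_zero hd]
        have : P.coeff 0 = 0 := by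
          apply Subtype.ext
          simpa using hP
        rw [this, map_zero]
      · have hlt : (Polynomial.derivative P).natDegree < n := by
          rw [← hn]
          apply Polynomial.natDegree_derivative_lt
          intro h
          exact hd (Polynomial.derivative_eq_zero.mpr h)
        exact ih _ hlt _ hd h2 rfl
    · exact h2

end DerivationZero

section Span

variable {K F : Type*} [Field K] [CharZero K] [Field F] [Algebra K F]

theorem isAlgebraic_adjoin_of_trdeg_le_one (htr : Algebra.trdeg K F ≤ 1) {t : F}
    (ht : Transcendental K t) : Algebra.IsAlgebraic (Algebra.adjoin K {t}) F := by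
  have hind : AlgebraicIndependent K (fun _ : PUnit => t) :=
    algebraicIndependent_unique_type_iff.mpr ht
  have hb := hind.isTranscendenceBasis_of_trdeg_le_of_finite (by simpa using htr)
  have := hb.isAlgebraic
  rwa [Set.range_const] at this

/-- `Ω[F⁄K]` is spanned by `dt` if `F` is algebraic over `K[t]`. -/
theorem span_D_eq_top {t : F} (halg : Algebra.IsAlgebraic (Algebra.adjoin K {t}) F) :
    Submodule.span F {D K F t} = ⊤ := by
  set N := Submodule.span F {D K F t} with hN
  let d : Derivation K F (Ω[F⁄K] ⧸ N) := N.mkQ.compDer (D K F)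
  have hdt : d t = 0 := by
    show N.mkQ (D K F t) = 0
    rw [Submodule.mkQ_apply, Submodule.Quotient.mk_eq_zero]
    exact Submodule.mem_span_singleton_self _
  have hd : ∀ a : F, D K F a ∈ N := by
    intro a
    have h := derivation_eq_zero_of_isAlgebraic d t hdt a (halg.isAlgebraic a)
    rwa [show d a = N.mkQ (D K F a) from rfl, Submodule.mkQ_apply,
      Submodule.Quotient.mk_eq_zero] at h
  rw [eq_top_iff, ← KaehlerDifferential.span_range_derivation, Submodule.span_le]
  rintro _ ⟨a, rfl⟩
  exact hd a

end Span

section PlaceDiff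

variable {K F : Type*} [Field K] [CharZero K] [Field F] [Algebra K F] (v : Place K F)

theorem exists_dCoord_eq :
    ∃ π : v.toValuationSubring, Irreducible π ∧ v.dCoord = D K F (π : F) :=
  ⟨_, (IsDiscreteValuationRing.exists_irreducible v.toValuationSubring).choose_spec, rfl⟩

/-- Elements of nonzero order are transcendental over the constants. -/
theorem transcendental_of_irreducible {π : v.toValuationSubring} (hπ : Irreducible π) :
    Transcendental K (π : F) := by
  intro halg
  have hint : IsIntegral K (π : F) := halg.isIntegral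
  have hπ0 : (π : F) ≠ 0 := by simpa using hπ.ne_zero
  have hmem : (π : F)⁻¹ ∈ Algebra.adjoin K {(π : F)} := hint.inv_mem_adjoin
  have hle : Algebra.adjoin K {(π : F)} ≤
      (⟨v.toValuationSubring.toSubring.toSubsemiring, v.algebraMap_mem'⟩ : Subalgebra K F) := by
    rw [Algebra.adjoin_le_iff]
    rintro _ rfl
    exact π.2
  have hinv : (π : F)⁻¹ ∈ v.toValuationSubring := hle hmem
  apply hπ.not_isUnit
  refine IsUnit.of_mul_eq_one ⟨(π : F)⁻¹, hinv⟩ ?_
  apply Subtype.ext
  simp [hπ0]

variable (hres : Function.Surjective (algebraMap K v.ResidueField))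

include hres in
/-- Relations between differentials in `Ω[F⁄K]` can be tested on Taylor expansions. -/
theorem taylor_relation {π : v.toValuationSubring} (hπ : Irreducible π)
    (a b u : v.toValuationSubring)
    (h : (a : F) • D K F (u : F) = (b : F) • D K F (π : F)) :
    taylor hres hπ a * PowerSeries.derivative K (taylor hres hπ u) = taylor hres hπ b := by
  let _ : Algebra v.toValuationSubring (PowerSeries K) := (taylor hres hπ).toRingHom.toAlgebra
  have : IsScalarTower K v.toValuationSubring (PowerSeries K) :=
    IsScalarTower.of_algebraMap_eq (fun c => ((taylor hres hπ).commutes c).symm)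
  let d₀ : Derivation K v.toValuationSubring (PowerSeries K) :=
    (PowerSeries.derivative K).compAlgebraMap v.toValuationSubring
  have hd₀ : ∀ w, d₀ w = PowerSeries.derivative K (taylor hres hπ w) := fun w => rfl
  have hsmul : ∀ (w : v.toValuationSubring) (p : PowerSeries K), w • p = taylor hres hπ w * p :=
    fun w p => rfl
  let x : Ω[v.toValuationSubring⁄K] := a • D K _ u - b • D K _ π
  have hx : KaehlerDifferential.map K K v.toValuationSubring F x = 0 := by
    simp only [x, map_sub, map_smul, KaehlerDifferential.map_D]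
    rw [sub_eq_zero]
    exact h
  obtain ⟨s, hs⟩ := (IsLocalizedModule.eq_zero_iff (nonZeroDivisors v.toValuationSubring)
    (KaehlerDifferential.map K K v.toValuationSubring F)).mp hx
  have h1 := congrArg d₀.liftKaehlerDifferential hs
  rw [Submonoid.smul_def, map_smul, map_zero] at h1
  simp only [x, map_sub, map_smul, Derivation.liftKaehlerDifferential_comp_D, hd₀, hsmul,
    taylor_uniformizer, PowerSeries.derivative_X, mul_one] at h1
  have hs0 : taylor hres hπ (s : v.toValuationSubring) ≠ 0 := by
    intro h0
    have := taylor_injective hres hπ (h0.trans (map_zero _).symm)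
    exact nonZeroDivisors.coe_ne_zero s this
  exact sub_eq_zero.mp ((mul_eq_zero.mp h1).resolve_left hs0)

include hres in
theorem D_irreducible_ne_zero {π : v.toValuationSubring} (hπ : Irreducible π) :
    D K F (π : F) ≠ 0 := by
  intro h0
  have h := taylor_relation v hres hπ 0 1 0 (by simp [h0])
  simp at h

include hres in
/-- The differential of an integral element is an integral multiple of `dπ`. -/
theorem exists_D_eq_smul {π : v.toValuationSubring} (hπ : Irreducible π)
    (hspan : Submodule.span F {D K F (π : F)} = ⊤) (u : v.toValuationSubring) :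
    ∃ g : v.toValuationSubring, D K F (u : F) = (g : F) • D K F (π : F) := by
  have hmem : D K F (u : F) ∈ Submodule.span F {D K F (π : F)} := hspan ▸ Submodule.mem_top
  obtain ⟨g, hg⟩ := Submodule.mem_span_singleton.mp hmem
  by_cases hgO : g ∈ v.toValuationSubring
  · exact ⟨⟨g, hgO⟩, hg.symm⟩
  · exfalso
    have hg0 : g ≠ 0 := fun h => hgO (h ▸ zero_mem _)
    have hinv : g⁻¹ ∈ v.toValuationSubring := (v.toValuationSubring.mem_or_inv_mem g).resolve_left hgO
    have h := taylor_relation v hres hπ ⟨g⁻¹, hinv⟩ 1 u (by
      rw [← hg, smul_smul]; simp [hg0])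
    rw [map_one] at h
    have hu : IsUnit (taylor hres hπ ⟨g⁻¹, hinv⟩) := IsUnit.of_mul_eq_one _ h
    have hc : PowerSeries.constantCoeff (taylor hres hπ ⟨g⁻¹, hinv⟩) ≠ 0 :=
      (PowerSeries.isUnit_iff_constantCoeff.mp hu).ne_zero
    obtain ⟨w, hw⟩ := (isUnit_iff_constantCoeff_taylor_ne_zero hres hπ _).mpr hc
    apply hgO
    have h2 : ((w⁻¹ : (v.toValuationSubring)ˣ) : v.toValuationSubring) * ⟨g⁻¹, hinv⟩ = 1 := by
      rw [← hw]; simp
    have h3 : (((w⁻¹ : (v.toValuationSubring)ˣ) : v.toValuationSubring) : F) * g⁻¹ = 1 :=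
      congrArg Subtype.val h2
    have h4 : (((w⁻¹ : (v.toValuationSubring)ˣ) : v.toValuationSubring) : F) = g := by
      field_simp at h3
      exact h3
    rw [← h4]
    exact Subtype.property _

include hres in
/-- Main local computation: `df = c dπ` with `ord c = ord f - 1` when `ord f ≠ 0`. -/
theorem exists_D_eq_smul_ord {π : v.toValuationSubring} (hπ : Irreducible π)
    (hspan : Submodule.span F {D K F (π : F)} = ⊤) {f : F} (hf : v.ord f ≠ 0) :
    ∃ c : F, c ≠ 0 ∧ D K F f = c • D K F (π : F) ∧ v.ord c = v.ord f - 1 := by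
  have hf0 : f ≠ 0 := by rintro rfl; simp at hf
  obtain ⟨u, hu⟩ := v.exists_unit_mul_zpow hf0 hπ
  obtain ⟨g, hg⟩ := exists_D_eq_smul v hres hπ hspan (u : v.toValuationSubring)
  set m := v.ord f with hm
  have hπ0 : (π : F) ≠ 0 := by simpa using hπ.ne_zero
  -- the unit `m u + π g`
  have hmK : IsUnit (algebraMap K v.toValuationSubring (m : K)) :=
    (IsUnit.mk0 (m : K) (by exact_mod_cast hf)).map _
  have hunit : IsUnit (algebraMap K v.toValuationSubring (m : K) * u + π * g) := by
    by_contra hnu
    have h1 : algebraMap K v.toValuationSubring (m : K) * u + π * g ∈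
        maximalIdeal v.toValuationSubring := hnu
    have h2 : π * g ∈ maximalIdeal v.toValuationSubring :=
      Ideal.mul_mem_right _ _ hπ.not_isUnit
    have h3 := (Ideal.add_mem_iff_left _ h2).mp h1
    exact h3 (hmK.mul u.isUnit)
  obtain ⟨w, hw⟩ := hunit
  refine ⟨(w : v.toValuationSubring) * (π : F) ^ (m - 1), ?_, ?_, ?_⟩
  · exact mul_ne_zero (by simp) (zpow_ne_zero _ hπ0)
  · rw [hu, Derivation.leibniz, Derivation.leibniz_zpow, hg, hw]
    simp only [smul_smul, ← add_smul, ← Int.cast_smul_eq_zsmul F]
    congr 1
    have hz : (π : F) ^ m = (π : F) ^ (m - 1) * π := by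
      rw [← zpow_add_one₀ hπ0]; simp
    have hmc : ((algebraMap K v.toValuationSubring (m : K) : v.toValuationSubring) : F) = (m : F) := by
      rw [Place.coe_algebraMap, map_intCast]
    rw [hz, AddMemClass.coe_add, MulMemClass.coe_mul, MulMemClass.coe_mul, hmc]
    ring
  · exact v.ord_unit_smul_zpow w hπ (m - 1)

variable (htr : Algebra.trdeg K F ≤ 1)

include htr in
theorem span_D_irreducible_eq_top {π : v.toValuationSubring} (hπ : Irreducible π) :
    Submodule.span F {D K F (π : F)} = ⊤ :=
  span_D_eq_top (isAlgebraic_adjoin_of_trdeg_le_one htr (transcendental_of_irreducible v hπ))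

include htr in
theorem dCoordGenerates : v.DCoordGenerates := by
  obtain ⟨π, hπ, hd⟩ := exists_dCoord_eq v
  exact ⟨by rw [hd]; exact span_D_irreducible_eq_top v htr hπ⟩

include hres in
theorem nontrivial_kaehler : Nontrivial Ω[F⁄K] := by
  obtain ⟨π, hπ, -⟩ := exists_dCoord_eq v
  exact ⟨⟨_, _, D_irreducible_ne_zero v hres hπ⟩⟩

include hres htr in
theorem differentialCoeff_ne_zero {ω : Ω[F⁄K]} (hω : ω ≠ 0) : v.differentialCoeff ω ≠ 0 := by
  have := dCoordGenerates v htr
  intro h0
  apply hω
  rw [← v.differentialCoeff_smul_dCoord ω, h0, zero_smul]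

include hres htr in
/-- `ord_v (g ω) = ord_v g + ord_v ω`. -/
theorem ordDifferential_smul_of_ne_zero {g : F} (hg : g ≠ 0) {ω : Ω[F⁄K]} (hω : ω ≠ 0) :
    v.ordDifferential (g • ω) = v.ord g + v.ordDifferential ω := by
  have := dCoordGenerates v htr
  have := nontrivial_kaehler v hres
  exact v.ordDifferential_smul hg (differentialCoeff_ne_zero v hres htr hω)

include hres htr in
/-- `ord_v (df) = ord_v f - 1` if `ord_v f ≠ 0` (characteristic zero). -/
theorem ordDifferential_D {f : F} (hf : v.ord f ≠ 0) :
    v.ordDifferential (D K F f) = v.ord f - 1 := by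
  have := dCoordGenerates v htr
  have := nontrivial_kaehler v hres
  obtain ⟨π, hπ, hd⟩ := exists_dCoord_eq v
  obtain ⟨c, -, hc, hord⟩ :=
    exists_D_eq_smul_ord v hres hπ (span_D_irreducible_eq_top v htr hπ) hf
  rw [Place.ordDifferential, v.differentialCoeff_unique (f := c) (by rw [hd, hc]), hord]

include hres htr in
theorem D_ne_zero_of_ord_ne_zero {f : F} (hf : v.ord f ≠ 0) : D K F f ≠ 0 := by
  obtain ⟨π, hπ, hd⟩ := exists_dCoord_eq v
  obtain ⟨c, hc0, hc, -⟩ :=
    exists_D_eq_smul_ord v hres hπ (span_D_irreducible_eq_top v htr hπ) hf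
  rw [hc]
  exact smul_ne_zero hc0 (D_irreducible_ne_zero v hres hπ)

include hres htr in
/-- `ord_v (g df) = ord_v g + ord_v f - 1` if `ord_v f ≠ 0`, `g ≠ 0`. -/
theorem ordDifferential_smul_D {g f : F} (hg : g ≠ 0) (hf : v.ord f ≠ 0) :
    v.ordDifferential (g • D K F f) = v.ord g + v.ord f - 1 := by
  rw [ordDifferential_smul_of_ne_zero v hres htr hg (D_ne_zero_of_ord_ne_zero v hres htr hf),
    ordDifferential_D v hres htr hf]
  ring

include hres htr in
/-- `ord_v (dx) = ord_v (x - c) - 1` for a constant `c` with `ord_v (x - c) ≠ 0`. -/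
theorem ordDifferential_D_sub_const {x : F} (c : K) (hx : v.ord (x - algebraMap K F c) ≠ 0) :
    v.ordDifferential (D K F x) = v.ord (x - algebraMap K F c) - 1 := by
  rw [← ordDifferential_D v hres htr hx, map_sub, Derivation.map_algebraMap, sub_zero]

end PlaceDiff

end Fermat.Agent.S24
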