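import Fermat.Agent.S24.Final

/-!
The exact statements needed by the final assembly of S24, as `Prop`-valued definitions,
and the proof of the result from them.
-/

set_option autoImplicit false

namespace Fermat.Agent.S24

open AlgebraicCurve IntermediateField KaehlerDifferential
open scoped MatrixGroups

noncomputable section

variable (N : ℕ)

/-- number of orbits of the cyclic group generated by `g` on the coset space -/
def orbCount (g : SL(2, ℤ)) : ℕ :=
  Nat.card (MulAction.orbitRel.Quotient (Subgroup.zpowers g) (XN N))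

/-- (FF2) -/
def TargetNontrivial : Prop := Nontrivial Ω[(FN N)⁄Kb]

/-- (FF1+FF2+FF3+Degree) Riemann-Hurwitz for `x = j`, with `n = card (XN N)`. -/
def TargetRH : Prop :=
  ∀ (B : Finset Kb),
    (∀ c ∉ B, Nat.card {v : Place Kb (FN N) // 0 < v.ord (jF N - algebraMap Kb (FN N) c)}
      = Nat.card (XN N)) →
    ∀ (ω : Ω[(FN N)⁄Kb]), ω ≠ 0 → ∀ D : Divisor Kb (FN N),
      (∀ v : Place Kb (FN N), D v = v.ordDifferential ω) →
      Divisor.degree D = -2 * (Nat.card (XN N) : ℤ)
        + ∑ c ∈ B, ((Nat.card (XN N) : ℤ)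
            - Nat.card {v : Place Kb (FN N) // 0 < v.ord (jF N - algebraMap Kb (FN N) c)})
        + ((Nat.card (XN N) : ℤ) - Nat.card {v : Place Kb (FN N) // v.ord (jF N) < 0})

/-- (ELLIPTIC DATA, generic point) -/
def TargetGeneric : Prop :=
  ∀ c : Kb, c ≠ 0 → c ≠ 1728 →
    Nat.card {v : Place Kb (FN N) // 0 < v.ord (jF N - algebraMap Kb (FN N) c)} = Nat.card (XN N)

/-- (ELLIPTIC DATA, `ρ`) -/
def TargetRho : Prop :=
  Nat.card {v : Place Kb (FN N) // 0 < v.ord (jF N - algebraMap Kb (FN N) 0)}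
    = orbCount N (ModularGroup.S * ModularGroup.T)

/-- (ELLIPTIC DATA, `i`) -/
def TargetI : Prop :=
  Nat.card {v : Place Kb (FN N) // 0 < v.ord (jF N - algebraMap Kb (FN N) 1728)}
    = orbCount N ModularGroup.S

/-- (CUSP DATA) -/
def TargetCusp : Prop :=
  Nat.card {v : Place Kb (FN N) // v.ord (jF N) < 0} = orbCount N ModularGroup.T

/-- (CB1 + S20 combinatorics) -/
def TargetOrbits : Prop :=
  Nat.card (XN N) = ModularCurve.dedekindPsi N ∧
  2 * orbCount N ModularGroup.S = ModularCurve.dedekindPsi N + ModularCurve.nuTwo N ∧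
  3 * orbCount N (ModularGroup.S * ModularGroup.T)
    = ModularCurve.dedekindPsi N + 2 * ModularCurve.nuThree N ∧
  orbCount N ModularGroup.T = ModularCurve.cuspCount N

/-- (INT) -/
def TargetInt : Prop := ∃ g : ℕ, (g : ℚ) = ModularCurve.genusFormula N

theorem result_of_targets
    [HasCanonicalDivisor (K := Kb) (F := FN N)]
    (h0 : TargetNontrivial N) (hRH : TargetRH N) (hgen : TargetGeneric N) (hrho : TargetRho N)
    (hi : TargetI N) (hcusp : TargetCusp N) (horb : TargetOrbits N) (hint : TargetInt N) :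
    (genus Kb (FN N) : ℚ) = ModularCurve.genusFormula N := by
  classical
  haveI : Nontrivial Ω[(FN N)⁄Kb] := h0
  obtain ⟨g, hg⟩ := hint
  obtain ⟨hψ, ho2, ho3, hoc⟩ := horb
  rw [← hg]
  congr 1
  apply genus_eq_of_degree
  intro ω hω D hD
  have hne : (0 : Kb) ≠ 1728 := by norm_num
  have hdeg := hRH {0, 1728} (by
    intro c hc
    simp only [Finset.mem_insert, Finset.mem_singleton, not_or] at hc
    exact hgen c hc.1 hc.2) ω hω D hD
  rw [Finset.sum_pair hne, hrho, hi, hcusp, hψ, hoc] at hdeg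
  exact numerics hdeg ho2 ho3 (by rw [hg]; rfl)

end

end Fermat.Agent.S24
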