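import Fermat.Agent.S24.FF.Places
import Fermat.Agent.S24.FF.Principal
import Fermat.Agent.S24.Differential
import Fermat.Agent.S24.Targets

/-!
# S24, WP FF3: Riemann–Hurwitz assembly

`degree_eq_of_ramification` : the abstract computation of the degree of a canonical divisor
from the ramification of a parameter `x`.
-/

set_option autoImplicit false

open AlgebraicCurve IntermediateField KaehlerDifferential

namespace Fermat.Agent.S24

variable {K F : Type*} [Field K] [Field F] [Algebra K F]

section Abstract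

theorem Place.rh_ne_zero_of_ord_ne_zero (v : Place K F) {f : F} (h : v.ord f ≠ 0) : f ≠ 0 := by
  rintro rfl
  exact h v.ord_zero

/-- A place is a zero of `x - c` for at most one constant `c`. -/
theorem Place.rh_const_unique (v : Place K F) {x : F} {c c' : K}
    (h : 0 < v.ord (x - algebraMap K F c)) (h' : 0 < v.ord (x - algebraMap K F c')) : c = c' := by
  by_contra hne
  have h0 : x - algebraMap K F c ≠ 0 := Place.rh_ne_zero_of_ord_ne_zero v h.ne'
  have h0' : -(x - algebraMap K F c') ≠ 0 :=
    neg_ne_zero.2 (Place.rh_ne_zero_of_ord_ne_zero v h'.ne')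
  have hsum : (x - algebraMap K F c) + -(x - algebraMap K F c') = algebraMap K F (c' - c) := by
    rw [map_sub]; ring
  have hne' : algebraMap K F (c' - c) ≠ 0 := by
    rw [Ne, map_eq_zero, sub_eq_zero]
    exact fun h => hne h.symm
  have := Place.ord_add_ge v h0 h0' (by rw [hsum]; exact hne')
  rw [hsum, Place.ord_algebraMap, Place.ord_neg] at this
  have := min_le_iff.1 this
  omega

/-- A pole of `x` is a pole of `x - c`. -/
theorem Place.rh_ord_sub_const_of_neg (v : Place K F) {x : F} (h : v.ord x < 0) (c : K) :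
    v.ord (x - algebraMap K F c) = v.ord x := by
  rcases eq_or_ne c 0 with rfl | hc
  · simp
  have hx : x ≠ 0 := Place.rh_ne_zero_of_ord_ne_zero v h.ne
  have hc' : -algebraMap K F c ≠ 0 := by simpa using hc
  rw [sub_eq_add_neg]
  apply Place.ord_add_eq_of_lt v hx hc'
  rw [Place.ord_neg, Place.ord_algebraMap]
  exact h

theorem rh_degree_onFinset (hdeg : ∀ v : Place K F, v.deg = 1) (S : Finset (Place K F))
    (e : Place K F → ℤ) (he : ∀ v, e v ≠ 0 → v ∈ S) :
    Divisor.degree (Finsupp.onFinset S e he) = ∑ v ∈ S, e v := by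
  rw [Divisor.degree, Finsupp.liftAddHom_apply, Finsupp.onFinset_sum]
  · refine Finset.sum_congr rfl fun v _ => ?_
    simp [hdeg v]
  · intro v
    simp

/-- **Riemann–Hurwitz**, abstract form. -/
theorem degree_eq_of_ramification
    (x : F) (n : ℕ)
    (hdeg : ∀ v : Place K F, v.deg = 1)
    (hval : ∀ v : Place K F, v.ord x < 0 ∨ ∃ c : K, 0 < v.ord (x - algebraMap K F c))
    (hzfin : ∀ c : K, {v : Place K F | 0 < v.ord (x - algebraMap K F c)}.Finite)
    (hzsum : ∀ c : K, ∑ v ∈ (hzfin c).toFinset, v.ord (x - algebraMap K F c) = (n : ℤ))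
    (hpfin : {v : Place K F | v.ord x < 0}.Finite)
    (hpsum : ∑ v ∈ hpfin.toFinset, v.ord x = -(n : ℤ))
    (hprinc : ∀ f : F, f ≠ 0 → ∀ D : Divisor K F, (∀ v, D v = v.ord f) → Divisor.degree D = 0)
    (hspan : ∀ ω : Ω[F⁄K], ∃ g : F, ω = g • D K F x)
    (hord : ∀ (v : Place K F) (g f : F), g ≠ 0 → v.ord f ≠ 0 →
      v.ordDifferential (g • D K F f) = v.ord g + v.ord f - 1)
    (B : Finset K)
    (hB : ∀ c ∉ B, Nat.card {v : Place K F // 0 < v.ord (x - algebraMap K F c)} = n)
    (ω : Ω[F⁄K]) (hω : ω ≠ 0) (Dv : Divisor K F) (hD : ∀ v, Dv v = v.ordDifferential ω) :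
    Divisor.degree Dv = -2 * (n : ℤ)
      + ∑ c ∈ B, ((n : ℤ) - Nat.card {v : Place K F // 0 < v.ord (x - algebraMap K F c)})
      + ((n : ℤ) - Nat.card {v : Place K F // v.ord x < 0}) := by
  classical
  obtain ⟨g, rfl⟩ := hspan ω
  have hg : g ≠ 0 := by
    rintro rfl
    exact hω (zero_smul _ _)
  set Z : K → Finset (Place K F) := fun c => (hzfin c).toFinset with hZ
  set P : Finset (Place K F) := hpfin.toFinset with hP
  have memZ : ∀ c v, v ∈ Z c ↔ 0 < v.ord (x - algebraMap K F c) := fun c v => by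
    simp [hZ]
  have memP : ∀ v, v ∈ P ↔ v.ord x < 0 := fun v => by simp [hP]
  have cardZ : ∀ c, Nat.card {v : Place K F // 0 < v.ord (x - algebraMap K F c)} = (Z c).card := by
    intro c
    exact (Nat.card_coe_set_eq _).trans (Set.ncard_eq_toFinset_card _ (hzfin c))
  have cardP : Nat.card {v : Place K F // v.ord x < 0} = P.card :=
    (Nat.card_coe_set_eq _).trans (Set.ncard_eq_toFinset_card _ hpfin)
  have hDsub : ∀ c : K, D K F (x - algebraMap K F c) = D K F x := by
    intro c
    rw [map_sub, Derivation.map_algebraMap, sub_zero]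
  set e : Place K F → ℤ := fun v => Dv v - v.ord g with he
  have eZ : ∀ c, ∀ v ∈ Z c, e v = v.ord (x - algebraMap K F c) - 1 := by
    intro c v hv
    have h1 := hord v g (x - algebraMap K F c) hg ((memZ c v).1 hv).ne'
    rw [hDsub] at h1
    simp only [he, hD, h1]
    ring
  have eP : ∀ v ∈ P, e v = v.ord x - 1 := by
    intro v hv
    have h1 := hord v g x hg ((memP v).1 hv).ne
    simp only [he, hD, h1]
    ring
  have sumZ : ∀ c, ∑ v ∈ Z c, e v = (n : ℤ) - (Z c).card := by
    intro c
    rw [Finset.sum_congr rfl (eZ c), Finset.sum_sub_distrib, hzsum c]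
    simp
  have sumP : ∑ v ∈ P, e v = -(n : ℤ) - P.card := by
    rw [Finset.sum_congr rfl eP, Finset.sum_sub_distrib, hpsum]
    simp
  set S : Finset (Place K F) := P ∪ B.biUnion Z with hS
  have hsupp : ∀ v, e v ≠ 0 → v ∈ S := by
    intro v hv
    by_contra hvS
    rw [hS, Finset.mem_union, not_or, Finset.mem_biUnion] at hvS
    rcases hval v with h | ⟨c, hc⟩
    · exact hvS.1 ((memP v).2 h)
    · have hcB : c ∉ B := fun hcB => hvS.2 ⟨c, hcB, (memZ c v).2 hc⟩
      have h1 : ∑ v ∈ Z c, e v = 0 := by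
        rw [sumZ c, ← cardZ c, hB c hcB, sub_self]
      have h2 : ∀ w ∈ Z c, 0 ≤ e w := by
        intro w hw
        rw [eZ c w hw]
        have := (memZ c w).1 hw
        omega
      exact hv ((Finset.sum_eq_zero_iff_of_nonneg h2).1 h1 v ((memZ c v).2 hc))
  set E : Divisor K F := Finsupp.onFinset S e hsupp with hE
  have hG : Divisor.degree (Dv - E) = 0 := by
    apply hprinc g hg
    intro v
    rw [Finsupp.sub_apply, hE, Finsupp.onFinset_apply]
    simp [he]
  rw [map_sub, sub_eq_zero] at hG
  simp only [cardZ, cardP]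
  rw [hG, hE, rh_degree_onFinset hdeg, hS, Finset.sum_union, Finset.sum_biUnion, sumP,
    Finset.sum_congr rfl (fun c _ => sumZ c)]
  · ring
  · intro c _ c' _ hcc'
    rw [Function.onFun, Finset.disjoint_left]
    intro v hv hv'
    exact hcc' (Place.rh_const_unique v ((memZ c v).1 hv) ((memZ c' v).1 hv'))
  · rw [Finset.disjoint_left]
    intro v hv hv'
    obtain ⟨c, _, hc⟩ := Finset.mem_biUnion.1 hv'
    have h1 := (memZ c v).1 hc
    rw [Place.rh_ord_sub_const_of_neg v ((memP v).1 hv)] at h1
    have := (memP v).1 hv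
    omega

end Abstract

section Param

/-- **Riemann–Hurwitz** for a finite parameter `x`. -/
theorem IsFiniteParam.rh_degree_eq [IsAlgClosed K] [CharZero K] {x : F} (hx : IsFiniteParam K x)
    (B : Finset K)
    (hB : ∀ c ∉ B, Nat.card {v : Place K F // 0 < v.ord (x - algebraMap K F c)} =
      Module.finrank K⟮x⟯ F)
    (ω : Ω[F⁄K]) (hω : ω ≠ 0) (Dv : Divisor K F) (hD : ∀ v, Dv v = v.ordDifferential ω) :
    Divisor.degree Dv = -2 * (Module.finrank K⟮x⟯ F : ℤ)
      + ∑ c ∈ B, ((Module.finrank K⟮x⟯ F : ℤ)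
          - Nat.card {v : Place K F // 0 < v.ord (x - algebraMap K F c)})
      + ((Module.finrank K⟮x⟯ F : ℤ) - Nat.card {v : Place K F // v.ord x < 0}) := by
  refine degree_eq_of_ramification x (Module.finrank K⟮x⟯ F) hx.deg_eq_one ?_
    hx.finite_fibre hx.sum_fibre hx.finite_poles hx.sum_poles
    hx.degree_eq_zero_of_principal ?_
    (fun v g f hg hf => ordDifferential_smul_D v (hx.bijective_algebraMap_residueField v).2
      hx.trdeg_le_one hg hf)
    B hB ω hω Dv hD
  · intro v
    by_cases h : v.ord x < 0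
    · exact Or.inl h
    · right
      obtain ⟨c, hc⟩ := hx.exists_value v
        ((Place.mem_iff_ord_nonneg v hx.ne_zero).2 (not_lt.1 h))
      refine ⟨c, hc.resolve_left ?_⟩
      intro h0
      apply hx.transcendental
      rw [h0]
      exact isAlgebraic_algebraMap c
  · intro ω
    have h := span_D_eq_top hx.isAlgebraic_polyRing
    have hω : ω ∈ Submodule.span F {D K F x} := h ▸ Submodule.mem_top
    obtain ⟨g, hg⟩ := Submodule.mem_span_singleton.1 hω
    exact ⟨g, hg.symm⟩

end Param

section Target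

/-- `TargetRH N` from the degree theorem. -/
theorem targetRH_of (N : ℕ) (hx : IsFiniteParam Kb (jF N))
    (hfin : Module.finrank Kb⟮jF N⟯ (FN N) = Nat.card (XN N)) : TargetRH N := by
  intro B hB ω hω D hD
  have h := hx.rh_degree_eq B (by rw [hfin]; exact hB) ω hω D hD
  rw [hfin] at h
  exact h

end Target

end Fermat.Agent.S24
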