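import Fermat.Agent.S24.Targets
import Fermat.Agent.S24.PointTargets
import Fermat.Agent.S24.RH
import Fermat.Agent.S24.IntScott

/-!
Assembly of S24 from the two remaining inputs: `CharpolyCoeff N` and `TargetCusp N`.
-/

set_option autoImplicit false

namespace Fermat.Agent.S24

theorem result_of_charpolyCoeff_of_targetCusp (N : ℕ) [NeZero N]
    [AlgebraicCurve.HasCanonicalDivisor (K := Kb) (F := FN N)]
    (hP : CharpolyCoeff N) (hcusp : TargetCusp N) :
    (AlgebraicCurve.genus Kb (FN N) : ℚ) = ModularCurve.genusFormula N :=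
  result_of_targets N (targetNontrivial_of_charpolyCoeff N hP)
    (targetRH_of N (isFiniteParam_jF_of N hP) (degree_of_charpolyCoeff N hP).2)
    (targetGeneric_of_charpolyCoeff N hP) (targetRho_of_charpolyCoeff N hP)
    (targetI_of_charpolyCoeff N hP) hcusp (targetOrbits N) (targetInt_scott N)

end Fermat.Agent.S24
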