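import Fermat.Agent.S24.Conj
import Fermat.Agent.S24.JAnalytic

/-!
Work package [D1a] of S24: moderate growth of the conjugates of `j_d`.
-/

set_option autoImplicit false

namespace Fermat.Agent.S24

open UpperHalfPlane ModularForm CongruenceSubgroup Filter Topology EisensteinSeries
open Matrix.SpecialLinearGroup Fermat.Agent.Common
open scoped MatrixGroups Manifold

local notation "𝕢" => Function.Periodic.qParam

theorem isSLInvariant_jfun : IsSLInvariant jfun := jfun_isSLInvariant

theorem hasSimplePole_jfun : HasSimplePoleAtImInfty jfun := jfun_hasSimplePoleAtImInfty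

/-- The conjugates of `j_d` have moderate growth at `i∞`. -/
theorem jd_smul_growth (d : ℕ) [NeZero d] (g : SL(2, ℤ)) :
    IsBoundedAtImInfty (fun τ => ModularForm.discriminant τ ^ d * jd d (g • τ)) := by
  obtain ⟨a, b, e, ha, he, hae, -, h⟩ := exists_jd_smul_eq d g
  have har : (0 : ℝ) < a := by exact_mod_cast ha
  have her : (0 : ℝ) < e := by exact_mod_cast he
  have hpos : (0 : ℝ) < (a : ℝ) * e := mul_pos har her
  have h1 : IsBoundedAtImInfty
      (fun τ : ℍ => (ModularForm.discriminant τ / 𝕢 1 (τ : ℂ)) ^ d) :=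
    (discriminant_div_q_tendsto.pow d).isBigO_one ℝ
  have h2 : IsBoundedAtImInfty (fun τ : ℍ => jfun (upperTriangularGL a b e hpos.ne' • τ) *
      𝕢 1 ((upperTriangularGL a b e hpos.ne' • τ : ℍ) : ℂ)) :=
    (jfun_hasSimplePoleAtImInfty.comp (tendsto_upperTriangularGL_smul hpos)).isBigO_one ℝ
  have h3 : IsBoundedAtImInfty (fun τ : ℍ => 𝕢 1 (τ : ℂ) ^ d /
      𝕢 1 ((upperTriangularGL a b e hpos.ne' • τ : ℍ) : ℂ)) := by
    refine Asymptotics.IsBigO.of_bound 1 (Eventually.of_forall fun τ => ?_)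
    rw [norm_div, norm_pow, norm_qParam_coe, norm_qParam_coe, im_upperTriangularGL_smul hpos,
      ← Real.exp_nat_mul, ← Real.exp_sub]
    simp only [Pi.one_apply, norm_one, mul_one]
    rw [Real.exp_le_one_iff]
    have hd : (d : ℝ) = a * e := by exact_mod_cast hae.symm
    have he1 : (1 : ℝ) ≤ e := by exact_mod_cast he
    have h4 : (a : ℝ) / e ≤ d := by
      rw [hd, div_le_iff₀ her]
      nlinarith [mul_le_mul_of_nonneg_left he1 har.le,
        mul_le_mul_of_nonneg_left he1 (mul_pos har her).le]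
    have h5 := τ.im_pos
    have h6 := Real.pi_pos
    have h7 : 0 ≤ ((d : ℝ) - a / e) * (Real.pi * τ.im) :=
      mul_nonneg (sub_nonneg.mpr h4) (mul_pos h6 h5).le
    nlinarith [h7]
  refine ((h1.mul h2).mul h3).congr' (Eventually.of_forall fun τ => ?_) EventuallyEq.rfl
  have hq1 : 𝕢 1 (τ : ℂ) ≠ 0 := Function.Periodic.qParam_ne_zero _
  have hq2 : 𝕢 1 ((upperTriangularGL a b e hpos.ne' • τ : ℍ) : ℂ) ≠ 0 :=
    Function.Periodic.qParam_ne_zero _
  simp only [Pi.mul_apply]
  rw [h hpos.ne' τ, div_pow]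
  field_simp

end Fermat.Agent.S24
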