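import Fermat.Agent.S24.DegreeInst
import Fermat.Agent.S24.JGrowth
import Fermat.Agent.Common.JPoly

/-!
(CP) of S24: the characteristic polynomial of a holomorphic element of the function field has
coefficients in `ℂ[j]`.  Everything lives in the sub-namespace `CPAlt`.
-/

set_option autoImplicit false

namespace Fermat.Agent.S24.CPAlt

open UpperHalfPlane ModularForm CongruenceSubgroup Filter Topology EisensteinSeries Polynomial
open scoped MatrixGroups Manifold

noncomputable section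

local notation "Δ" => ModularForm.discriminant

/-- Moderate growth at `i∞`. -/
def ModG (f : ℍ → ℂ) : Prop := ∃ m : ℕ, IsBoundedAtImInfty (fun τ => Δ τ ^ m * f τ)

theorem isBounded_discriminant : IsBoundedAtImInfty Δ :=
  Delta_tendsto.isBigO_one ℝ

theorem isBounded_discriminant_pow (k : ℕ) : IsBoundedAtImInfty (fun τ => Δ τ ^ k) :=
  (Delta_tendsto.pow k).isBigO_one ℝ

theorem ModG.mono {f : ℍ → ℂ} {m n : ℕ} (hmn : m ≤ n)
    (h : IsBoundedAtImInfty (fun τ => Δ τ ^ m * f τ)) :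
    IsBoundedAtImInfty (fun τ => Δ τ ^ n * f τ) := by
  obtain ⟨k, rfl⟩ := Nat.exists_eq_add_of_le hmn
  refine ((isBounded_discriminant_pow k).mul h).congr' (Eventually.of_forall fun τ => ?_)
    EventuallyEq.rfl
  simp only [Pi.mul_apply]
  ring

theorem ModG.add {f g : ℍ → ℂ} (hf : ModG f) (hg : ModG g) : ModG (f + g) := by
  obtain ⟨m, hm⟩ := hf
  obtain ⟨n, hn⟩ := hg
  refine ⟨max m n, ?_⟩
  refine ((ModG.mono (le_max_left m n) hm).add (ModG.mono (le_max_right m n) hn)).congr'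
    (Eventually.of_forall fun τ => ?_) EventuallyEq.rfl
  simp only [Pi.add_apply]
  ring

theorem ModG.mul {f g : ℍ → ℂ} (hf : ModG f) (hg : ModG g) : ModG (f * g) := by
  obtain ⟨m, hm⟩ := hf
  obtain ⟨n, hn⟩ := hg
  refine ⟨m + n, ?_⟩
  refine (hm.mul hn).congr' (Eventually.of_forall fun τ => ?_) EventuallyEq.rfl
  simp only [Pi.mul_apply]
  ring

theorem ModG.const (c : ℂ) : ModG (fun _ => c) :=
  ⟨0, by simp only [pow_zero, one_mul]; exact Filter.const_boundedAtFilter atImInfty c⟩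

/-- Holomorphic functions of moderate growth at `i∞`. -/
def MG : Subalgebra ℂ Hol where
  carrier := {f | ModG (f : ℍ → ℂ)}
  mul_mem' hf hg := ModG.mul hf hg
  add_mem' hf hg := ModG.add hf hg
  algebraMap_mem' c := ModG.const c

/-- `Γ₀(N)`-invariant holomorphic functions all of whose conjugates have moderate growth. -/
def RN (N : ℕ) : Subalgebra ℂ Hol where
  carrier := {f | (∀ γ ∈ Gamma0 N, actHol γ f = f) ∧ ∀ g : SL(2, ℤ), actHol g f ∈ MG}
  mul_mem' := by
    rintro f g ⟨hf1, hf2⟩ ⟨hg1, hg2⟩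
    refine ⟨fun γ hγ => by rw [map_mul, hf1 γ hγ, hg1 γ hγ], fun s => ?_⟩
    rw [map_mul]; exact mul_mem (hf2 s) (hg2 s)
  add_mem' := by
    rintro f g ⟨hf1, hf2⟩ ⟨hg1, hg2⟩
    refine ⟨fun γ hγ => by rw [map_add, hf1 γ hγ, hg1 γ hγ], fun s => ?_⟩
    rw [map_add]; exact add_mem (hf2 s) (hg2 s)
  algebraMap_mem' c :=
    ⟨fun γ _ => AlgEquiv.commutes _ c, fun s => by
      rw [AlgEquiv.commutes]; exact MG.algebraMap_mem c⟩

theorem jdHol_mem_RN {N d : ℕ} [NeZero d] (hd : d ∣ N) : jdHol d ∈ RN N := by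
  refine ⟨fun γ hγ => actHol_jdHol_of_mem jfun_isSLInvariant hd hγ, fun g => ⟨d, ?_⟩⟩
  exact jd_smul_growth d g⁻¹

/-- The characteristic polynomial over `Hol`. -/
def cpHol (N : ℕ) [NeZero N] (f : Hol) : Hol[X] :=
  ∏ x : XN N, (X - C (actHol (Quotient.out x) f))

theorem actHol_out_smul {N : ℕ} {f : Hol} (hf : ∀ γ ∈ Gamma0 N, actHol γ f = f)
    (g : SL(2, ℤ)) (x : XN N) :
    actHol (Quotient.out (g • x)) f = actHol g (actHol (Quotient.out x) f) := by
  have h1 : ((Quotient.out (g • x) : SL(2, ℤ)) : XN N) = ((g * Quotient.out x : SL(2, ℤ)) : XN N) := by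
    rw [QuotientGroup.out_eq']
    conv_lhs => rw [← QuotientGroup.out_eq' x]
    rfl
  have h2 : (g * Quotient.out x)⁻¹ * Quotient.out (g • x) ∈ Gamma0 N :=
    QuotientGroup.eq.mp h1.symm
  have h3 : Quotient.out (g • x) = g * Quotient.out x * ((g * Quotient.out x)⁻¹ * Quotient.out (g • x)) := by
    group
  rw [h3, map_mul, map_mul]
  simp only [AlgEquiv.mul_apply]
  rw [hf _ h2]

theorem map_actHol_cpHol {N : ℕ} [NeZero N] {f : Hol} (hf : ∀ γ ∈ Gamma0 N, actHol γ f = f)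
    (g : SL(2, ℤ)) : (cpHol N f).map (actHol g : Hol ≃ₐ[ℂ] Hol).toAlgHom.toRingHom = cpHol N f := by
  unfold cpHol
  rw [Polynomial.map_prod]
  rw [← Equiv.prod_comp (MulAction.toPerm g : Equiv.Perm (XN N))
    (fun x : XN N => (X - C (actHol (Quotient.out x) f) : Hol[X]))]
  refine Finset.prod_congr rfl fun x _ => ?_
  rw [Polynomial.map_sub, Polynomial.map_X, Polynomial.map_C, MulAction.toPerm_apply,
    actHol_out_smul hf]
  rfl

theorem actHol_coeff_cpHol {N : ℕ} [NeZero N] {f : Hol} (hf : ∀ γ ∈ Gamma0 N, actHol γ f = f)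
    (g : SL(2, ℤ)) (i : ℕ) : actHol g ((cpHol N f).coeff i) = (cpHol N f).coeff i := by
  conv_rhs => rw [← map_actHol_cpHol hf g, Polynomial.coeff_map]
  rfl

theorem coeff_cpHol_mem_MG {N : ℕ} [NeZero N] {f : Hol} (hf : ∀ g : SL(2, ℤ), actHol g f ∈ MG)
    (i : ℕ) : (cpHol N f).coeff i ∈ MG := by
  unfold cpHol
  revert i
  refine Finset.prod_induction _ (fun P : Hol[X] => ∀ i, P.coeff i ∈ MG) ?_ ?_ ?_
  · intro P Q hP hQ i
    rw [Polynomial.coeff_mul]
    exact Subalgebra.sum_mem _ fun x _ => mul_mem (hP _) (hQ _)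
  · intro i
    rw [Polynomial.coeff_one]
    split_ifs
    · exact one_mem _
    · exact zero_mem _
  · intro x _ i
    rw [Polynomial.coeff_sub, Polynomial.coeff_X, Polynomial.coeff_C]
    refine sub_mem ?_ ?_
    · split_ifs
      · exact one_mem _
      · exact zero_mem _
    · split_ifs
      · exact hf _
      · exact zero_mem _

theorem aeval_hol_apply (h : Hol) (p : ℂ[X]) (τ : ℍ) :
    ((aeval h p : Hol) : ℍ → ℂ) τ = p.eval ((h : ℍ → ℂ) τ) := by
  have := Polynomial.aeval_algHom_apply ((Pi.evalAlgHom ℂ (fun _ : ℍ => ℂ) τ).comp Hol.val) h p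
  rw [← Polynomial.coe_aeval_eq_eval]
  exact this.symm

theorem exists_coeff_cpHol_eq {N : ℕ} [NeZero N] {f : Hol} (hf : f ∈ RN N) (i : ℕ) :
    ∃ p : ℂ[X], (cpHol N f).coeff i = aeval (jdHol (1 : ℕ) : Hol) p := by
  obtain ⟨m, hm⟩ := coeff_cpHol_mem_MG (N := N) hf.2 i
  obtain ⟨p, -, hp⟩ := Fermat.Agent.Common.JPoly.exists_polynomial_of_invariant
    (((cpHol N f).coeff i : Hol) : ℍ → ℂ) ((cpHol N f).coeff i).2
    (fun γ τ => by
      have h := congrArg (fun u : Hol => (u : ℍ → ℂ) τ) (actHol_coeff_cpHol hf.1 γ⁻¹ i)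
      simp only [actHol_apply, inv_inv] at h
      exact h) m hm
  refine ⟨p, Subtype.ext (funext fun τ => ?_)⟩
  rw [hp τ, aeval_hol_apply, coe_jdHol, jd_one]
  rfl

theorem adjoin_le_map_RN (N : ℕ) :
    Algebra.adjoin ℂ (ThetaMer N '' genSetF N) ≤ (RN N).map (IsScalarTower.toAlgHom ℂ Hol Mer) := by
  rw [Algebra.adjoin_le_iff]
  rintro _ ⟨_, ⟨d, hd0, hd, rfl⟩, rfl⟩
  exact ⟨jdHol d, jdHol_mem_RN hd, (ThetaMer_jBar N d hd).symm⟩

theorem charpolyCoeff (N : ℕ) [NeZero N] : CharpolyCoeff N := by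
  intro θ hθ i
  obtain ⟨f, hf, hfθ⟩ := adjoin_le_map_RN N hθ
  have hθ' : θ = algebraMap Hol Mer f := hfθ.symm
  subst hθ'
  obtain ⟨p, hp⟩ := exists_coeff_cpHol_eq hf i
  refine ⟨p, ?_⟩
  have h : (∏ x : XN N, (X - C (actMer (Quotient.out x) (algebraMap Hol Mer f)))) =
      (cpHol N f).map (algebraMap Hol Mer) := by
    unfold cpHol
    rw [Polynomial.map_prod]
    refine Finset.prod_congr rfl fun x _ => ?_
    rw [Polynomial.map_sub, Polynomial.map_X, Polynomial.map_C, ← actMer_algebraMap]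
  rw [h, Polynomial.coeff_map, hp]
  exact (Polynomial.aeval_algHom_apply (IsScalarTower.toAlgHom ℂ Hol Mer) (jdHol 1) p).symm

end

end Fermat.Agent.S24.CPAlt
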