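import Mathlib
import Fermat.Agent.S24.FF.PlaceCount

set_option autoImplicit false

namespace Fermat.Agent.S24

open AlgebraicCurve WithZero IntermediateField

variable {K F : Type*} [Field K] [Field F] [Algebra K F]

section Orbits

variable {G X : Type*} [Group G] [MulAction G X]

/-- The fibre of the orbit map of `zpowers s` has `minimalPeriod` many elements. -/
theorem card_fibre_orbit_zpowers (s : G) (i : X) :
    Nat.card {j : X // (Quotient.mk'' j : MulAction.orbitRel.Quotient (Subgroup.zpowers s) X) =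
      Quotient.mk'' i} = Function.minimalPeriod (fun x : X => s • x) i := by
  have e : {j : X // (Quotient.mk'' j : MulAction.orbitRel.Quotient (Subgroup.zpowers s) X) =
      Quotient.mk'' i} ≃ MulAction.orbit (Subgroup.zpowers s) i :=
    Equiv.subtypeEquivRight fun j => by
      rw [Quotient.eq'']
      exact MulAction.orbitRel_apply
  rw [Nat.card_congr e, Nat.card_congr (MulAction.orbitZPowersEquiv s i), Nat.card_zmod]

theorem minimalPeriod_eq_of_prime [DecidableEq X] {p : ℕ} (hp : p.Prime) (s : G)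
    (hs : ∀ x : X, s ^ p • x = x) (i : X) :
    Function.minimalPeriod (fun x : X => s • x) i = if s • i = i then 1 else p := by
  have hper : Function.IsPeriodicPt (fun x : X => s • x) p i := by
    show (fun x : X => s • x)^[p] i = i
    rw [smul_iterate]
    exact hs i
  have hdvd := hper.minimalPeriod_dvd
  split_ifs with h
  · exact Function.minimalPeriod_eq_one_iff_isFixedPt.mpr h
  · rcases (Nat.dvd_prime hp).mp hdvd with h1 | h1
    · exact absurd (Function.minimalPeriod_eq_one_iff_isFixedPt.mp h1) h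
    · exact h1

end Orbits

/-- **Counting places over an elliptic point**: an automorphism `A` of the valued field `E`
of prime order `p` permuting the embeddings. -/
theorem card_zeros_eq_card_orbits
    (y : F) [FiniteDimensional K⟮y⟯ F] [Algebra.IsSeparable K⟮y⟯ F]
    (hfin : {v : Place K F | 0 < v.ord y}.Finite)
    (hsum : ∑ v ∈ hfin.toFinset, v.ord y = (Module.finrank K⟮y⟯ F : ℤ))
    (hF0 : ∀ O : ValuationSubring F, (∀ a : K, algebraMap K F a ∈ O) → y ∈ O → O ≠ ⊤ →
      ∃ v : Place K F, v.toValuationSubring = O)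
    (hF23 : ∀ (v0 : Place K F) (S : Finset (Place K F)), 0 < v0.ord y → v0 ∉ S →
      (∀ v ∈ S, 0 < v.ord y) → ∃ b : F, b ≠ 0 ∧ (∀ v ∈ S, v.ord b = 0) ∧
        ∃ g : Polynomial K, algebraMap K⟮y⟯ F (Algebra.norm K⟮y⟯ b) = y * Polynomial.aeval y g)
    {E : Type*} [Field E] (w : Valuation E ℤᵐ⁰)
    {G X : Type*} [Group G] [MulAction G X] [Fintype X]
    (hcard : Fintype.card X = Module.finrank K⟮y⟯ F)
    (σ : X → F →+* E) (hσ : Function.Injective σ)
    (hK : ∀ i j (a : K), σ i (algebraMap K F a) = σ j (algebraMap K F a))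
    (hy : ∀ i j, σ i y = σ j y)
    (hwK : ∀ i (a : K), a ≠ 0 → w (σ i (algebraMap K F a)) = 1)
    (p : ℕ) (hp : p.Prime) (hwy : ∀ i, w (σ i y) = exp (-(p : ℤ)))
    (s : G) (hs : ∀ x : X, s ^ p • x = x)
    (A : E →+* E) (hA : ∀ x f, A (σ x f) = σ (s • x) f) (hwA : ∀ u, w (A u) = w u)
    (hrot : ∀ u : E, u ≠ 0 → A u = u → ∃ k : ℤ, w u = exp ((p : ℤ) * k)) :
    Nat.card {v : Place K F // 0 < v.ord y} =
      Nat.card (MulAction.orbitRel.Quotient (Subgroup.zpowers s) X) := by
  classical
  let _ : Fintype (MulAction.orbitRel.Quotient (Subgroup.zpowers s) X) := Fintype.ofFinite _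
  rw [Nat.card_eq_fintype_card (α := MulAction.orbitRel.Quotient (Subgroup.zpowers s) X)]
  have hstep : ∀ x f, w (σ (s • x) f) = w (σ x f) := fun x f => by rw [← hA, hwA]
  have hz : ∀ (k : ℤ) x f, w (σ (s ^ k • x) f) = w (σ x f) := by
    intro k
    induction k using Int.induction_on with
    | zero => intro x f; simp
    | succ n ih =>
      intro x f
      rw [zpow_add_one, mul_smul, ih, hstep]
    | pred n ih =>
      intro x f
      rw [zpow_sub_one, mul_smul, ih, ← hstep (s⁻¹ • x) f, smul_inv_smul]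
  refine card_zeros_eq_of_embeddings y hfin hsum hF0 hF23 w hcard σ hσ hK hy hwK p hp.pos hwy
    (fun x => (Quotient.mk'' x : MulAction.orbitRel.Quotient (Subgroup.zpowers s) X))
    Quotient.mk''_surjective ?_ (fun i => if s • i = i then p else 1) ?_ ?_
  · intro i j hij f
    rw [Quotient.eq''] at hij
    obtain ⟨⟨g, k, rfl⟩, rfl⟩ := MulAction.orbitRel_apply.mp hij
    exact hz k j f
  · intro i
    rw [card_fibre_orbit_zpowers, minimalPeriod_eq_of_prime hp s hs]
    split_ifs <;> simp
  · intro i f hf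
    have hu : σ i f ≠ 0 := (map_ne_zero (σ i)).mpr hf
    split_ifs with h
    · exact hrot _ hu (by rw [hA, h])
    · refine ⟨log (w (σ i f)), ?_⟩
      rw [Nat.cast_one, one_mul, exp_log ((Valuation.ne_zero_iff w).mpr hu)]

/-- **Counting places over an unramified point.** -/
theorem card_zeros_eq_card
    (y : F) [FiniteDimensional K⟮y⟯ F] [Algebra.IsSeparable K⟮y⟯ F]
    (hfin : {v : Place K F | 0 < v.ord y}.Finite)
    (hsum : ∑ v ∈ hfin.toFinset, v.ord y = (Module.finrank K⟮y⟯ F : ℤ))
    (hF0 : ∀ O : ValuationSubring F, (∀ a : K, algebraMap K F a ∈ O) → y ∈ O → O ≠ ⊤ →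
      ∃ v : Place K F, v.toValuationSubring = O)
    (hF23 : ∀ (v0 : Place K F) (S : Finset (Place K F)), 0 < v0.ord y → v0 ∉ S →
      (∀ v ∈ S, 0 < v.ord y) → ∃ b : F, b ≠ 0 ∧ (∀ v ∈ S, v.ord b = 0) ∧
        ∃ g : Polynomial K, algebraMap K⟮y⟯ F (Algebra.norm K⟮y⟯ b) = y * Polynomial.aeval y g)
    {E : Type*} [Field E] (w : Valuation E ℤᵐ⁰)
    {X : Type*} [Fintype X]
    (hcard : Fintype.card X = Module.finrank K⟮y⟯ F)
    (σ : X → F →+* E) (hσ : Function.Injective σ)
    (hK : ∀ i j (a : K), σ i (algebraMap K F a) = σ j (algebraMap K F a))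
    (hy : ∀ i j, σ i y = σ j y)
    (hwK : ∀ i (a : K), a ≠ 0 → w (σ i (algebraMap K F a)) = 1)
    (hwy : ∀ i, w (σ i y) = exp (-(1 : ℤ))) :
    Nat.card {v : Place K F // 0 < v.ord y} = Fintype.card X := by
  classical
  refine card_zeros_eq_of_embeddings y hfin hsum hF0 hF23 w hcard σ hσ hK hy hwK 1 one_pos
    (by simpa using hwy) id Function.surjective_id ?_ (fun _ => 1) ?_ ?_
  · rintro i j rfl f
    rfl
  · intro i
    simp
  · intro i f hf
    have hu : σ i f ≠ 0 := (map_ne_zero (σ i)).mpr hf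
    refine ⟨log (w (σ i f)), ?_⟩
    rw [Nat.cast_one, one_mul, exp_log ((Valuation.ne_zero_iff w).mpr hu)]

end Fermat.Agent.S24
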