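import Fermat.Agent.S24.ToMer
import Fermat.Agent.S24.Rot
import Fermat.Prelude.Def_ModularCurve_X0ModL

/-!
# More on `HolPer h`: translation `τ ↦ τ + 1` and change of period (WP 55)
-/

set_option autoImplicit false

open UpperHalfPlane Function Complex
open scoped Manifold MatrixGroups Real

noncomputable section

namespace Fermat.Agent.S24

local notation "𝕢" => Periodic.qParam

/-- Periodicity of `f ∘ ofComplex` in terms of `f`. -/
theorem periodic_comp_ofComplex_iff {f : ℍ → ℂ} {c : ℝ} :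
    Periodic (f ∘ ofComplex) (c : ℂ) ↔ ∀ τ : ℍ, f (c +ᵥ τ) = f τ := by
  constructor
  · intro hf τ
    have := hf (τ : ℂ)
    simp only [comp_apply, ofComplex_apply] at this
    rw [← this]
    congr 1
    have h2 : ((τ : ℂ) + (c : ℂ)) = ((c +ᵥ τ : ℍ) : ℂ) := by rw [coe_vadd]; ring
    rw [h2, ofComplex_apply]
  · intro hf z
    simp only [comp_apply]
    by_cases hz : 0 < z.im
    · have h1 : z = ((⟨z, hz⟩ : ℍ) : ℂ) := rfl
      have h2 : z + (c : ℂ) = ((c +ᵥ (⟨z, hz⟩ : ℍ) : ℍ) : ℂ) := by rw [coe_vadd]; simp [add_comm]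
      rw [h2, ofComplex_apply, hf]
      conv_rhs => rw [h1, ofComplex_apply]
    · rw [not_lt] at hz
      rw [ofComplex_apply_eq_of_im_nonpos (w := z + c) (w' := z) (by simpa using hz) hz]

theorem mem_HolPer_iff {h : ℕ} {f : ℍ → ℂ} :
    f ∈ HolPer h ↔ MDiff f ∧ (∀ τ : ℍ, f ((h : ℝ) +ᵥ τ) = f τ) ∧ IsBoundedAtImInfty f := by
  rw [mem_HolPer, periodic_comp_ofComplex_iff]

theorem HolPer.vadd_apply {h : ℕ} (f : HolPer h) (τ : ℍ) :
    (f : ℍ → ℂ) ((h : ℝ) +ᵥ τ) = (f : ℍ → ℂ) τ := (mem_HolPer_iff.mp f.2).2.1 τ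

/-- uniqueness of `q`-expansions for plain functions -/
theorem qExpansion_coeff_unique_fun {h : ℝ} {f : ℍ → ℂ} {c : ℕ → ℂ} (hh : 0 < h)
    (hfanalytic : AnalyticAt ℂ (cuspFunction h f) 0)
    (hf : ∀ τ : ℍ, HasSum (fun m ↦ c m • 𝕢 h τ ^ m) (f τ)) (m : ℕ) :
    c m = (qExpansion h f).coeff m :=
  @qExpansion_coeff_unique (ℍ → ℂ) ⟨fun g => g, fun _ _ h => h⟩ h f _ hh hfanalytic hf m

/-! ### Translation -/

theorem shift_mem_HolPer {h : ℕ} {f : ℍ → ℂ} (hf : f ∈ HolPer h) :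
    (fun τ => f ((1 : ℝ) +ᵥ τ)) ∈ HolPer h := by
  rw [mem_HolPer_iff] at hf ⊢
  obtain ⟨h1, h2, h3⟩ := hf
  refine ⟨?_, ?_, ?_⟩
  · have := (actHol ModularGroup.T⁻¹ ⟨f, h1⟩).2
    have h4 : ((actHol ModularGroup.T⁻¹ ⟨f, h1⟩ : Hol) : ℍ → ℂ) = fun τ => f ((1 : ℝ) +ᵥ τ) := by
      funext τ
      rw [actHol_apply, inv_inv, modular_T_smul]
    rw [← h4]; exact this
  · intro τ
    rw [vadd_comm, h2]
  · rw [isBoundedAtImInfty_iff] at h3 ⊢
    obtain ⟨M, A, hMA⟩ := h3
    exact ⟨M, A, fun z hz => hMA _ (by rwa [vadd_im])⟩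

/-- Translation by `1` on `HolPer h`. -/
def shiftHolPer (h : ℕ) : HolPer h →ₐ[ℂ] HolPer h where
  toFun f := ⟨fun τ => (f : ℍ → ℂ) ((1 : ℝ) +ᵥ τ), shift_mem_HolPer f.2⟩
  map_one' := rfl
  map_mul' _ _ := rfl
  map_zero' := rfl
  map_add' _ _ := rfl
  commutes' _ := rfl

@[simp] theorem shiftHolPer_apply (h : ℕ) (f : HolPer h) (τ : ℍ) :
    (shiftHolPer h f : ℍ → ℂ) τ = (f : ℍ → ℂ) ((1 : ℝ) +ᵥ τ) := rfl

theorem shiftHolPer_injective (h : ℕ) : Injective (shiftHolPer h) := by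
  intro a b hab
  apply Subtype.ext
  funext τ
  have := congrFun (congrArg Subtype.val hab) ((-1 : ℝ) +ᵥ τ)
  simpa [vadd_vadd] using this

theorem inclHol_shiftHolPer (h : ℕ) (f : HolPer h) :
    inclHol h (shiftHolPer h f) = actHol ModularGroup.T⁻¹ (inclHol h f) := by
  apply Subtype.ext
  funext τ
  rw [actHol_apply, inv_inv, modular_T_smul]
  rfl

variable (h : ℕ) [NeZero h]

/-- `exp (2πi/h)` as a unit. -/
def zetaU : ℂˣ := Units.mk0 (Complex.exp (2 * π * Complex.I / h)) (Complex.exp_ne_zero _)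

@[simp] theorem coe_zetaU : ((zetaU h : ℂˣ) : ℂ) = Complex.exp (2 * π * Complex.I / h) := rfl

theorem isPrimitiveRoot_zetaU : IsPrimitiveRoot (zetaU h) h := by
  rw [← IsPrimitiveRoot.coe_units_iff]
  exact Complex.isPrimitiveRoot_exp h (NeZero.ne h)

theorem qParam_vadd_one (τ : ℍ) :
    𝕢 (h : ℝ) (((1 : ℝ) +ᵥ τ : ℍ) : ℂ) = (zetaU h : ℂ) * 𝕢 (h : ℝ) (τ : ℂ) := by
  rw [coe_zetaU, Periodic.qParam, Periodic.qParam, ← Complex.exp_add, coe_vadd]
  congr 1
  push_cast
  ring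

theorem qExpansion_shift_coeff (f : HolPer h) (n : ℕ) :
    (qExpansion (h : ℝ) (shiftHolPer h f : ℍ → ℂ)).coeff n =
      (zetaU h : ℂ) ^ n * (qExpansion (h : ℝ) (f : ℍ → ℂ)).coeff n := by
  refine (qExpansion_coeff_unique_fun (HolPer.pos h) (HolPer.analyticAt h (shiftHolPer h f))
    (c := fun n => (zetaU h : ℂ) ^ n * (qExpansion (h : ℝ) (f : ℍ → ℂ)).coeff n) ?_ n).symm
  intro τ
  have := hasSum_qExpansion (HolPer.pos h) f.2.2.1 f.2.1 f.2.2.2 ((1 : ℝ) +ᵥ τ)
  rw [qParam_vadd_one] at this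
  have h2 : (fun m : ℕ => ((zetaU h : ℂ) ^ m * (qExpansion (h : ℝ) (f : ℍ → ℂ)).coeff m) •
      𝕢 (h : ℝ) (τ : ℂ) ^ m) = fun m : ℕ => (qExpansion (h : ℝ) (f : ℍ → ℂ)).coeff m •
      ((zetaU h : ℂ) * 𝕢 (h : ℝ) (τ : ℂ)) ^ m := by
    funext m
    simp only [smul_eq_mul, mul_pow]
    ring
  rw [h2]
  exact this

theorem ofPowerSeries_coeff_neg (p : PowerSeries ℂ) {k : ℤ} (hk : k < 0) :
    (HahnSeries.ofPowerSeries ℤ ℂ p).coeff k = 0 :=
  ModularCurve.ofPowerSeries_coeff_of_neg p hk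

theorem qExpLaurent_shift (f : HolPer h) :
    qExpLaurent h (shiftHolPer h f) = rot (zetaU h) (qExpLaurent h f) := by
  ext k
  rw [rot_coeff]
  show (HahnSeries.ofPowerSeries ℤ ℂ (qExpansion (h : ℝ) (shiftHolPer h f : ℍ → ℂ))).coeff k =
    _ * (HahnSeries.ofPowerSeries ℤ ℂ (qExpansion (h : ℝ) (f : ℍ → ℂ))).coeff k
  rcases le_or_gt 0 k with hk | hk
  · lift k to ℕ using hk
    rw [HahnSeries.ofPowerSeries_apply_coeff, HahnSeries.ofPowerSeries_apply_coeff,
      qExpansion_shift_coeff]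
    simp
  · rw [ofPowerSeries_coeff_neg _ hk, ofPowerSeries_coeff_neg _ hk, mul_zero]

/-- Translation by `1` on `MerPer h`. -/
def shiftMer : MerPer h →+* MerPer h :=
  IsFractionRing.map (A := HolPer h) (B := HolPer h) (K := MerPer h) (L := MerPer h)
    (j := (shiftHolPer h).toRingHom) (shiftHolPer_injective h)

theorem shiftMer_algebraMap (f : HolPer h) :
    shiftMer h (algebraMap (HolPer h) (MerPer h) f) =
      algebraMap (HolPer h) (MerPer h) (shiftHolPer h f) :=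
  IsLocalization.map_eq (S := MerPer h) (Q := MerPer h) (g := (shiftHolPer h).toRingHom)
    (nonZeroDivisors_le_comap_nonZeroDivisors_of_injective _ (shiftHolPer_injective h)) f

theorem toLaurent_shiftMer (u : MerPer h) :
    toLaurent h (shiftMer h u) = rot (zetaU h) (toLaurent h u) := by
  obtain ⟨a, b, -, rfl⟩ := IsFractionRing.div_surjective (A := HolPer h) u
  rw [map_div₀, map_div₀, map_div₀, shiftMer_algebraMap, shiftMer_algebraMap, rot_div]
  have key : ∀ f : HolPer h, toLaurent h (algebraMap (HolPer h) (MerPer h) f) = qExpLaurent h f :=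
    fun f => toLaurent_algebraMap h f
  rw [key, key, key, key, qExpLaurent_shift, qExpLaurent_shift]

theorem toMer_shiftMer (u : MerPer h) :
    toMer h (shiftMer h u) = actMer ModularGroup.T⁻¹ (toMer h u) := by
  obtain ⟨a, b, -, rfl⟩ := IsFractionRing.div_surjective (A := HolPer h) u
  rw [map_div₀, map_div₀, map_div₀, map_div₀, shiftMer_algebraMap, shiftMer_algebraMap,
    toMer_algebraMap, toMer_algebraMap, toMer_algebraMap, toMer_algebraMap, actMer_algebraMap,
    actMer_algebraMap, inclHol_shiftHolPer, inclHol_shiftHolPer]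

/-- If `u' = u(· + 1)` in `Mer`, then the `q_h`-expansions differ by the rotation. -/
theorem toLaurent_eq_rot_of_toMer_eq {u u' : MerPer h}
    (hu : toMer h u' = actMer ModularGroup.T⁻¹ (toMer h u)) :
    toLaurent h u' = rot (zetaU h) (toLaurent h u) := by
  rw [← toMer_shiftMer] at hu
  rw [toMer_injective h hu, toLaurent_shiftMer]

/-- If `u' = u(· - 1)` in `Mer`, then the `q_h`-expansions differ by the inverse rotation. -/
theorem toLaurent_eq_rot_inv_of_toMer_eq {u u' : MerPer h}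
    (hu : toMer h u' = actMer ModularGroup.T (toMer h u)) :
    toLaurent h u' = rot (zetaU h)⁻¹ (toLaurent h u) := by
  have h1 : toMer h u = actMer ModularGroup.T⁻¹ (toMer h u') := by
    rw [hu, ← AlgEquiv.mul_apply, ← map_mul]; simp
  rw [toLaurent_eq_rot_of_toMer_eq h h1, rot_rot]; simp

/-- The range of `toMer h` is stable under `actMer T`. -/
theorem actMer_T_inv_mem_range (u : MerPer h) :
    actMer ModularGroup.T⁻¹ (toMer h u) ∈ (toMer h).fieldRange :=
  ⟨shiftMer h u, toMer_shiftMer h u⟩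

/-! ### Change of period -/

theorem HolPer_le_mul (M : ℕ) : HolPer h ≤ HolPer (M * h) := by
  intro f hf
  rw [mem_HolPer] at hf ⊢
  refine ⟨hf.1, ?_, hf.2.2⟩
  have := hf.2.1.nat_mul M
  have e : (((M * h : ℕ) : ℝ) : ℂ) = (M : ℂ) * ((h : ℝ) : ℂ) := by push_cast; ring
  rw [e]; exact this

theorem HolPer_le_of_dvd {h N : ℕ} (hN : h ∣ N) : HolPer h ≤ HolPer N := by
  obtain ⟨M, rfl⟩ := hN
  intro f hf
  rw [mem_HolPer] at hf ⊢
  refine ⟨hf.1, ?_, hf.2.2⟩
  have := hf.2.1.nat_mul M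
  have e : (((h * M : ℕ) : ℝ) : ℂ) = (M : ℂ) * ((h : ℝ) : ℂ) := by push_cast; ring
  rw [e]; exact this

/-- The inclusion `HolPer h → HolPer N` for `h ∣ N`. -/
def inclPer {h N : ℕ} (hN : h ∣ N) : HolPer h →ₐ[ℂ] HolPer N :=
  Subalgebra.inclusion (HolPer_le_of_dvd hN)

@[simp] theorem coe_inclPer {h N : ℕ} (hN : h ∣ N) (f : HolPer h) :
    (inclPer hN f : ℍ → ℂ) = f := rfl

theorem inclPer_injective {h N : ℕ} (hN : h ∣ N) : Injective (inclPer hN) :=
  Subalgebra.inclusion_injective _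

theorem qExpLaurent_inclPer {N M : ℕ} [NeZero N] [NeZero M] (hN : N = M * h) (f : HolPer h) :
    qExpLaurent N (inclPer (Dvd.intro_left M hN.symm) f) =
      ModularCurve.qExpand ℂ M (qExpLaurent h f) := by
  have hM : 0 < M := Nat.pos_of_ne_zero (NeZero.ne M)
  have hc : ∀ n : ℕ, (qExpansion (N : ℝ) (f : ℍ → ℂ)).coeff n =
      if M ∣ n then (qExpansion (h : ℝ) (f : ℍ → ℂ)).coeff (n / M) else 0 := by
    intro n
    have := UpperHalfPlane.qExpansion_coeff_nat_mul (HolPer.pos h) f.2.2.1 f.2.1 f.2.2.2 hM n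
    rw [← this, hN]
    push_cast
    rfl
  ext k
  show (HahnSeries.ofPowerSeries ℤ ℂ (qExpansion (N : ℝ) (f : ℍ → ℂ))).coeff k =
    (ModularCurve.qExpand ℂ M
      (HahnSeries.ofPowerSeries ℤ ℂ (qExpansion (h : ℝ) (f : ℍ → ℂ)))).coeff k
  by_cases hk : (M : ℤ) ∣ k
  · obtain ⟨m, rfl⟩ := hk
    rw [ModularCurve.qExpand_coeff_mul]
    rcases le_or_gt 0 m with hm | hm
    · lift m to ℕ using hm
      rw [show (M : ℤ) * (m : ℤ) = ((M * m : ℕ) : ℤ) by push_cast; ring,
        HahnSeries.ofPowerSeries_apply_coeff, HahnSeries.ofPowerSeries_apply_coeff,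
        hc, if_pos (dvd_mul_right _ _), Nat.mul_div_cancel_left _ hM]
    · rw [ofPowerSeries_coeff_neg _ hm, ofPowerSeries_coeff_neg]
      exact mul_neg_of_pos_of_neg (by exact_mod_cast hM) hm
  · rw [ModularCurve.qExpand_coeff_of_not_dvd _ _ hk]
    rcases le_or_gt 0 k with hk0 | hk0
    · lift k to ℕ using hk0
      rw [HahnSeries.ofPowerSeries_apply_coeff, hc, if_neg (fun h => hk (by exact_mod_cast h))]
    · exact ofPowerSeries_coeff_neg _ hk0

/-- The inclusion `MerPer h → MerPer N` for `h ∣ N`. -/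
def inclMerPer {N : ℕ} [NeZero N] (hN : h ∣ N) : MerPer h →+* MerPer N :=
  IsFractionRing.map (A := HolPer h) (B := HolPer N) (K := MerPer h) (L := MerPer N)
    (j := (inclPer hN).toRingHom) (inclPer_injective hN)

theorem inclMerPer_algebraMap {N : ℕ} [NeZero N] (hN : h ∣ N) (f : HolPer h) :
    inclMerPer h hN (algebraMap (HolPer h) (MerPer h) f) =
      algebraMap (HolPer N) (MerPer N) (inclPer hN f) :=
  IsLocalization.map_eq (S := MerPer h) (Q := MerPer N) (g := (inclPer hN).toRingHom)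
    (nonZeroDivisors_le_comap_nonZeroDivisors_of_injective _ (inclPer_injective hN)) f

theorem toMer_inclMerPer {N : ℕ} [NeZero N] (hN : h ∣ N) (u : MerPer h) :
    toMer N (inclMerPer h hN u) = toMer h u := by
  obtain ⟨a, b, -, rfl⟩ := IsFractionRing.div_surjective (A := HolPer h) u
  rw [map_div₀, map_div₀, map_div₀, inclMerPer_algebraMap, inclMerPer_algebraMap,
    toMer_algebraMap, toMer_algebraMap, toMer_algebraMap, toMer_algebraMap]
  rfl

theorem toLaurent_inclMerPer {N M : ℕ} [NeZero N] [NeZero M] (hN : N = M * h) (u : MerPer h) :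
    toLaurent N (inclMerPer h (Dvd.intro_left M hN.symm) u) =
      ModularCurve.qExpand ℂ M (toLaurent h u) := by
  obtain ⟨a, b, -, rfl⟩ := IsFractionRing.div_surjective (A := HolPer h) u
  rw [map_div₀, map_div₀, map_div₀, map_div₀, inclMerPer_algebraMap, inclMerPer_algebraMap]
  have key : ∀ (h : ℕ) [NeZero h] (f : HolPer h),
      toLaurent h (algebraMap (HolPer h) (MerPer h) f) = qExpLaurent h f :=
    fun h _ f => toLaurent_algebraMap h f
  rw [key, key, key, key, qExpLaurent_inclPer h hN, qExpLaurent_inclPer h hN]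

/-- If `u' : MerPer N` and `u : MerPer h` are the same meromorphic function, `N = M h`, then
the `q_N`-expansion of `u'` is obtained from the `q_h`-expansion of `u` by `q_h = q_N^M`. -/
theorem toLaurent_eq_qExpand_of_toMer_eq {N M : ℕ} [NeZero N] [NeZero M] (hN : N = M * h)
    {u : MerPer h} {u' : MerPer N} (hu : toMer N u' = toMer h u) :
    toLaurent N u' = ModularCurve.qExpand ℂ M (toLaurent h u) := by
  rw [← toMer_inclMerPer h (Dvd.intro_left M hN.symm)] at hu
  rw [toMer_injective N hu, toLaurent_inclMerPer h hN]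

end Fermat.Agent.S24
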