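import Fermat.Agent.S24.Targets
import Fermat.Agent.S24.DegreeInst
import Fermat.Agent.S24.HolPerMore
import Fermat.Agent.S24.Cusp.RotCount
import Fermat.Agent.S24.FF.Glue
import Fermat.Agent.S24.FF.Places

/-!
The places over the cusp: `TargetCusp N` from the degree theorem.
Everything lives in the sub-namespace `CuspF`.
-/

set_option autoImplicit false

namespace Fermat.Agent.S24.CuspF

open UpperHalfPlane ModularCurve AlgebraicCurve IntermediateField
open scoped MatrixGroups Manifold

noncomputable section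

/-- A ring hom out of the function field maps into a subfield as soon as the constants and the
generators do. -/
theorem mem_of_gen {N : ℕ} {E : Type*} [Field E] (φ : FN N →+* E) (S : Subfield E)
    (hK : ∀ a : Kb, φ (algebraMap Kb _ a) ∈ S)
    (hj : ∀ (d : ℕ) [NeZero d] (hd : d ∣ N), φ (jBar N d hd) ∈ S) (f : FN N) : φ f ∈ S := by
  let F := ModularCurve.modularFunctionFieldBar N
  let S0 : Subfield F := S.comap φ
  let S1 : Subfield (LaurentSeries Kb) := S0.map F.val.toRingHom
  have key : ∀ x ∈ F, x ∈ S1 := by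
    apply bar_le
    · intro a
      exact ⟨algebraMap Kb F a, hK a, rfl⟩
    · intro d _ hd
      exact ⟨jBar N d hd, hj d hd, coe_jBar N d hd⟩
  obtain ⟨y, hy, hyx⟩ := key f f.2
  have : y = f := Subtype.ext hyx
  rw [← this]
  exact hy

/-- hypothesis-free form of the rotation counting lemma -/
theorem card_zeros_eq_orbits_of_rot' {K F : Type*} [Field K] [Field F] [Algebra K F]
    [IsAlgClosed K] [CharZero K] {y : F} (hy : IsFiniteParam K y)
    {L : Type*} [Field L]
    {X G : Type*} [Finite X] [Group G] [MulAction G X]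
    (hcard : Nat.card X = Module.finrank K⟮y⟯ F)
    (σ : X → F →+* LaurentSeries L) (hσ : Function.Injective σ)
    (hK : ∀ i j (a : K), σ i (algebraMap K F a) = σ j (algebraMap K F a))
    (hKord : ∀ i (a : K), a ≠ 0 → (σ i (algebraMap K F a)).order = 0)
    (hσy : ∀ i j, σ i y = σ j y)
    (e0 : ℕ) (he0 : 0 < e0) (hwy : ∀ i, (σ i y).order = e0)
    (ζ : Lˣ) (hζ : IsPrimitiveRoot ζ e0)
    (g : G) (hg : ∀ i f, σ (g • i) f = rot ζ (σ i f)) :
    Nat.card {v : Place K F // 0 < v.ord y} =
      Nat.card (MulAction.orbitRel.Quotient (Subgroup.zpowers g) X) :=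
  have := hy.finite
  Cusp.card_zeros_eq_orbits_of_rot y hy.finite_zeros hy.sum_zeros hy.exists_place_eq
    hy.exists_norm_eq hcard σ hσ hK hKord hσy e0 he0 hwy ζ hζ g hg

variable (N : ℕ) [NeZero N]

theorem sigma_mem_range (x : XN N) (f : FN N) : sigma N x f ∈ (toMer N).fieldRange := by
  apply mem_of_gen
  · intro a
    exact ⟨algebraMap ℂ (MerPer N) (iotaK a), by rw [toMer_const, sigma_algebraMap]⟩
  · intro d _ hd
    obtain ⟨A, B, hB, hAB⟩ := exists_jd_smul_eq_div hd (Quotient.out x)⁻¹
    refine ⟨algebraMap _ (MerPer N) A / algebraMap _ (MerPer N) B, ?_⟩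
    have hne : algebraMap Hol Mer (inclHol N B) ≠ 0 := by
      rw [Ne, map_eq_zero_iff _ (IsFractionRing.injective Hol Mer)]
      intro h
      exact hB UpperHalfPlane.I (congrFun (congrArg Subtype.val h) UpperHalfPlane.I)
    rw [toMer_div, sigma, sigma0_jBar, div_eq_iff hne, ← map_mul]
    congr 1
    apply Subtype.ext
    funext τ
    show (A : ℍ → ℂ) τ = (actHol (Quotient.out x) (jdHol d) : ℍ → ℂ) τ * (B : ℍ → ℂ) τ
    rw [actHol_apply]
    show (A : ℍ → ℂ) τ = jd d ((Quotient.out x)⁻¹ • τ) * (B : ℍ → ℂ) τ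
    rw [hAB, div_mul_cancel₀ _ (hB τ)]

/-- the embeddings, with values in fractions of `N`-periodic functions -/
def sigmaPer (x : XN N) : FN N →+* MerPer N :=
  liftThrough (toMer N) (sigma N x) (sigma_mem_range N x)

theorem toMer_sigmaPer (x : XN N) (f : FN N) : toMer N (sigmaPer N x f) = sigma N x f :=
  liftThrough_spec _ _ _ f

/-- the embeddings in Laurent series in `q_N` -/
def sigmaInf (x : XN N) : FN N →+* LaurentSeries ℂ := (toLaurent N).comp (sigmaPer N x)

theorem sigmaInf_apply (x : XN N) (f : FN N) : sigmaInf N x f = toLaurent N (sigmaPer N x f) := rfl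

theorem sigmaInf_injective : Function.Injective (sigmaInf N) := by
  intro x y hxy
  apply sigma_injective jfun_isSLInvariant jfun_hasSimplePoleAtImInfty N
  ext f
  have h1 := congrArg (fun φ : FN N →+* LaurentSeries ℂ => φ f) hxy
  have h2 := toLaurent_injective N h1
  rw [← toMer_sigmaPer, ← toMer_sigmaPer, h2]

theorem sigmaInf_algebraMap (x : XN N) (a : Kb) :
    sigmaInf N x (algebraMap Kb (FN N) a) = HahnSeries.C (iotaK a) := by
  have h : sigmaPer N x (algebraMap Kb (FN N) a) = algebraMap ℂ (MerPer N) (iotaK a) := by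
    apply toMer_injective N
    rw [toMer_sigmaPer, toMer_const, sigma_algebraMap]
  rw [sigmaInf_apply, h, toLaurent_const]

theorem sigmaInf_jF (x : XN N) : sigmaInf N x (jF N) = qExpand ℂ N (jqModC ℂ) := by
  have h := toLaurent_eq_qExpand_of_toMer_eq 1 (N := N) (M := N) (by simp)
    (u := jdPer 1) (u' := sigmaPer N x (jF N))
    (by rw [toMer_sigmaPer, sigma_jF jfun_isSLInvariant, toMer_jdPer])
  rw [sigmaInf_apply, h, toLaurent_jdPer, jqNModC_one]

theorem sigmaInf_smul (x : XN N) (f : FN N) :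
    sigmaInf N (ModularGroup.T⁻¹ • x) f = rot (zetaU N) (sigmaInf N x f) := by
  apply toLaurent_eq_rot_of_toMer_eq
  rw [toMer_sigmaPer, toMer_sigmaPer, actMer_sigma jfun_isSLInvariant]

theorem order_qExpand_jqModC : (qExpand ℂ N (jqModC ℂ)).order = -(N : ℤ) := by
  have hc : (qExpand ℂ N (jqModC ℂ)).coeff (-(N : ℤ)) = 1 := by
    have := qExpand_coeff_mul (R := ℂ) N (jqModC ℂ) (-1)
    rw [coeff_jqModC_neg_one] at this
    rw [← this]
    congr 1
    ring
  have hne : qExpand ℂ N (jqModC ℂ) ≠ 0 := by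
    intro h
    rw [h] at hc
    simp at hc
  apply le_antisymm
  · exact HahnSeries.order_le_of_coeff_ne_zero (by rw [hc]; exact one_ne_zero)
  · rw [HahnSeries.le_order_iff_forall hne]
    intro k hk
    by_cases hd : (N : ℤ) ∣ k
    · obtain ⟨m, rfl⟩ := hd
      rw [qExpand_coeff_mul]
      apply coeff_jqModC_of_lt
      have hN : (0 : ℤ) < N := by exact_mod_cast Nat.pos_of_ne_zero (NeZero.ne N)
      nlinarith
    · exact qExpand_coeff_of_not_dvd N _ hd

theorem order_sigmaInf_inv (x : XN N) : (sigmaInf N x (jF N)⁻¹).order = (N : ℤ) := by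
  have hne : qExpand ℂ N (jqModC ℂ) ≠ 0 := by
    intro h
    have := order_qExpand_jqModC N
    rw [h, HahnSeries.order_zero] at this
    have hN : (0 : ℤ) < N := by exact_mod_cast Nat.pos_of_ne_zero (NeZero.ne N)
    omega
  have h1 := HahnSeries.order_mul hne (inv_ne_zero hne)
  rw [mul_inv_cancel₀ hne, HahnSeries.order_one, order_qExpand_jqModC] at h1
  rw [map_inv₀, sigmaInf_jF]
  omega

theorem targetCusp_of (hparam : IsFiniteParam Kb (jF N))
    (hdeg : Module.finrank Kb⟮jF N⟯ (FN N) = Nat.card (XN N)) : TargetCusp N := by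
  have hy := hparam.inv
  have key := card_zeros_eq_orbits_of_rot' hy
    (L := ℂ) (X := XN N) (G := SL(2, ℤ))
    (by rw [IsFiniteParam.finrank_inv, hdeg]) (sigmaInf N) (sigmaInf_injective N)
    (fun i j a => by rw [sigmaInf_algebraMap, sigmaInf_algebraMap])
    (fun i a _ => by rw [sigmaInf_algebraMap, HahnSeries.order_C])
    (fun i j => by rw [map_inv₀, map_inv₀, sigmaInf_jF, sigmaInf_jF])
    N (Nat.pos_of_ne_zero (NeZero.ne N)) (order_sigmaInf_inv N)
    (zetaU N) (isPrimitiveRoot_zetaU N) ModularGroup.T⁻¹ (sigmaInf_smul N)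
  rw [Subgroup.zpowers_inv] at key
  rw [TargetCusp, orbCount]
  refine Eq.trans ?_ key
  apply Nat.card_congr
  apply Equiv.subtypeEquivRight
  intro v
  rw [Place.ord_inv]
  omega

end

end Fermat.Agent.S24.CuspF
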