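import Mathlib
import Fermat.Agent.S20.CombBasic
import Fermat.Agent.S20.CombIndex
import Fermat.Agent.S20.CombCusps
import Fermat.Agent.S24.Targets

/-!
# S24, WP CB1: orbit counts

Orbits of a cyclic group generated by an element `g` with `g ^ p` acting trivially (`p` prime).
-/

set_option autoImplicit false

namespace Fermat.Agent.S24

open MulAction Function
open scoped MatrixGroups

section General

variable {G X : Type*} [Group G] [MulAction G X]

/-- Size of an orbit of `zpowers g` when `g ^ p` acts trivially, `p` prime. -/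
theorem card_orbit_zpowers_of_prime (g : G) {p : ℕ} (hp : p.Prime) (hg : ∀ x : X, g ^ p • x = x)
    (x : X) [Decidable (g • x = x)] :
    Nat.card (orbit (Subgroup.zpowers g) x) = if g • x = x then 1 else p := by
  rw [Nat.card_congr (orbitZPowersEquiv g x), Nat.card_zmod]
  have hdvd : minimalPeriod (g • ·) x ∣ p := by
    apply IsPeriodicPt.minimalPeriod_dvd
    rw [IsPeriodicPt, IsFixedPt, smul_iterate]
    exact hg x
  split_ifs with h
  · exact minimalPeriod_eq_one_iff_isFixedPt.2 h
  · rcases (Nat.dvd_prime hp).1 hdvd with h1 | h1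
    · exact absurd (minimalPeriod_eq_one_iff_isFixedPt.1 h1) h
    · exact h1

/-- The fibre of the orbit map is the orbit. -/
def fibreEquivOrbit (H : Type*) [Group H] [MulAction H X] (x : X) :
    {y : X // (Quotient.mk'' y : orbitRel.Quotient H X) = Quotient.mk'' x} ≃ orbit H x :=
  Equiv.subtypeEquivRight fun y => by
    rw [Quotient.eq'']
    exact orbitRel_apply

theorem card_fibre_zpowers_of_prime (g : G) {p : ℕ} (hp : p.Prime) (hg : ∀ x : X, g ^ p • x = x)
    (x : X) [Decidable (g • x = x)] :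
    Nat.card {y : X // (Quotient.mk'' y : orbitRel.Quotient (Subgroup.zpowers g) X) =
      Quotient.mk'' x} = if g • x = x then 1 else p := by
  rw [Nat.card_congr (fibreEquivOrbit (Subgroup.zpowers g) x),
    card_orbit_zpowers_of_prime g hp hg x]

/-- `g • x = x` only depends on the `zpowers g`-orbit of `x`. -/
theorem smul_eq_iff_of_orbitRel (g : G) {x y : X}
    (h : orbitRel (Subgroup.zpowers g) X x y) : g • x = x ↔ g • y = y := by
  rw [orbitRel_apply, mem_orbit_iff] at h
  obtain ⟨⟨a, ha⟩, rfl⟩ := h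
  obtain ⟨k, rfl⟩ := Subgroup.mem_zpowers_iff.1 ha
  change g • (g ^ k • y) = g ^ k • y ↔ _
  rw [smul_smul, ← zpow_one_add, add_comm, zpow_add_one, mul_smul]
  exact (MulAction.injective (g ^ k)).eq_iff

/-- **Orbit count**: `p * #orbits = #X + (p-1) * #Fix`. -/
theorem prime_mul_card_orbits [Finite X] (g : G) {p : ℕ} (hp : p.Prime)
    (hg : ∀ x : X, g ^ p • x = x) :
    p * Nat.card (orbitRel.Quotient (Subgroup.zpowers g) X) =
      Nat.card X + (p - 1) * Nat.card (fixedBy X g) := by
  classical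
  have := Fintype.ofFinite X
  set Ω := orbitRel.Quotient (Subgroup.zpowers g) X with hΩ
  have : Fintype Ω := Fintype.ofFinite Ω
  -- the predicate "consists of a fixed point" on orbits
  let P : Ω → Prop := fun ω => Quotient.liftOn' ω (fun x => g • x = x)
    (fun x y h => propext (smul_eq_iff_of_orbitRel g h))
  have hP : ∀ x : X, P (Quotient.mk'' x) ↔ g • x = x := fun x => Iff.rfl
  have hcardω : ∀ ω : Ω, Nat.card ω.orbit = if P ω then 1 else p := by
    intro ω
    induction ω using Quotient.inductionOn' with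
    | h x =>
      rw [orbitRel.Quotient.orbit_mk, card_orbit_zpowers_of_prime g hp hg x]
      simp only [hP]
  have h1 : Nat.card X = ∑ ω : Ω, (if P ω then 1 else p) := by
    rw [Nat.card_congr (selfEquivSigmaOrbits' (Subgroup.zpowers g) X), Nat.card_sigma]
    exact Finset.sum_congr rfl fun ω _ => hcardω ω
  have h2 : Nat.card (fixedBy X g) = (Finset.univ.filter P).card := by
    rw [← Fintype.card_subtype, ← Nat.card_eq_fintype_card]
    refine Nat.card_congr (Equiv.ofBijective
      (fun x : fixedBy X g => (⟨Quotient.mk'' x.1, (hP x.1).2 x.2⟩ : {ω // P ω})) ⟨?_, ?_⟩)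
    · rintro ⟨x, hx⟩ ⟨y, hy⟩ h
      have h' : (Quotient.mk'' x : Ω) = Quotient.mk'' y := congrArg Subtype.val h
      rw [Quotient.eq'', orbitRel_apply, mem_orbit_iff] at h'
      obtain ⟨⟨a, ha⟩, hxy⟩ := h'
      obtain ⟨k, rfl⟩ := Subgroup.mem_zpowers_iff.1 ha
      have hk : g ^ k • y = y := zpow_smul_eq_iff_period_dvd.2 (by
        have : period g y = 1 := by
          rw [period_eq_one_iff]; exact hy
        rw [this]; simp)
      apply Subtype.ext
      change g ^ k • y = x at hxy
      exact (hxy.symm.trans hk)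
    · rintro ⟨ω, hω⟩
      induction ω using Quotient.inductionOn' with
      | h x => exact ⟨⟨x, (hP x).1 hω⟩, rfl⟩
  have h3 : ∑ ω : Ω, (if P ω then 1 else p) =
      (Finset.univ.filter P).card + p * (Finset.univ.filter (fun ω => ¬ P ω)).card := by
    rw [Finset.sum_ite]
    simp [mul_comm]
  have h4 : (Finset.univ.filter P).card + (Finset.univ.filter (fun ω => ¬ P ω)).card =
      Nat.card Ω := by
    rw [Finset.card_filter_add_card_filter_not, Finset.card_univ, Nat.card_eq_fintype_card]
  rw [h1, h3, h2, ← h4]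
  obtain ⟨q, rfl⟩ : ∃ q, p = q + 1 := ⟨p - 1, by have := hp.pos; omega⟩
  simp only [Nat.add_sub_cancel]
  ring

/-- Orbits of `zpowers (toPerm g)` and of `zpowers g` coincide. -/
theorem orbitRel_zpowers_toPerm (g : G) :
    orbitRel (Subgroup.zpowers (MulAction.toPerm g : Equiv.Perm X)) X =
      orbitRel (Subgroup.zpowers g) X := by
  ext x y
  rw [orbitRel_apply, orbitRel_apply, mem_orbit_iff, mem_orbit_iff]
  have key : ∀ k : ℤ, ((MulAction.toPerm g : Equiv.Perm X) ^ k) y = g ^ k • y := by
    intro k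
    rw [← MulAction.toPermHom_apply, ← map_zpow, MulAction.toPermHom_apply,
      MulAction.toPerm_apply]
  constructor
  · rintro ⟨⟨a, ha⟩, h⟩
    obtain ⟨k, rfl⟩ := Subgroup.mem_zpowers_iff.1 ha
    refine ⟨⟨g ^ k, Subgroup.zpow_mem_zpowers _ _⟩, ?_⟩
    change g ^ k • y = x
    rw [← key]; exact h
  · rintro ⟨⟨a, ha⟩, h⟩
    obtain ⟨k, rfl⟩ := Subgroup.mem_zpowers_iff.1 ha
    refine ⟨⟨(MulAction.toPerm g) ^ k, Subgroup.zpow_mem_zpowers _ _⟩, ?_⟩
    change ((MulAction.toPerm g : Equiv.Perm X) ^ k) y = x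
    rw [key]; exact h

theorem card_orbits_zpowers_toPerm (g : G) :
    Nat.card (orbitRel.Quotient (Subgroup.zpowers (MulAction.toPerm g : Equiv.Perm X)) X) =
      Nat.card (orbitRel.Quotient (Subgroup.zpowers g) X) := by
  unfold orbitRel.Quotient
  rw [orbitRel_zpowers_toPerm]

end General

section SL2Z

open CongruenceSubgroup ModularGroup ModularCurve

theorem neg_one_smul_quotient_Gamma0 (N : ℕ) (x : SL(2, ℤ) ⧸ Gamma0 N) :
    (-1 : SL(2, ℤ)) • x = x := by
  induction x using QuotientGroup.induction_on with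
  | H g =>
    rw [MulAction.Quotient.smul_mk, smul_eq_mul, QuotientGroup.eq]
    have : (-1 * g)⁻¹ * g = -1 := by
      rw [neg_one_mul, show (-g) = g * (-1) by simp, mul_inv_rev, mul_assoc, inv_mul_cancel,
        mul_one]
      decide
    rw [this, Gamma0_mem]
    simp

theorem S_sq_eq_neg_one : (S : SL(2, ℤ)) ^ 2 = -1 := by decide

theorem ST_cube_eq_neg_one : ((S * T : SL(2, ℤ))) ^ 3 = -1 := by decide

theorem S_sq_smul (N : ℕ) (x : SL(2, ℤ) ⧸ Gamma0 N) : (S : SL(2, ℤ)) ^ 2 • x = x := by
  rw [S_sq_eq_neg_one, neg_one_smul_quotient_Gamma0]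

theorem ST_cube_smul (N : ℕ) (x : SL(2, ℤ) ⧸ Gamma0 N) : (S * T : SL(2, ℤ)) ^ 3 • x = x := by
  rw [ST_cube_eq_neg_one, neg_one_smul_quotient_Gamma0]

theorem finite_quotient_Gamma0 (N : ℕ) [NeZero N] : Finite (SL(2, ℤ) ⧸ Gamma0 N) := by
  apply Nat.finite_of_card_ne_zero
  rw [S20.card_quotient_Gamma0]
  intro h
  have h1 : (Gamma0 N).index = 0 := by rw [S20.index_Gamma0, h]
  have h2 : Gamma N ≤ Gamma0 N := by
    intro g hg
    rw [Gamma_mem] at hg
    rw [Gamma0_mem]
    exact hg.2.2.1
  exact (Subgroup.finiteIndex_of_le h2).index_ne_zero h1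

theorem two_mul_card_orbits_S (N : ℕ) [NeZero N] :
    2 * Nat.card (orbitRel.Quotient (Subgroup.zpowers (S : SL(2, ℤ))) (SL(2, ℤ) ⧸ Gamma0 N)) =
      dedekindPsi N + nuTwo N := by
  have := finite_quotient_Gamma0 N
  have h := prime_mul_card_orbits S Nat.prime_two (S_sq_smul N)
  rw [S20.card_quotient_Gamma0, S20.card_fixedBy_S, show 2 - 1 = 1 from rfl, one_mul] at h
  exact h

theorem three_mul_card_orbits_ST (N : ℕ) [NeZero N] :
    3 * Nat.card (orbitRel.Quotient (Subgroup.zpowers (S * T : SL(2, ℤ)))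
      (SL(2, ℤ) ⧸ Gamma0 N)) = dedekindPsi N + 2 * nuThree N := by
  have := finite_quotient_Gamma0 N
  have h := prime_mul_card_orbits (S * T) Nat.prime_three (ST_cube_smul N)
  rw [S20.card_quotient_Gamma0, S20.card_fixedBy_ST] at h
  exact h

/-- The final target `TargetOrbits`. -/
theorem targetOrbits (N : ℕ) [NeZero N] : TargetOrbits N :=
  ⟨S20.card_quotient_Gamma0 N, two_mul_card_orbits_S N, three_mul_card_orbits_ST N,
    S20.card_orbits_T N⟩

end SL2Z

end Fermat.Agent.S24
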