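import Fermat.Agent.S24.Defs

/-!
Final assembly for S24, with every ingredient as an explicit hypothesis.
-/

set_option autoImplicit false

namespace Fermat.Agent.S24

open AlgebraicCurve IntermediateField KaehlerDifferential
open scoped MatrixGroups

noncomputable section

/-- Pure numerics. -/
theorem numerics {ψ ν2 ν3 c o2 o3 g : ℕ} {deg : ℤ}
    (hdeg : deg = -2 * (ψ : ℤ) + (((ψ : ℤ) - o3) + ((ψ : ℤ) - o2)) + ((ψ : ℤ) - c))
    (h2 : 2 * o2 = ψ + ν2) (h3 : 3 * o3 = ψ + 2 * ν3)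
    (hg : (g : ℚ) = 1 + (ψ : ℚ) / 12 - (ν2 : ℚ) / 4 - (ν3 : ℚ) / 3 - (c : ℚ) / 2) :
    (deg + 2).toNat / 2 = g := by
  have h2' : (2 : ℚ) * o2 = ψ + ν2 := by exact_mod_cast h2
  have h3' : (3 : ℚ) * o3 = ψ + 2 * ν3 := by exact_mod_cast h3
  have hq : ((deg + 2 : ℤ) : ℚ) = 2 * (g : ℚ) := by
    rw [hdeg, hg]; push_cast
    linarith
  have hz : deg + 2 = 2 * (g : ℤ) := by exact_mod_cast hq
  rw [hz]
  have : (2 * (g : ℤ)).toNat = 2 * g := by omega
  rw [this]; omega

variable {K F : Type*} [Field K] [Field F] [Algebra K F]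

/-- The genus from the degree of every canonical divisor. -/
theorem genus_eq_of_degree [HasCanonicalDivisor (K := K) (F := F)] [Nontrivial Ω[F⁄K]] {g : ℕ}
    (h : ∀ (ω : Ω[F⁄K]), ω ≠ 0 → ∀ D : Divisor K F, (∀ v : Place K F, D v = v.ordDifferential ω) →
      (Divisor.degree D + 2).toNat / 2 = g) :
    genus K F = g := by
  classical
  have hex : ∃ ω : Ω[F⁄K], ω ≠ 0 := exists_ne 0
  unfold genus
  rw [dif_pos hex]
  exact h _ hex.choose_spec _ (fun v => canonicalDivisorOf_apply hex.choose_spec v)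

end

end Fermat.Agent.S24
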