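import Mathlib
import Fermat.Agent.S21.Upper

set_option autoImplicit false

open scoped MatrixGroups
open CongruenceSubgroup ModularGroup Equiv Equiv.Perm

namespace Fermat.Agent.S24

section Orbits

variable {X : Type*} [Fintype X] [DecidableEq X]

/-- classifying map for the cycles of a permutation -/
noncomputable def cycMap (σ : Perm X) (x : X) : X ⊕ Perm X :=
  if σ x = x then Sum.inl x else Sum.inr (σ.cycleOf x)

theorem cycMap_eq_iff (σ : Perm X) (x y : X) : cycMap σ x = cycMap σ y ↔ σ.SameCycle x y := by
  unfold cycMap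
  by_cases hx : σ x = x
  · by_cases hy : σ y = y
    · simp only [hx, hy, if_true, Sum.inl.injEq]
      constructor
      · rintro rfl; exact SameCycle.refl _ _
      · intro h
        exact (h.eq_of_left hx)
    · simp only [hx, hy, if_true, if_false, reduceCtorEq, false_iff]
      intro h
      exact hy (by rw [← h.eq_of_left hx]; exact hx)
  · by_cases hy : σ y = y
    · simp only [hx, hy, if_true, if_false, reduceCtorEq, false_iff]
      intro h
      exact hx (by rw [h.eq_of_right hy]; exact hy)
    · simp only [hx, hy, if_false, Sum.inr.injEq]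
      exact (sameCycle_iff_cycleOf_eq_of_mem_support (mem_support.2 hx) (mem_support.2 hy)).symm

theorem image_cycMap (σ : Perm X) :
    Finset.univ.image (cycMap σ) =
      (Finset.univ.filter (fun x => σ x = x)).disjSum σ.cycleFactorsFinset := by
  ext z
  simp only [Finset.mem_image, Finset.mem_univ, true_and, Finset.mem_disjSum, Finset.mem_filter]
  constructor
  · rintro ⟨x, rfl⟩
    unfold cycMap
    by_cases hx : σ x = x
    · left; exact ⟨x, hx, by simp [hx]⟩
    · right
      exact ⟨σ.cycleOf x, cycleOf_mem_cycleFactorsFinset_iff.2 (mem_support.2 hx), by simp [hx]⟩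
  · rintro (⟨x, hx, rfl⟩ | ⟨c, hc, rfl⟩)
    · exact ⟨x, by simp [cycMap, hx]⟩
    · obtain ⟨hcyc, hc'⟩ := mem_cycleFactorsFinset_iff.1 hc
      obtain ⟨a, ha⟩ := hcyc.nonempty_support
      have hσa : σ a ≠ a := by
        rw [← hc' a ha]; exact mem_support.1 ha
      refine ⟨a, ?_⟩
      simp only [cycMap, hσa, if_false]
      rw [cycle_is_cycleOf ha hc]

/-- number of cycles (including fixed points) -/
theorem card_quotient_sameCycle (σ : Perm X) :
    Nat.card (Quotient (SameCycle.setoid σ)) + σ.cycleType.sum =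
      Fintype.card X + Multiset.card σ.cycleType := by
  have h1 : SameCycle.setoid σ = Setoid.ker (cycMap σ) := by
    ext x y
    rw [Setoid.ker_def, cycMap_eq_iff]
    rfl
  have h2 : Nat.card (Quotient (SameCycle.setoid σ)) = (Finset.univ.image (cycMap σ)).card := by
    rw [h1, Nat.card_congr (Setoid.quotientKerEquivRange (cycMap σ))]
    rw [← Set.image_univ, Nat.card_coe_set_eq, ← Finset.coe_univ, ← Finset.coe_image,
      Set.ncard_coe_finset]
  have h4 : Multiset.card σ.cycleType = σ.cycleFactorsFinset.card := by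
    rw [cycleType_def, Multiset.card_map]; rfl
  rw [h2, image_cycMap, Finset.card_disjSum, sum_cycleType, h4]
  have h3 : (Finset.univ.filter (fun x => σ x = x)).card + σ.support.card = Fintype.card X := by
    rw [← Finset.card_univ, ← Finset.card_filter_add_card_filter_not (s := Finset.univ) (fun x => σ x = x)]
    congr 2
  omega

theorem sign_eq_neg_one_pow (σ : Perm X) :
    sign σ = (-1) ^ (Fintype.card X + Nat.card (Quotient (SameCycle.setoid σ))) := by
  rw [sign_of_cycleType]
  have h := card_quotient_sameCycle σ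
  have h2 : Fintype.card X + Nat.card (Quotient (SameCycle.setoid σ)) + 2 * σ.cycleType.sum
      = (σ.cycleType.sum + Multiset.card σ.cycleType) + 2 * Fintype.card X := by omega
  have h3 : ((-1 : ℤˣ)) ^ (Fintype.card X + Nat.card (Quotient (SameCycle.setoid σ))
      + 2 * σ.cycleType.sum) = (-1) ^ ((σ.cycleType.sum + Multiset.card σ.cycleType)
      + 2 * Fintype.card X) := by rw [h2]
  simpa [pow_add, pow_mul] using h3.symm

/-- if `σ ^ p = 1` with `p` prime then the support has `p * (number of cycles)` elements -/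
theorem sum_cycleType_of_pow_prime {σ : Perm X} {p : ℕ} (hp : p.Prime) (h : σ ^ p = 1) :
    σ.cycleType.sum = p * Multiset.card σ.cycleType := by
  have hall : ∀ n ∈ σ.cycleType, n = p := by
    intro n hn
    have h1 : n ∣ p := (dvd_of_mem_cycleType hn).trans (orderOf_dvd_of_pow_eq_one h)
    have h2 : 2 ≤ n := two_le_of_mem_cycleType hn
    rcases (Nat.dvd_prime hp).1 h1 with h3 | h3
    · omega
    · exact h3
  rw [Multiset.eq_replicate_of_mem hall, Multiset.sum_replicate, Multiset.card_replicate]
  simp [mul_comm]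

variable {G : Type*} [Group G] [MulAction G X]

omit [Fintype X] [DecidableEq X] in
theorem card_orbits_zpowers (g : G) :
    Nat.card (MulAction.orbitRel.Quotient (Subgroup.zpowers g) X) =
      Nat.card (Quotient (SameCycle.setoid (MulAction.toPerm g : Perm X))) := by
  have : MulAction.orbitRel (Subgroup.zpowers g) X = SameCycle.setoid (MulAction.toPerm g : Perm X) := by
    ext x y
    rw [MulAction.orbitRel_apply, MulAction.mem_orbit_iff]
    show _ ↔ SameCycle _ x y
    constructor
    · rintro ⟨⟨_, n, rfl⟩, hn⟩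
      refine SameCycle.symm ⟨n, ?_⟩
      rw [← hn]
      have : ((MulAction.toPerm g : Perm X) ^ n) = MulAction.toPerm (g ^ n) :=
        (map_zpow (MulAction.toPermHom G X) g n).symm
      rw [this]
      rfl
    · intro h
      obtain ⟨n, hn⟩ := h.symm
      refine ⟨⟨g ^ n, n, rfl⟩, ?_⟩
      rw [← hn]
      have : ((MulAction.toPerm g : Perm X) ^ n) = MulAction.toPerm (g ^ n) :=
        (map_zpow (MulAction.toPermHom G X) g n).symm
      rw [this]
      rfl
  unfold MulAction.orbitRel.Quotient
  rw [this]

theorem card_fixedBy_add_sum_cycleType (g : G) :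
    Nat.card (MulAction.fixedBy X g) + (MulAction.toPerm g : Perm X).cycleType.sum
      = Fintype.card X := by
  have h := card_fixedPoints (MulAction.toPerm g : Perm X)
  have h2 := sum_cycleType_le (MulAction.toPerm g : Perm X)
  have h3 : Nat.card (MulAction.fixedBy X g)
      = Fintype.card (Function.fixedPoints (MulAction.toPerm g : Perm X)) := by
    rw [← Nat.card_eq_fintype_card]
    rfl
  omega

end Orbits

theorem neg_one_pow_eq_iff_units {a b : ℕ} (h : ((-1 : ℤˣ)) ^ a = (-1) ^ b) : Even (a + b) := by
  rcases Nat.even_or_odd a with ha | ha <;> rcases Nat.even_or_odd b with hb | hb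
  · exact ha.add hb
  · rw [ha.neg_one_pow, hb.neg_one_pow] at h
    exact absurd h (by decide)
  · rw [ha.neg_one_pow, hb.neg_one_pow] at h
    exact absurd h (by decide)
  · exact ha.add_odd hb

open ModularCurve in
/-- The genus formula takes natural number values. -/
theorem exists_nat_eq_genusFormula (N : ℕ) [NeZero N]
    (h_index : (Gamma0 N).index = dedekindPsi N)
    (h_S : Nat.card (MulAction.fixedBy (SL(2, ℤ) ⧸ Gamma0 N) S) = nuTwo N)
    (h_ST : Nat.card (MulAction.fixedBy (SL(2, ℤ) ⧸ Gamma0 N) (S * T)) = nuThree N)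
    (h_T : Nat.card (MulAction.orbitRel.Quotient (Subgroup.zpowers T) (SL(2, ℤ) ⧸ Gamma0 N))
      = cuspCount N) :
    ∃ g : ℕ, (g : ℚ) = genusFormula N := by
  classical
  have : Fintype (SL(2, ℤ) ⧸ Gamma0 N) := Subgroup.fintypeQuotientOfFiniteIndex
  have hnonneg : 0 ≤ genusFormula N := by
    have h := (Fermat.Agent.S21.Up.finrank_parabolicHoms_le N h_index h_S h_ST h_T).2
    have h0 : (0 : ℚ) ≤ (Module.finrank ℂ (Period.parabolicHoms ℂ (Gamma0 N) ℂ) : ℚ) :=
      Nat.cast_nonneg _
    linarith
  have hcard : Fintype.card (SL(2, ℤ) ⧸ Gamma0 N) = dedekindPsi N := by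
    rw [← h_index, Subgroup.index, Nat.card_eq_fintype_card]
  set s : Perm (SL(2, ℤ) ⧸ Gamma0 N) := MulAction.toPerm S with hs
  set u : Perm (SL(2, ℤ) ⧸ Gamma0 N) := MulAction.toPerm (S * T) with hu
  set t : Perm (SL(2, ℤ) ⧸ Gamma0 N) := MulAction.toPerm T with ht
  have hs2 : s ^ 2 = 1 := by
    ext x
    simp only [hs, pow_two, Perm.mul_apply, MulAction.toPerm_apply, Perm.one_apply]
    rw [← mul_smul, Fermat.Agent.S21.Up.SS_eq, Fermat.Agent.S21.Up.neg_one_smul_quot]
  have hu3 : u ^ 3 = 1 := by
    ext x
    simp only [hu, pow_succ, pow_zero, one_mul, Perm.mul_apply, MulAction.toPerm_apply,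
      Perm.one_apply]
    rw [← mul_smul, ← mul_smul, Fermat.Agent.S21.Up.STcube_eq, Fermat.Agent.S21.Up.neg_one_smul_quot]
  have hsu : s * u = t := by
    ext x
    simp only [hs, hu, ht, Perm.mul_apply, MulAction.toPerm_apply]
    rw [← mul_smul, ← mul_assoc, Fermat.Agent.S21.Up.SS_eq, mul_smul,
      Fermat.Agent.S21.Up.neg_one_smul_quot]
  have hsignu : sign u = 1 := by
    have h : sign u ^ 3 = 1 := by rw [← map_pow, hu3, map_one]
    rcases Int.units_eq_one_or (sign u) with h1 | h1
    · exact h1
    · rw [h1] at h; exact absurd h (by decide)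
  have hsign : sign s = sign t := by rw [← hsu, map_mul, hsignu, mul_one]
  have hsums := sum_cycleType_of_pow_prime Nat.prime_two hs2
  have hsumu := sum_cycleType_of_pow_prime Nat.prime_three hu3
  have hfS := card_fixedBy_add_sum_cycleType (X := SL(2, ℤ) ⧸ Gamma0 N) S
  have hfU := card_fixedBy_add_sum_cycleType (X := SL(2, ℤ) ⧸ Gamma0 N) (S * T)
  rw [h_S, hcard, ← hs, hsums] at hfS
  rw [h_ST, hcard, ← hu, hsumu] at hfU
  have hpar : Even (Multiset.card s.cycleType + (dedekindPsi N + cuspCount N)) := by
    have h1 : sign s = (-1) ^ (Multiset.card s.cycleType) := by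
      rw [sign_of_cycleType, hsums]
      have : 2 * Multiset.card s.cycleType + Multiset.card s.cycleType
        = Multiset.card s.cycleType + 2 * Multiset.card s.cycleType := by ring
      rw [this, pow_add, pow_mul]
      simp
    have h2 : sign t = (-1) ^ (dedekindPsi N + cuspCount N) := by
      rw [sign_eq_neg_one_pow, hcard, ht, ← card_orbits_zpowers]
      exact congrArg (fun k => (-1 : ℤˣ) ^ (dedekindPsi N + k)) h_T
    rw [h1, h2] at hsign
    exact neg_one_pow_eq_iff_units hsign
  obtain ⟨m, hm⟩ := hpar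
  set a := Multiset.card s.cycleType
  set b := Multiset.card u.cycleType
  have hA : (nuTwo N : ℚ) = dedekindPsi N - 2 * a := by
    have : ((nuTwo N + 2 * a : ℕ) : ℚ) = dedekindPsi N := by rw [hfS]
    push_cast at this; linarith
  have hB : (nuThree N : ℚ) = dedekindPsi N - 3 * b := by
    have : ((nuThree N + 3 * b : ℕ) : ℚ) = dedekindPsi N := by rw [hfU]
    push_cast at this; linarith
  have hM : (a : ℚ) + (dedekindPsi N + cuspCount N) = m + m := by exact_mod_cast hm
  have hval : genusFormula N = ((1 + m + b - dedekindPsi N - cuspCount N : ℤ) : ℚ) := by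
    unfold genusFormula
    rw [hA, hB]
    push_cast
    linarith
  refine ⟨(1 + m + b - dedekindPsi N - cuspCount N : ℤ).toNat, ?_⟩
  rw [hval] at hnonneg ⊢
  have h0 : (0 : ℤ) ≤ 1 + m + b - dedekindPsi N - cuspCount N := by exact_mod_cast hnonneg
  have := Int.toNat_of_nonneg h0
  exact_mod_cast this

end Fermat.Agent.S24
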