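import Fermat.Agent.S24.Int
import Fermat.Agent.S24.Targets
import Fermat.Agent.S20.CombBasic
import Fermat.Agent.S20.CombIndex
import Fermat.Agent.S20.CombCusps

/-!
# S24, target (INT): the genus formula is a natural number
-/

set_option autoImplicit false

namespace Fermat.Agent.S24

/-- The final target `TargetInt`. -/
theorem targetInt (N : ℕ) [NeZero N] : TargetInt N :=
  exists_nat_eq_genusFormula N (S20.index_Gamma0 N) (S20.card_fixedBy_S N)
    (S20.card_fixedBy_ST N) (S20.card_orbits_T N)

end Fermat.Agent.S24
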