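import Mathlib
import Fermat.Agent.S24.Hol
import Fermat.Agent.S20.Elliptic

set_option autoImplicit false

open UpperHalfPlane hiding I
open Function Filter WithZero
open scoped Manifold Topology MatrixGroups

namespace Fermat.Agent.S24

noncomputable section

theorem trailingCoeff_sub_eq_deriv {φ : ℂ → ℂ} {x : ℂ} (hφ : AnalyticAt ℂ φ x)
    (h : deriv φ x ≠ 0) : meromorphicTrailingCoeffAt (φ · - φ x) x = deriv φ x := by
  obtain ⟨p, hp⟩ := hφ
  have h1 : AnalyticAt ℂ (dslope φ x) x := ⟨_, hp.has_fpower_series_dslope_fslope⟩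
  have h2 : dslope φ x x = deriv φ x := dslope_same φ x
  rw [← h2]
  apply h1.meromorphicTrailingCoeffAt_of_ne_zero_of_eq_nhdsNE (n := 1) (by rwa [h2])
  filter_upwards with z
  rw [zpow_one, sub_smul_dslope]

/-- trailing coefficient of `f` at `τ`. -/
def holTC (τ : ℍ) (f : Hol) : ℂ := meromorphicTrailingCoeffAt ((f : ℍ → ℂ) ∘ ofComplex) (τ : ℂ)

theorem holTC_ne_zero (τ : ℍ) {f : Hol} (hf : f ≠ 0) : holTC τ f ≠ 0 :=
  (hol_meromorphicAt f τ).meromorphicTrailingCoeffAt_ne_zero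
    (fun h => hf ((holOrd_eq_top_iff τ f).mp h))

theorem holTC_mul (τ : ℍ) (f g : Hol) : holTC τ (f * g) = holTC τ f * holTC τ g :=
  (hol_meromorphicAt f τ).meromorphicTrailingCoeffAt_mul (hol_meromorphicAt g τ)

theorem holTC_compGL (g : GL (Fin 2) ℝ) (hg : 0 < g.det.val) (f : Hol) (τ : ℍ) :
    holTC τ (compGL g hg f) =
      ((g.det.val : ℂ) / denom g τ ^ 2) ^ (holOrd (g • τ) f).untop₀ * holTC (g • τ) f := by
  set φ : ℂ → ℂ := fun z => ↑(g • ofComplex z) with hφ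
  have hφτ : φ τ = ↑(g • τ) := by simp [hφ]
  have han : AnalyticAt ℂ φ τ := τ.analyticAt_smul hg
  have hd : deriv φ τ = (g.det.val : ℂ) / denom g τ ^ 2 := τ.deriv_smul hg
  have hd0 : deriv φ τ ≠ 0 := τ.deriv_smul_ne_zero hg
  have hcomp : ((compGL g hg f : Hol) : ℍ → ℂ) ∘ ofComplex = ((f : ℍ → ℂ) ∘ ofComplex) ∘ φ := by
    funext z
    simp [hφ]
  have hgo : analyticOrderAt (φ · - φ τ) τ = 1 := han.analyticOrderAt_sub_eq_one_of_deriv_ne_zero hd0
  have hnc : ¬ EventuallyConst φ (𝓝 (τ : ℂ)) := by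
    simp [eventuallyConst_iff_analyticOrderAt_sub_eq_top, hgo]
  have hmer : MeromorphicAt ((f : ℍ → ℂ) ∘ ofComplex) (φ τ) := by
    rw [hφτ]; exact hol_meromorphicAt f _
  have key := hmer.meromorphicTrailingCoeffAt_comp han hnc
  rw [trailingCoeff_sub_eq_deriv han hd0, hd, hφτ] at key
  rw [holTC, hcomp, key]
  rfl

/-- Core of the rotation lemma. -/
theorem rotation_core (g : GL (Fin 2) ℝ) (hg : 0 < g.det.val) (τ0 : ℍ) (hfix : g • τ0 = τ0)
    {a b : Hol} (ha : a ≠ 0) (hb : b ≠ 0) (h : compGL g hg a * b = a * compGL g hg b) :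
    ((g.det.val : ℂ) / denom g τ0 ^ 2) ^ ((holOrd τ0 a).untop₀ - (holOrd τ0 b).untop₀) = 1 := by
  have h1 := congrArg (holTC τ0) h
  rw [holTC_mul, holTC_mul, holTC_compGL, holTC_compGL, hfix] at h1
  have hA := holTC_ne_zero τ0 ha
  have hB := holTC_ne_zero τ0 hb
  have hl : ((g.det.val : ℂ) / denom g τ0 ^ 2) ≠ 0 :=
    div_ne_zero (by exact_mod_cast hg.ne') (pow_ne_zero _ (denom_ne_zero g τ0))
  rw [zpow_sub₀ hl, div_eq_one_iff_eq (zpow_ne_zero _ hl)]
  have h2 : ((g.det.val : ℂ) / denom g τ0 ^ 2) ^ (holOrd τ0 a).untop₀ * (holTC τ0 a * holTC τ0 b) =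
      ((g.det.val : ℂ) / denom g τ0 ^ 2) ^ (holOrd τ0 b).untop₀ * (holTC τ0 a * holTC τ0 b) := by
    linear_combination h1
  exact mul_right_cancel₀ (mul_ne_zero hA hB) h2

theorem actHol_inv_eq (g : SL(2, ℤ)) (f : Hol) :
    actHol g⁻¹ f = compGL (Matrix.SpecialLinearGroup.mapGL ℝ g) (det_mapGL_pos g) f := by
  apply Subtype.ext
  funext z
  rw [actHol_apply, inv_inv]
  rfl

theorem holVal_eq_exp_untop (τ : ℍ) {f : Hol} (hf : f ≠ 0) :
    holVal τ f = exp (-(holOrd τ f).untop₀) := by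
  rw [holVal_apply]
  have h : holOrd τ f ≠ ⊤ := fun h => hf ((holOrd_eq_top_iff τ f).mp h)
  obtain ⟨n, hn⟩ := WithTop.ne_top_iff_exists.mp h
  rw [← hn]
  simp

/-- **Rotation lemma.** An element of `Mer` invariant under an elliptic element `g` fixing `τ0`
has order `k` at `τ0` with `(denom g τ0) ^ (2 k) = 1`. -/
theorem denom_zpow_eq_one_of_actMer_eq (g : SL(2, ℤ)) (τ0 : ℍ) (hfix : g • τ0 = τ0) {u : Mer}
    (hu : u ≠ 0) (hinv : actMer g u = u) {k : ℤ} (hk : merVal τ0 u = exp k) :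
    (denom g τ0) ^ (2 * k) = 1 := by
  obtain ⟨a, b, hb, rfl⟩ := IsFractionRing.div_surjective (A := Hol) u
  have hb0 : b ≠ 0 := nonZeroDivisors.ne_zero hb
  have ha0 : a ≠ 0 := by
    rintro rfl
    simp at hu
  have hinj : Function.Injective (algebraMap Hol Mer) := IsFractionRing.injective Hol Mer
  have hbM : algebraMap Hol Mer b ≠ 0 := fun h => hb0 (hinj (h.trans (map_zero _).symm))
  have hinv' : actMer g⁻¹ (algebraMap Hol Mer a / algebraMap Hol Mer b) =
      algebraMap Hol Mer a / algebraMap Hol Mer b := by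
    conv_lhs => rw [← hinv]
    rw [← AlgEquiv.mul_apply, ← map_mul]
    simp
  rw [map_div₀, actMer_algebraMap, actMer_algebraMap, actHol_inv_eq, actHol_inv_eq] at hinv'
  set G := Matrix.SpecialLinearGroup.mapGL ℝ g with hG
  have hGb : compGL G (det_mapGL_pos g) b ≠ 0 := fun h =>
    hb0 (compGL_injective G (det_mapGL_pos g) (h.trans (map_zero _).symm))
  have hGbM : algebraMap Hol Mer (compGL G (det_mapGL_pos g) b) ≠ 0 :=
    fun h => hGb (hinj (h.trans (map_zero _).symm))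
  rw [div_eq_div_iff hGbM hbM, ← map_mul, ← map_mul] at hinv'
  have hcore := rotation_core G (det_mapGL_pos g) τ0 hfix ha0 hb0 (hinj hinv')
  rw [merVal_div, holVal_eq_exp_untop τ0 ha0, holVal_eq_exp_untop τ0 hb0, ← exp_sub, exp_inj] at hk
  have hdet : ((G.det.val : ℝ) : ℂ) = 1 := by simp [hG]
  rw [hdet, one_div, inv_zpow', ← zpow_natCast, ← zpow_mul] at hcore
  rw [← hcore]
  congr 1
  push_cast
  rw [← hk]
  ring

/-- The form used by the place counting lemma. -/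
theorem exists_merVal_eq_exp_mul (g : SL(2, ℤ)) (τ0 : ℍ) (hfix : g • τ0 = τ0) {m : ℕ}
    (hm : IsPrimitiveRoot ((denom g τ0) ^ 2) m) {u : Mer} (hu : u ≠ 0) (hinv : actMer g u = u) :
    ∃ k : ℤ, merVal τ0 u = exp ((m : ℤ) * k) := by
  obtain ⟨k, hk⟩ := exists_merVal_eq_exp τ0 hu
  have h1 := denom_zpow_eq_one_of_actMer_eq g τ0 hfix hu hinv hk
  rw [zpow_mul, zpow_ofNat] at h1
  obtain ⟨l, rfl⟩ := (hm.zpow_eq_one_iff_dvd k).mp h1
  exact ⟨l, hk⟩

theorem isPrimitiveRoot_denom_S_I :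
    IsPrimitiveRoot ((denom (ModularGroup.S : SL(2, ℤ)) UpperHalfPlane.I) ^ 2) 2 := by
  rw [S20.denom_S_I, Complex.I_sq]
  exact IsPrimitiveRoot.neg_one 0 (by norm_num)

theorem isPrimitiveRoot_denom_ST_rho :
    IsPrimitiveRoot ((denom (ModularGroup.S * ModularGroup.T : SL(2, ℤ)) S20.rhoPt) ^ 2) 3 := by
  rw [S20.denom_ST]
  have h1 : ((S20.rhoPt : ℂ) + 1) ^ 2 = S20.rhoPt := by linear_combination S20.rhoPt_sq
  rw [h1]
  have hne : (S20.rhoPt : ℂ) ≠ 1 := by
    intro h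
    have := S20.rhoPt_sq
    rw [h] at this
    norm_num at this
  have := orderOf_eq_prime (p := 3) S20.rho_cube hne
  rw [← this]
  exact IsPrimitiveRoot.orderOf _

/-- `S`-invariant elements of `Mer` have even order at `i`. -/
theorem exists_merVal_I_eq {u : Mer} (hu : u ≠ 0) (hinv : actMer ModularGroup.S u = u) :
    ∃ k : ℤ, merVal UpperHalfPlane.I u = exp (((2 : ℕ) : ℤ) * k) :=
  exists_merVal_eq_exp_mul _ _ S20.S_smul_I isPrimitiveRoot_denom_S_I hu hinv

/-- `S*T`-invariant elements of `Mer` have order divisible by `3` at `ρ`. -/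
theorem exists_merVal_rho_eq {u : Mer} (hu : u ≠ 0)
    (hinv : actMer (ModularGroup.S * ModularGroup.T) u = u) :
    ∃ k : ℤ, merVal S20.rhoPt u = exp (((3 : ℕ) : ℤ) * k) :=
  exists_merVal_eq_exp_mul _ _ S20.ST_smul_rhoPt isPrimitiveRoot_denom_ST_rho hu hinv

end

end Fermat.Agent.S24
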