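import Fermat.Agent.S24.Targets
import Fermat.Agent.S24.Sigma
import Fermat.Agent.S24.Conj
import Fermat.Agent.S24.Rotation
import Fermat.Agent.S24.Orbits
import Fermat.Agent.S24.FF.Glue
import Fermat.Agent.S24.FF.Places
import Fermat.Agent.S24.Differential

/-!
ELLIPTIC DATA: the number of places of the function field of `X₀(N)` over a point `j = c`.
The degree theorem (`hparam`, `hdeg`) and the analytic facts on the orders of `j - c` are
explicit hypotheses here; they are discharged in `PointTargets.lean`.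
-/

set_option autoImplicit false

open UpperHalfPlane hiding I
open AlgebraicCurve IntermediateField WithZero
open scoped MatrixGroups

namespace Fermat.Agent.S24

noncomputable section

theorem sigma_jF_sub (N : ℕ) (x : XN N) (c : Kb) :
    sigma N x (jF N - algebraMap Kb (FN N) c) =
      algebraMap Hol Mer (jdHol 1 - algebraMap ℂ Hol (iotaK c)) := by
  rw [RingHom.map_sub, sigma_jF jfun_isSLInvariant, sigma_algebraMap, RingHom.map_sub,
    ← IsScalarTower.algebraMap_apply]

theorem coe_jdHol_one_sub (c : ℂ) :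
    ((jdHol 1 - algebraMap ℂ Hol c : Hol) : ℍ → ℂ) = fun z => jfun z - c := by
  funext z
  show jd 1 z - c = jfun z - c
  rw [jd_one]

theorem merVal_sigma_jF_sub (N : ℕ) (x : XN N) (c : Kb) (τ0 : ℍ) (e0 : ℕ)
    (hord : analyticOrderAt ((fun z => jfun z - iotaK c) ∘ ofComplex) (τ0 : ℂ) = e0) :
    merVal τ0 (sigma N x (jF N - algebraMap Kb (FN N) c)) = exp (-(e0 : ℤ)) := by
  rw [sigma_jF_sub, merVal_algebraMap, holVal_eq_exp_iff, coe_jdHol_one_sub, hord]

theorem merVal_sigma_algebraMap (N : ℕ) (x : XN N) (τ0 : ℍ) (a : Kb) (ha : a ≠ 0) :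
    merVal τ0 (sigma N x (algebraMap Kb (FN N) a)) = 1 := by
  rw [sigma_algebraMap]
  exact merVal_algebraMap_complex τ0 ((map_ne_zero iotaK).mpr ha)

section

variable (N : ℕ) [NeZero N] (hparam : IsFiniteParam Kb (jF N))

omit [NeZero N] in
include hparam in
theorem exists_place_FN : Nonempty (Place Kb (FN N)) := by
  by_contra h
  rw [not_nonempty_iff] at h
  have h1 := hparam.sum_zeros
  have := hparam.finite
  have h2 : 0 < Module.finrank Kb⟮jF N⟯ (FN N) := Module.finrank_pos
  rw [Finset.sum_eq_zero (fun v _ => (h.false v).elim)] at h1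
  omega

omit [NeZero N] in
include hparam in
theorem targetNontrivial_of : TargetNontrivial N := by
  obtain ⟨v⟩ := exists_place_FN N hparam
  exact nontrivial_kaehler v (hparam.bijective_algebraMap_residueField v).2

variable (hdeg : Module.finrank Kb⟮jF N⟯ (FN N) = Nat.card (XN N))

include hparam hdeg in
theorem card_fibre_of_order_one (c : Kb) (τ0 : ℍ)
    (hord : analyticOrderAt ((fun z => jfun z - iotaK c) ∘ ofComplex) (τ0 : ℂ) = 1) :
    Nat.card {v : Place Kb (FN N) // 0 < v.ord (jF N - algebraMap Kb (FN N) c)}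
      = Nat.card (XN N) := by
  have := finite_quotient_Gamma0 N
  let _ : Fintype (XN N) := Fintype.ofFinite _
  rw [Nat.card_eq_fintype_card (α := XN N)]
  refine (hparam.sub_const c).card_zeros_eq_card (merVal τ0) ?_ (sigma N)
    (sigma_injective jfun_isSLInvariant jfun_hasSimplePoleAtImInfty N) ?_ ?_ ?_ ?_
  · rw [IsFiniteParam.finrank_sub_const, hdeg, Nat.card_eq_fintype_card]
  · intro i j a
    rw [sigma_algebraMap, sigma_algebraMap]
  · intro i j
    rw [sigma_jF_sub, sigma_jF_sub]
  · intro i a ha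
    exact merVal_sigma_algebraMap N i τ0 a ha
  · intro i
    exact merVal_sigma_jF_sub N i c τ0 1 (by simpa using hord)

include hparam hdeg in
theorem card_fibre_of_elliptic (c : Kb) (τ0 : ℍ) (p : ℕ) (hp : p.Prime)
    (hord : analyticOrderAt ((fun z => jfun z - iotaK c) ∘ ofComplex) (τ0 : ℂ) = p)
    (s : SL(2, ℤ)) (hfix : s • τ0 = τ0) (hs : ∀ x : XN N, s ^ p • x = x)
    (hrot : ∀ u : Mer, u ≠ 0 → actMer s u = u → ∃ k : ℤ, merVal τ0 u = exp ((p : ℤ) * k)) :
    Nat.card {v : Place Kb (FN N) // 0 < v.ord (jF N - algebraMap Kb (FN N) c)}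
      = orbCount N s := by
  have := finite_quotient_Gamma0 N
  let _ : Fintype (XN N) := Fintype.ofFinite _
  refine (hparam.sub_const c).card_zeros_eq_card_orbits (merVal τ0) ?_ (sigma N)
    (sigma_injective jfun_isSLInvariant jfun_hasSimplePoleAtImInfty N) ?_ ?_ ?_ p hp ?_ s hs
    ((actMer s : Mer ≃ₐ[ℂ] Mer) : Mer →+* Mer) ?_ ?_ hrot
  · rw [IsFiniteParam.finrank_sub_const, hdeg, Nat.card_eq_fintype_card]
  · intro i j a
    rw [sigma_algebraMap, sigma_algebraMap]
  · intro i j
    rw [sigma_jF_sub, sigma_jF_sub]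
  · intro i a ha
    exact merVal_sigma_algebraMap N i τ0 a ha
  · intro i
    exact merVal_sigma_jF_sub N i c τ0 p hord
  · intro x f
    exact actMer_sigma jfun_isSLInvariant N s x f
  · intro u
    show merVal τ0 (actMer s u) = merVal τ0 u
    rw [merVal_actMer, inv_smul_eq_iff.mpr hfix.symm]

include hparam hdeg in
theorem targetGeneric_of (hsurj : Function.Surjective jfun)
    (hord1 : ∀ (τ : ℍ) (c : ℂ), jfun τ = c → c ≠ 0 → c ≠ 1728 →
      analyticOrderAt ((fun z => jfun z - c) ∘ ofComplex) (τ : ℂ) = 1) :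
    TargetGeneric N := by
  intro c h0 h1
  obtain ⟨τ0, hτ0⟩ := hsurj (iotaK c)
  refine card_fibre_of_order_one N hparam hdeg c τ0 (hord1 τ0 _ hτ0 ?_ ?_)
  · exact (map_ne_zero iotaK).mpr h0
  · intro h
    apply h1
    apply iotaK.toRingHom.injective
    show iotaK c = iotaK 1728
    rw [h, map_ofNat]

include hparam hdeg in
theorem targetI_of
    (hord2 : analyticOrderAt ((fun z => jfun z - 1728) ∘ ofComplex)
      ((UpperHalfPlane.I : ℍ) : ℂ) = 2) :
    TargetI N := by
  refine card_fibre_of_elliptic N hparam hdeg 1728 UpperHalfPlane.I 2 Nat.prime_two ?_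
    ModularGroup.S S20.S_smul_I (S_sq_smul N) (fun u hu h => exists_merVal_I_eq hu h)
  rw [map_ofNat]
  exact hord2

include hparam hdeg in
theorem targetRho_of
    (hord3 : analyticOrderAt (jfun ∘ ofComplex) (S20.rhoPt : ℂ) = 3) :
    TargetRho N := by
  refine card_fibre_of_elliptic N hparam hdeg 0 S20.rhoPt 3 Nat.prime_three ?_
    (ModularGroup.S * ModularGroup.T) S20.ST_smul_rhoPt (ST_cube_smul N)
    (fun u hu h => exists_merVal_rho_eq hu h)
  rw [map_zero]
  simpa using hord3

end

end

end Fermat.Agent.S24
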